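/-
S14 helper library: additive valuations at finite places and the two local subgroups
(`splitSub`, `unrSub`) attached to Kummer theory of exponent `p`.
-/
import Mathlib

set_option autoImplicit false
set_option linter.unusedSectionVars false

open IsDedekindDomain NumberField WithZero
open scoped NumberField

namespace FLTAgent.Ext

abbrev Place (K : Type*) [Field K] := HeightOneSpectrum (𝓞 K)

variable {K : Type*} [Field K] [NumberField K]

/-- The additive valuation (junk value `0` at `0`). -/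
noncomputable def ord (v : Place K) (x : K) : ℤ := -WithZero.log (v.valuation K x)

lemma valuation_eq_exp_ord (v : Place K) {x : K} (hx : x ≠ 0) :
    v.valuation K x = exp (-(ord v x)) := by
  rw [ord, neg_neg, exp_log]
  simpa using hx

lemma ord_mul (v : Place K) {x y : K} (hx : x ≠ 0) (hy : y ≠ 0) :
    ord v (x * y) = ord v x + ord v y := by
  simp only [ord, map_mul]
  rw [log_mul (by simpa using hx) (by simpa using hy)]
  ring

@[simp] lemma ord_one (v : Place K) : ord v (1 : K) = 0 := by simp [ord]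

lemma ord_neg (v : Place K) (x : K) : ord v (-x) = ord v x := by simp [ord]

/-- The additive valuation as a homomorphism on the multiplicative group. -/
noncomputable def ordHom (v : Place K) : Additive Kˣ →+ ℤ where
  toFun x := ord v ((Additive.toMul x : Kˣ) : K)
  map_zero' := by simp
  map_add' x y := by
    simp only [toMul_add, Units.val_mul]
    exact ord_mul v (Units.ne_zero _) (Units.ne_zero _)

lemma ordHom_apply (v : Place K) (x : Kˣ) : ordHom v (Additive.ofMul x) = ord v (x : K) := rfl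

lemma ord_pow (v : Place K) (x : K) (n : ℕ) : ord v (x ^ n) = n * ord v x := by
  simp [ord, log_pow]

lemma ord_inv (v : Place K) (x : K) : ord v x⁻¹ = -ord v x := by
  simp [ord, log_inv]

lemma ord_div (v : Place K) {x y : K} (hx : x ≠ 0) (hy : y ≠ 0) :
    ord v (x / y) = ord v x - ord v y := by
  rw [div_eq_mul_inv, ord_mul v hx (inv_ne_zero hy), ord_inv]; ring

lemma ord_zpow (v : Place K) (x : K) (n : ℤ) : ord v (x ^ n) = n * ord v x := by
  simp [ord, log_zpow]

lemma valuation_eq_one_iff_ord (v : Place K) {x : K} (hx : x ≠ 0) :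
    v.valuation K x = 1 ↔ ord v x = 0 := by
  rw [valuation_eq_exp_ord v hx, ← exp_zero, exp_inj, neg_eq_zero]

lemma valuation_le_one_iff_ord (v : Place K) {x : K} (hx : x ≠ 0) :
    v.valuation K x ≤ 1 ↔ 0 ≤ ord v x := by
  rw [valuation_eq_exp_ord v hx, ← exp_zero, exp_le_exp]; omega

lemma valuation_lt_one_iff_ord (v : Place K) {x : K} (hx : x ≠ 0) :
    v.valuation K x < 1 ↔ 0 < ord v x := by
  rw [valuation_eq_exp_ord v hx, ← exp_zero, exp_lt_exp]; omega

lemma valuation_coe_le_one (v : Place K) (x : 𝓞 K) : v.valuation K (x : K) ≤ 1 :=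
  v.valuation_le_one x

lemma valuation_natCast_le_one (v : Place K) (n : ℕ) : v.valuation K (n : K) ≤ 1 := by
  simpa using v.valuation_le_one (K := K) (n : 𝓞 K)

lemma valuation_intCast_le_one (v : Place K) (n : ℤ) : v.valuation K (n : K) ≤ 1 := by
  simpa using v.valuation_le_one (K := K) (n : 𝓞 K)

lemma finite_ord_ne_zero (x : K) : {v : Place K | ord v x ≠ 0}.Finite := by
  by_cases hx : x = 0
  · simp [hx, ord]
  have h1 := HeightOneSpectrum.Support.finite (R := 𝓞 K) (K := K) x
  have h2 := HeightOneSpectrum.Support.finite (R := 𝓞 K) (K := K) x⁻¹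
  apply (h1.union h2).subset
  intro v hv
  simp only [Set.mem_ofPred_eq] at hv
  rcases lt_or_gt_of_ne hv with h | h
  · left
    show 1 < v.valuation K x
    rw [valuation_eq_exp_ord v hx, ← exp_zero, exp_lt_exp]; omega
  · right
    show 1 < v.valuation K x⁻¹
    rw [valuation_eq_exp_ord v (inv_ne_zero hx), ord_inv, ← exp_zero, exp_lt_exp]; omega

lemma exists_ord_eq_one (v : Place K) : ∃ π : Kˣ, ord v (π : K) = 1 := by
  obtain ⟨π, hπ⟩ := v.valuation_exists_uniformizer K
  have h0 : π ≠ 0 := fun h => by rw [h, map_zero] at hπ; exact exp_ne_zero hπ.symm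
  refine ⟨Units.mk0 π h0, ?_⟩
  rw [valuation_eq_exp_ord v h0, exp_inj] at hπ
  rw [Units.val_mk0]; omega

/-- The units at `v`, as a subgroup of `Kˣ`. -/
def unitsAt (v : Place K) : Subgroup Kˣ where
  carrier := {u | v.valuation K (u : K) = 1}
  one_mem' := by simp
  mul_mem' := by intro a b ha hb; simp_all
  inv_mem' := by intro a ha; simp_all

lemma mem_unitsAt {v : Place K} {u : Kˣ} : u ∈ unitsAt v ↔ v.valuation K (u : K) = 1 := Iff.rfl

lemma mem_unitsAt_iff_ord {v : Place K} {u : Kˣ} : u ∈ unitsAt v ↔ ord v (u : K) = 0 :=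
  valuation_eq_one_iff_ord v u.ne_zero

lemma eq_one_of_pow_eq_one {a : ℤᵐ⁰} {n : ℕ} (hn : n ≠ 0) (h : a ^ n = 1) : a = 1 := by
  rcases lt_trichotomy a 1 with h1 | h1 | h1
  · exact absurd h (pow_lt_one₀ zero_le h1 hn).ne
  · exact h1
  · exact absurd h (one_lt_pow₀ h1 hn).ne'

section roots

variable {p : ℕ} [hp : Fact p.Prime] {ζ : K}

lemma valuation_root_eq_one (hζ : IsPrimitiveRoot ζ p) (v : Place K) : v.valuation K ζ = 1 := by
  have h : (v.valuation K ζ) ^ p = 1 := by rw [← map_pow, hζ.pow_eq_one, map_one]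
  exact eq_one_of_pow_eq_one hp.out.ne_zero h

lemma valuation_sub_one_le (hζ : IsPrimitiveRoot ζ p) (v : Place K) :
    v.valuation K (ζ - 1) ≤ 1 := by
  refine le_trans (Valuation.map_sub _ _ _) ?_
  simp [valuation_root_eq_one hζ v]

lemma valuation_geom_le (hζ : IsPrimitiveRoot ζ p) (v : Place K) (i : ℕ) :
    v.valuation K (ζ ^ i - 1) ≤ v.valuation K (ζ - 1) := by
  rw [← geom_sum_mul ζ i, map_mul]
  refine mul_le_of_le_one_left' ?_
  refine Valuation.map_sum_le _ fun j _ => ?_
  simp [valuation_root_eq_one hζ v]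

lemma valuation_pow_sub_one (hζ : IsPrimitiveRoot ζ p) (v : Place K) {i : ℕ} (hi : ¬ p ∣ i) :
    v.valuation K (ζ ^ i - 1) = v.valuation K (ζ - 1) := by
  refine le_antisymm (valuation_geom_le hζ v i) ?_
  have hco : Nat.Coprime i p := ((hp.out.coprime_iff_not_dvd).mpr hi).symm
  obtain ⟨j, -, hj⟩ := (Nat.exists_mul_mod_eq_one_of_coprime hco hp.out.one_lt)
  have : (ζ ^ i) ^ j = ζ := by
    rw [← pow_mul, ← Nat.div_add_mod (i * j) p, hj, pow_add, pow_mul, hζ.pow_eq_one, one_pow,
      one_mul, pow_one]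
  have hζi : IsPrimitiveRoot (ζ ^ i) p := hζ.pow_of_coprime i hco
  have := valuation_geom_le hζi v j
  rwa [‹(ζ ^ i) ^ j = ζ›] at this

lemma prod_one_sub_root (hζ : IsPrimitiveRoot ζ p) :
    ∏ i ∈ Finset.range (p - 1), (1 - ζ ^ (i + 1)) = (p : K) := by
  obtain ⟨n, hn⟩ := Nat.exists_eq_add_of_le' hp.out.one_le
  subst hn
  simpa using hζ.prod_one_sub_pow_eq_order

lemma valuation_natCast_eq (hζ : IsPrimitiveRoot ζ p) (v : Place K) :
    v.valuation K (p : K) = v.valuation K (ζ - 1) ^ (p - 1) := by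
  rw [← prod_one_sub_root hζ, map_prod]
  rw [Finset.prod_congr rfl (g := fun _ => v.valuation K (ζ - 1))]
  · simp
  intro i hi
  rw [Valuation.map_sub_swap, valuation_pow_sub_one hζ v]
  intro hd
  have := Nat.le_of_dvd (Nat.succ_pos i) hd
  simp only [Finset.mem_range] at hi
  omega

/-- The Kummer threshold at `v`. -/
noncomputable def thr (_hζ : IsPrimitiveRoot ζ p) (v : Place K) : ℤᵐ⁰ :=
  v.valuation K (ζ - 1) ^ p

variable (hζ : IsPrimitiveRoot ζ p)

lemma thr_pos (v : Place K) : 0 < thr hζ v := by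
  refine pow_pos (zero_lt_iff.mpr ?_) _
  simp [sub_eq_zero, hζ.ne_one hp.out.one_lt]

lemma thr_le_one (v : Place K) : thr hζ v ≤ 1 := pow_le_one' (valuation_sub_one_le hζ v) _

include hζ in
lemma valuation_sub_one_eq_one {v : Place K} (hv : v.valuation K (p : K) = 1) :
    v.valuation K (ζ - 1) = 1 := by
  rw [valuation_natCast_eq hζ v] at hv
  exact eq_one_of_pow_eq_one (Nat.sub_ne_zero_of_lt hp.out.one_lt) hv

lemma thr_eq_one {v : Place K} (hv : v.valuation K (p : K) = 1) : thr hζ v = 1 := by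
  simp [thr, valuation_sub_one_eq_one hζ hv]

lemma valuation_eq_one_of_near {v : Place K} {u : K} (h : v.valuation K (u - 1) < thr hζ v) :
    v.valuation K u = 1 := by
  have := Valuation.map_one_add_of_lt (v.valuation K) (lt_of_lt_of_le h (thr_le_one hζ v))
  simpa using this

/-- Elements congruent to `1` beyond the Kummer threshold. -/
noncomputable def near (v : Place K) : Subgroup Kˣ where
  carrier := {u | v.valuation K ((u : K) - 1) < thr hζ v}
  one_mem' := by simpa using thr_pos hζ v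
  mul_mem' := by
    intro a b ha hb
    simp only [Set.mem_ofPred_eq, Units.val_mul] at *
    have : (a : K) * b - 1 = (a : K) * (b - 1) + (a - 1) := by ring
    rw [this]
    refine Valuation.map_add_lt _ ?_ ha
    rw [map_mul, valuation_eq_one_of_near hζ ha, one_mul]; exact hb
  inv_mem' := by
    intro a ha
    simp only [Set.mem_ofPred_eq] at *
    have : ((a⁻¹ : Kˣ) : K) - 1 = -((a⁻¹ : Kˣ) : K) * ((a : K) - 1) := by
      simp [mul_sub]; ring
    rw [this, map_mul, Valuation.map_neg, Units.val_inv_eq_inv_val, map_inv₀,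
      valuation_eq_one_of_near hζ ha, inv_one, one_mul]
    exact ha

/-- Units congruent to `1` up to the Kummer threshold (inclusive). -/
noncomputable def nearLE (v : Place K) : Subgroup Kˣ where
  carrier := {u | v.valuation K (u : K) = 1 ∧ v.valuation K ((u : K) - 1) ≤ thr hζ v}
  one_mem' := by simp
  mul_mem' := by
    intro a b ha hb
    simp only [Set.mem_ofPred_eq, Units.val_mul] at *
    refine ⟨by simp [ha.1, hb.1], ?_⟩
    have : (a : K) * b - 1 = (a : K) * (b - 1) + (a - 1) := by ring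
    rw [this]
    refine Valuation.map_add_le _ ?_ ha.2
    rw [map_mul, ha.1, one_mul]; exact hb.2
  inv_mem' := by
    intro a ha
    simp only [Set.mem_ofPred_eq] at *
    refine ⟨by simp [ha.1], ?_⟩
    have : ((a⁻¹ : Kˣ) : K) - 1 = -((a⁻¹ : Kˣ) : K) * ((a : K) - 1) := by
      simp [mul_sub]; ring
    rw [this, map_mul, Valuation.map_neg, Units.val_inv_eq_inv_val, map_inv₀, ha.1, inv_one,
      one_mul]
    exact ha.2

/-- The subgroup of `p`-th powers. -/
def powSub (K : Type*) [Field K] (p : ℕ) : Subgroup Kˣ := (powMonoidHom p : Kˣ →* Kˣ).range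

lemma mem_powSub {x : Kˣ} : x ∈ powSub K p ↔ ∃ y : Kˣ, y ^ p = x := by
  simp [powSub, MonoidHom.mem_range]

/-- `x` is a `p`-th power up to the split threshold at `v`. -/
noncomputable def splitSub (v : Place K) : Subgroup Kˣ := near hζ v ⊔ powSub K p

/-- `x` is a `p`-th power up to the unramified threshold at `v`. -/
noncomputable def unrSub (v : Place K) : Subgroup Kˣ := nearLE hζ v ⊔ powSub K p

lemma mem_splitSub {v : Place K} {x : Kˣ} :
    x ∈ splitSub hζ v ↔ ∃ y : Kˣ, x / y ^ p ∈ near hζ v := by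
  rw [splitSub, Subgroup.mem_sup]
  constructor
  · rintro ⟨u, hu, z, hz, rfl⟩
    obtain ⟨y, rfl⟩ := mem_powSub.mp hz
    exact ⟨y, by simpa using hu⟩
  · rintro ⟨y, hy⟩
    exact ⟨_, hy, y ^ p, mem_powSub.mpr ⟨y, rfl⟩, by simp⟩

lemma mem_unrSub {v : Place K} {x : Kˣ} :
    x ∈ unrSub hζ v ↔ ∃ y : Kˣ, x / y ^ p ∈ nearLE hζ v := by
  rw [unrSub, Subgroup.mem_sup]
  constructor
  · rintro ⟨u, hu, z, hz, rfl⟩
    obtain ⟨y, rfl⟩ := mem_powSub.mp hz
    exact ⟨y, by simpa using hu⟩
  · rintro ⟨y, hy⟩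
    exact ⟨_, hy, y ^ p, mem_powSub.mpr ⟨y, rfl⟩, by simp⟩

lemma near_le_nearLE (v : Place K) : near hζ v ≤ nearLE hζ v :=
  fun _ hu => ⟨valuation_eq_one_of_near hζ hu, hu.le⟩

lemma splitSub_le_unrSub (v : Place K) : splitSub hζ v ≤ unrSub hζ v :=
  sup_le_sup_right (near_le_nearLE hζ v) _

lemma powSub_le_splitSub (v : Place K) : powSub K p ≤ splitSub hζ v := le_sup_right

lemma powSub_le_unrSub (v : Place K) : powSub K p ≤ unrSub hζ v := le_sup_right

lemma near_le_splitSub (v : Place K) : near hζ v ≤ splitSub hζ v := le_sup_left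

lemma dvd_ord_of_mem_unrSub {v : Place K} {x : Kˣ} (hx : x ∈ unrSub hζ v) :
    (p : ℤ) ∣ ord v (x : K) := by
  obtain ⟨y, hy⟩ := (mem_unrSub hζ).mp hx
  have h := (valuation_eq_one_iff_ord v (Units.ne_zero _)).mp hy.1
  rw [Units.val_div_eq_div_val, ord_div v x.ne_zero (Units.ne_zero _), Units.val_pow_eq_pow_val,
    ord_pow] at h
  exact ⟨ord v (y : K), by linarith⟩

lemma dvd_ord_of_mem_splitSub {v : Place K} {x : Kˣ} (hx : x ∈ splitSub hζ v) :
    (p : ℤ) ∣ ord v (x : K) := dvd_ord_of_mem_unrSub hζ (splitSub_le_unrSub hζ v hx)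

lemma mem_unrSub_of_dvd_ord {v : Place K} (hv : v.valuation K (p : K) = 1) {x : Kˣ}
    (hx : (p : ℤ) ∣ ord v (x : K)) : x ∈ unrSub hζ v := by
  obtain ⟨k, hk⟩ := hx
  obtain ⟨π, hπ⟩ := exists_ord_eq_one v
  refine (mem_unrSub hζ).mpr ⟨π ^ k, ?_⟩
  have h1 : v.valuation K ((x / (π ^ k) ^ p : Kˣ) : K) = 1 := by
    rw [valuation_eq_one_iff_ord v (Units.ne_zero _), Units.val_div_eq_div_val,
      ord_div v x.ne_zero (Units.ne_zero _), Units.val_pow_eq_pow_val, ord_pow,
      Units.val_zpow_eq_zpow_val, ord_zpow, hπ, hk]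
    ring
  refine ⟨h1, ?_⟩
  rw [thr_eq_one hζ hv]
  refine le_trans (Valuation.map_sub _ _ _) ?_
  rw [h1, map_one, max_self]

lemma mem_unrSub_iff_dvd_ord {v : Place K} (hv : v.valuation K (p : K) = 1) {x : Kˣ} :
    x ∈ unrSub hζ v ↔ (p : ℤ) ∣ ord v (x : K) :=
  ⟨dvd_ord_of_mem_unrSub hζ, mem_unrSub_of_dvd_ord hζ hv⟩

lemma finite_not_unramifiedPlace :
    {v : Place K | v.valuation K (p : K) ≠ 1}.Finite := by
  refine (finite_ord_ne_zero (p : K)).subset fun v hv => ?_
  intro h
  exact hv ((valuation_eq_one_iff_ord v (Nat.cast_ne_zero.mpr hp.out.ne_zero)).mpr h)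

lemma finite_not_unrSub (x : Kˣ) :
    {v : Place K | x ∉ unrSub hζ v}.Finite := by
  refine ((finite_not_unramifiedPlace (K := K) (p := p)).union
    (finite_ord_ne_zero (x : K))).subset fun v hv => ?_
  by_contra hc
  simp only [Set.mem_union, Set.mem_ofPred_eq, not_or, not_not] at hc
  exact hv (mem_unrSub_of_dvd_ord hζ hc.1 (by simp [hc.2]))

end roots

end FLTAgent.Ext
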