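/-
S14 helper library: residue homomorphisms, index bounds of the local subgroup `splitSub`,
the power residue symbol, and weak approximation.
-/
import Fermat.Agent.Ext.Ord

set_option autoImplicit false
set_option linter.unusedSectionVars false

open IsDedekindDomain NumberField WithZero
open scoped NumberField

namespace FLTAgent.Ext

variable {K : Type*} [Field K] [NumberField K]

section approx

lemma valuation_le_exp_iff_mem (v : Place K) (r : 𝓞 K) (k : ℕ) :
    v.valuation K (r : K) ≤ exp (-(k : ℤ)) ↔ r ∈ v.asIdeal ^ k := by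
  rw [← v.intValuation_le_pow_iff_mem r k]
  exact Iff.of_eq (by rw [show (r : K) = algebraMap (𝓞 K) K r from rfl,
    HeightOneSpectrum.valuation_of_algebraMap])

lemma exists_exp_neg_le {γ : ℤᵐ⁰} (hγ : 0 < γ) : ∃ k : ℕ, exp (-(k : ℤ)) < γ := by
  refine ⟨((-(log γ)).toNat + 1), ?_⟩
  rw [← exp_log hγ.ne', exp_lt_exp, log_exp]
  omega

lemma exists_integral_rep (v : Place K) (k : ℕ) {x : K} (hx : v.valuation K x ≤ 1) :
    ∃ a : 𝓞 K, v.valuation K ((a : K) - x) ≤ exp (-(k : ℤ)) := by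
  obtain ⟨a, ha⟩ := v.exists_valuation_sub_lt_of_integer hx
    (Units.mk0 (exp (-(k : ℤ))) exp_ne_zero)
  exact ⟨a, ha.le⟩

/-- Weak approximation in `Kˣ` at a finite set of places. -/
lemma exists_units_approx (B : Finset (Place K)) (k : Place K → ℕ) (f : Place K → Kˣ) :
    ∃ y : Kˣ, ∀ v ∈ B, v.valuation K ((y / f v : Kˣ) - 1 : K) < exp (-(k v : ℤ)) := by
  classical
  choose n d hd hnd using fun v => IsFractionRing.div_surjective (A := 𝓞 K) ((f v : Kˣ) : K)
  set D : 𝓞 K := ∏ v ∈ B, d v with hD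
  have hD0 : (D : 𝓞 K) ≠ 0 :=
    Finset.prod_ne_zero_iff.mpr fun v _ => nonZeroDivisors.ne_zero (hd v)
  let N : Place K → 𝓞 K := fun v => n v * ∏ w ∈ B.erase v, d w
  have hN : ∀ v ∈ B, (N v : K) = (f v : K) * (D : K) := by
    intro v hv
    rw [hD, ← Finset.mul_prod_erase B d hv]
    show algebraMap (𝓞 K) K _ = _ * algebraMap (𝓞 K) K _
    rw [map_mul, map_mul, ← mul_assoc]
    congr 1
    rw [← hnd v, div_mul_cancel₀]
    exact IsFractionRing.to_map_ne_zero_of_mem_nonZeroDivisors (hd v)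
  have hN0 : ∀ v ∈ B, (N v : K) ≠ 0 := fun v hv => by
    rw [hN v hv]
    exact mul_ne_zero (Units.ne_zero _) (RingOfIntegers.coe_ne_zero_iff.mpr hD0)
  let e : Place K → ℕ := fun v => k v + 1 + (ord v (N v : K)).toNat
  obtain ⟨Y, hY⟩ := IsDedekindDomain.exists_forall_sub_mem_ideal (R := 𝓞 K) (s := B)
    (fun v => v.asIdeal) e (fun v _ => v.prime)
    (fun v _ w _ hvw h => hvw (HeightOneSpectrum.ext h)) (fun v => N v.1)
  by_cases hB : B = ∅
  · subst hB; exact ⟨1, by simp⟩
  have key : ∀ v ∈ B, v.valuation K ((Y : K) - (N v : K)) <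
      exp (-(k v : ℤ)) * v.valuation K (N v : K) := by
    intro v hv
    have h := (valuation_le_exp_iff_mem v (Y - N v) (e v)).mpr (hY v hv)
    rw [show ((Y - N v : 𝓞 K) : K) = (Y : K) - (N v : K) by simp] at h
    refine lt_of_le_of_lt h ?_
    rw [valuation_eq_exp_ord v (hN0 v hv), ← exp_add, exp_lt_exp]
    have h1 := Int.self_le_toNat (ord v (N v : K))
    push_cast [e]
    omega
  have hY0 : (Y : K) ≠ 0 := by
    obtain ⟨v, hv⟩ := Finset.nonempty_iff_ne_empty.mpr hB
    intro h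
    have := key v hv
    rw [h, zero_sub, Valuation.map_neg] at this
    have h2 : exp (-(k v : ℤ)) * v.valuation K (N v : K) ≤ v.valuation K (N v : K) := by
      refine mul_le_of_le_one_left' ?_
      rw [← exp_zero, exp_le_exp]; omega
    exact absurd (this.trans_le h2) (lt_irrefl _)
  refine ⟨Units.mk0 ((Y : K) / (D : K))
    (div_ne_zero hY0 (RingOfIntegers.coe_ne_zero_iff.mpr hD0)), fun v hv => ?_⟩
  have hDK : (D : K) ≠ 0 := RingOfIntegers.coe_ne_zero_iff.mpr hD0
  have : ((Units.mk0 ((Y : K) / (D : K)) (div_ne_zero hY0 hDK) / f v : Kˣ) : K) - 1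
      = ((Y : K) - N v) / (N v : K) := by
    rw [hN v hv, Units.val_div_eq_div_val, Units.val_mk0]
    field_simp
  rw [this, map_div₀, div_lt_iff₀ (zero_lt_iff.mpr (by simpa using hN0 v hv))]
  exact key v hv

end approx

section residue

/-- Residue map on units at `v` modulo the `k`-th power of `v`. -/
noncomputable def resFun (v : Place K) (k : ℕ) (u : unitsAt v) : (𝓞 K) ⧸ v.asIdeal ^ k :=
  Ideal.Quotient.mk _ (exists_integral_rep v k (le_of_eq u.2)).choose

lemma resFun_eq (v : Place K) (k : ℕ) (u : unitsAt v) (a : 𝓞 K)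
    (ha : v.valuation K ((a : K) - (u : Kˣ)) ≤ exp (-(k : ℤ))) :
    resFun v k u = Ideal.Quotient.mk _ a := by
  unfold resFun
  rw [Ideal.Quotient.eq, ← valuation_le_exp_iff_mem]
  have h := (exists_integral_rep v k (le_of_eq u.2)).choose_spec
  set c := (exists_integral_rep v k (le_of_eq u.2)).choose
  rw [show ((c - a : 𝓞 K) : K) = ((c : K) - (u : Kˣ)) - ((a : K) - (u : Kˣ)) by simp]
  exact le_trans (Valuation.map_sub _ _ _) (max_le h ha)

lemma resFun_spec (v : Place K) (k : ℕ) (u : unitsAt v) :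
    ∃ a : 𝓞 K, v.valuation K ((a : K) - (u : Kˣ)) ≤ exp (-(k : ℤ)) ∧
      resFun v k u = Ideal.Quotient.mk _ a :=
  ⟨_, (exists_integral_rep v k (le_of_eq u.2)).choose_spec, rfl⟩

/-- Residue homomorphism on units at `v`. -/
noncomputable def resHom (v : Place K) (k : ℕ) : unitsAt v →* ((𝓞 K) ⧸ v.asIdeal ^ k)ˣ :=
  MonoidHom.toHomUnits
    { toFun := resFun v k
      map_one' := by rw [resFun_eq v k 1 1 (by simp), map_one]
      map_mul' := by
        intro x y
        obtain ⟨a, ha, hax⟩ := resFun_spec v k x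
        obtain ⟨b, hb, hby⟩ := resFun_spec v k y
        rw [hax, hby, ← map_mul]
        apply resFun_eq
        have hb1 : v.valuation K (b : K) ≤ 1 := valuation_coe_le_one v b
        rw [show ((a * b : 𝓞 K) : K) - ((x * y : unitsAt v) : Kˣ) =
          (b : K) * ((a : K) - (x : Kˣ)) + ((x : Kˣ) : K) * ((b : K) - (y : Kˣ)) by
            push_cast; ring]
        refine Valuation.map_add_le _ ?_ ?_
        · rw [map_mul]; exact (mul_le_of_le_one_left' hb1).trans ha
        · rw [map_mul, mem_unitsAt.mp x.2, one_mul]; exact hb }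

lemma resHom_val (v : Place K) (k : ℕ) (u : unitsAt v) :
    ((resHom v k u : ((𝓞 K) ⧸ v.asIdeal ^ k)ˣ) : (𝓞 K) ⧸ v.asIdeal ^ k) = resFun v k u := rfl

lemma resHom_eq_one_iff (v : Place K) (k : ℕ) (u : unitsAt v) :
    resHom v k u = 1 ↔ v.valuation K (((u : Kˣ) : K) - 1) ≤ exp (-(k : ℤ)) := by
  rw [← Units.val_inj, resHom_val, Units.val_one]
  constructor
  · intro h
    obtain ⟨a, ha, hau⟩ := resFun_spec v k u
    rw [hau, ← map_one (Ideal.Quotient.mk (v.asIdeal ^ k)), Ideal.Quotient.eq,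
      ← valuation_le_exp_iff_mem] at h
    rw [show ((u : Kˣ) : K) - 1 = ((a - 1 : 𝓞 K) : K) - ((a : K) - (u : Kˣ)) by simp]
    exact le_trans (Valuation.map_sub _ _ _) (max_le h ha)
  · intro h
    rw [resFun_eq v k u 1 (by rwa [show ((1 : 𝓞 K) : K) = 1 from map_one _, Valuation.map_sub_swap]), map_one]

instance finite_quot_pow (v : Place K) (k : ℕ) : Finite ((𝓞 K) ⧸ v.asIdeal ^ k) :=
  Ideal.finiteQuotientOfFreeOfNeBot _ (pow_ne_zero _ v.ne_bot)

end residue

section index

lemma index_pow_range_le {G : Type*} [CommGroup G] [Finite G] (p : ℕ) :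
    (powMonoidHom p : G →* G).range.index = Nat.card (powMonoidHom p : G →* G).ker := by
  have h1 := Subgroup.card_mul_index (powMonoidHom p : G →* G).range
  have h2 := Subgroup.card_mul_index (powMonoidHom p : G →* G).ker
  rw [Subgroup.index_ker] at h2
  rw [mul_comm] at h2
  exact Nat.eq_of_mul_eq_mul_left Nat.card_pos (h1.trans h2.symm)

lemma index_map_pow_bound {U G : Type*} [CommGroup U] [CommGroup G] [Finite G] (φ : U →* G)
    (p : ℕ) (N : Subgroup U) (hker : φ.ker ≤ N) (hpow : ∀ u, u ^ p ∈ N) :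
    N.index ≤ Nat.card (powMonoidHom p : G →* G).ker ∧ N.index ≠ 0 := by
  set P := (powMonoidHom p : φ.range →* φ.range).range
  have hle : P.comap φ.rangeRestrict ≤ N := by
    intro u hu
    obtain ⟨w, hw⟩ := hu
    obtain ⟨z, hz⟩ := φ.rangeRestrict_surjective w
    have : u / z ^ p ∈ φ.ker := by
      rw [MonoidHom.mem_ker, map_div, map_pow, div_eq_one]
      have := congrArg Subtype.val hw
      rw [← hz] at this
      simpa using this.symm
    simpa using N.mul_mem (hker this) (hpow z)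
  have hi : (P.comap φ.rangeRestrict).index = P.index :=
    Subgroup.index_comap_of_surjective _ φ.rangeRestrict_surjective
  have hP0 : P.index ≠ 0 := Subgroup.index_ne_zero_of_finite
  have hd := Subgroup.index_dvd_of_le hle
  rw [hi] at hd
  refine ⟨(Nat.le_of_dvd (Nat.pos_of_ne_zero hP0) hd).trans ?_, fun h => hP0 ?_⟩
  · rw [index_pow_range_le]
    refine Nat.card_le_card_of_injective (fun x => ⟨((x.1 : φ.range) : G), ?_⟩) ?_
    · have := congrArg Subtype.val (MonoidHom.mem_ker.mp x.2)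
      simpa [MonoidHom.mem_ker] using this
    · intro x y hxy
      exact Subtype.ext (Subtype.ext (congrArg Subtype.val hxy :))
  · rw [h] at hd; exact Nat.eq_zero_of_zero_dvd hd

variable {p : ℕ} [hp : Fact p.Prime] {ζ : K} (hζ : IsPrimitiveRoot ζ p)

/-- The split subgroup inside the units at `v`. -/
noncomputable def splitUnits (v : Place K) : Subgroup (unitsAt v) :=
  (splitSub hζ v).subgroupOf (unitsAt v)

lemma pow_mem_splitUnits (v : Place K) (u : unitsAt v) : u ^ p ∈ splitUnits hζ v :=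
  powSub_le_splitSub hζ v (mem_powSub.mpr ⟨u, rfl⟩)

lemma ker_resHom_le_splitUnits (v : Place K) {k : ℕ} (hk : exp (-(k : ℤ)) < thr hζ v) :
    (resHom v k).ker ≤ splitUnits hζ v := fun u hu =>
  near_le_splitSub hζ v (lt_of_le_of_lt ((resHom_eq_one_iff v k u).mp hu) hk)

lemma exp_neg_one_lt_thr {v : Place K} (hv : v.valuation K (p : K) = 1) :
    exp (-((1 : ℕ) : ℤ)) < thr hζ v := by
  rw [thr_eq_one hζ hv, ← exp_zero, exp_lt_exp]; norm_num

lemma card_ker_pow_residue_le (v : Place K) :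
    Nat.card (powMonoidHom p : ((𝓞 K) ⧸ v.asIdeal ^ 1)ˣ →* _).ker ≤ p := by
  have : IsDomain ((𝓞 K) ⧸ v.asIdeal ^ 1) := by rw [pow_one]; infer_instance
  have h : (powMonoidHom p : ((𝓞 K) ⧸ v.asIdeal ^ 1)ˣ →* _).ker = rootsOfUnity p _ := by
    ext x; simp [mem_rootsOfUnity]
  rw [h]
  have : NeZero p := ⟨hp.out.ne_zero⟩
  exact card_rootsOfUnity _ p

lemma index_splitUnits_le {v : Place K} (hv : v.valuation K (p : K) = 1) :
    (splitUnits hζ v).index ≤ p ∧ (splitUnits hζ v).index ≠ 0 := by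
  have h := index_map_pow_bound (resHom v 1) p (splitUnits hζ v)
    (ker_resHom_le_splitUnits hζ v (exp_neg_one_lt_thr hζ hv)) (pow_mem_splitUnits hζ v)
  exact ⟨h.1.trans (card_ker_pow_residue_le v), h.2⟩

/-- Two units at a place prime to `p` are dependent modulo `splitSub`. -/
lemma exists_pow_mul_mem_splitSub {v : Place K} (hv : v.valuation K (p : K) = 1) {u y : Kˣ}
    (hu : u ∈ unrSub hζ v) (hy : y ∈ unrSub hζ v) (hu' : u ∉ splitSub hζ v) :
    ∃ i : ℕ, y / u ^ i ∈ splitSub hζ v := by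
  obtain ⟨a, ha⟩ := (mem_unrSub hζ).mp hu
  obtain ⟨b, hb⟩ := (mem_unrSub hζ).mp hy
  let u₁ : unitsAt v := ⟨_, ha.1⟩
  let y₁ : unitsAt v := ⟨_, hb.1⟩
  have hu₁ : u₁ ∉ splitUnits hζ v := fun h => hu' <| by
    have h1 : u / a ^ p ∈ splitSub hζ v := h
    simpa using (splitSub hζ v).mul_mem h1 (powSub_le_splitSub hζ v (mem_powSub.mpr ⟨a, rfl⟩))
  obtain ⟨hle, hne⟩ := index_splitUnits_le hζ hv
  have : Finite (unitsAt v ⧸ splitUnits hζ v) := by
    apply Nat.finite_of_card_ne_zero; exact hne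
  set q : unitsAt v ⧸ splitUnits hζ v := QuotientGroup.mk u₁
  have hq : q ≠ 1 := fun h => hu₁ ((QuotientGroup.eq_one_iff _).mp h)
  have hqp : q ^ p = 1 := by
    rw [← QuotientGroup.mk_pow, QuotientGroup.eq_one_iff]
    exact pow_mem_splitUnits hζ v u₁
  have hord : orderOf q = p := orderOf_eq_prime hqp hq
  have htop : Subgroup.zpowers q = ⊤ := by
    apply Subgroup.eq_top_of_le_card
    rw [Nat.card_zpowers, hord]; exact hle
  obtain ⟨i, hi⟩ : ∃ i : ℕ, q ^ i = QuotientGroup.mk y₁ := by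
    have hm : (QuotientGroup.mk y₁ : unitsAt v ⧸ splitUnits hζ v) ∈ Subgroup.zpowers q := by
      rw [htop]; trivial
    exact Submonoid.mem_powers_iff _ _ |>.mp (mem_powers_iff_mem_zpowers.mpr hm)
  refine ⟨i, ?_⟩
  rw [← QuotientGroup.mk_pow, QuotientGroup.eq] at hi
  have h1 : ((u / a ^ p) ^ i)⁻¹ * (y / b ^ p) ∈ splitSub hζ v := hi
  have h2 : (b / a ^ i) ^ p ∈ splitSub hζ v := powSub_le_splitSub hζ v (mem_powSub.mpr ⟨_, rfl⟩)
  convert (splitSub hζ v).mul_mem h1 h2 using 1
  apply Units.ext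
  simp only [Units.val_mul, Units.val_inv_eq_inv_val, Units.val_div_eq_div_val,
    Units.val_pow_eq_pow_val]
  have hu0 := u.ne_zero
  have ha0 := a.ne_zero
  have hb0 := b.ne_zero
  simp only [div_pow, inv_div, ← pow_mul, mul_comm p i]
  field_simp

end index

end FLTAgent.Ext
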