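/-
S14 helper library: the power residue symbol at places prime to `p`, and the index of the
split subgroup at every place.
-/
import Fermat.Agent.Ext.Local

set_option autoImplicit false
set_option linter.unusedSectionVars false

open IsDedekindDomain NumberField WithZero
open scoped NumberField

namespace FLTAgent.Ext

variable {K : Type*} [Field K] [NumberField K]

instance isPrime_pow_one (v : Place K) : (v.asIdeal ^ 1).IsPrime := by
  rw [pow_one]; exact v.isPrime

lemma natCard_quot (v : Place K) (k : ℕ) :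
    Nat.card ((𝓞 K) ⧸ v.asIdeal ^ k) = Ideal.absNorm v.asIdeal ^ k := by
  rw [← map_pow]
  rfl

lemma mk_surj_units (v : Place K) (z : ((𝓞 K) ⧸ v.asIdeal ^ 1)ˣ) :
    ∃ u : unitsAt v, resHom v 1 u = z := by
  obtain ⟨a, ha⟩ := Ideal.Quotient.mk_surjective (z : (𝓞 K) ⧸ v.asIdeal ^ 1)
  have hav : a ∉ v.asIdeal := by
    intro h
    have : (z : (𝓞 K) ⧸ v.asIdeal ^ 1) = 0 := by
      rw [← ha, Ideal.Quotient.eq_zero_iff_mem, pow_one]; exact h
    exact z.ne_zero this
  have hval : v.valuation K (a : K) = 1 :=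
    (v.valuation_eq_one_iff_notMem (K := K)).mpr hav
  have h0 : (a : K) ≠ 0 := fun h => by simp [h] at hval
  refine ⟨⟨Units.mk0 (a : K) h0, hval⟩, Units.ext ?_⟩
  rw [resHom_val, ← ha]
  exact resFun_eq v 1 _ a (by simp)

lemma valuation_lt_one_iff_le_exp (v : Place K) (x : K) :
    v.valuation K x < 1 ↔ v.valuation K x ≤ exp (-((1 : ℕ) : ℤ)) := by
  rcases eq_or_ne x 0 with rfl | hx
  · simp
  · rw [valuation_eq_exp_ord v hx, ← exp_zero, exp_lt_exp, exp_le_exp]; push_cast; omega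

lemma resHom_eq_iff (v : Place K) (x y : unitsAt v) :
    resHom v 1 x = resHom v 1 y ↔
      v.valuation K (((x : Kˣ) : K) - ((y : Kˣ) : K)) < 1 := by
  have h : ((x : Kˣ) : K) - ((y : Kˣ) : K) =
      ((y : Kˣ) : K) * ((((x / y : unitsAt v) : Kˣ) : K) - 1) := by
    push_cast
    have := (y : Kˣ).ne_zero
    field_simp
  rw [← div_eq_one, ← map_div, resHom_eq_one_iff, h, map_mul, mem_unitsAt.mp y.2, one_mul,
    valuation_lt_one_iff_le_exp]

variable {p : ℕ} [hp : Fact p.Prime] {ζ : K} (hζ : IsPrimitiveRoot ζ p)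

/-- The root of unity as a unit at `v`. -/
noncomputable def rootUnit (v : Place K) : unitsAt v :=
  ⟨Units.mk0 ζ (hζ.ne_zero hp.out.ne_zero), valuation_root_eq_one hζ v⟩

@[simp] lemma coe_rootUnit (v : Place K) :
    (((rootUnit hζ v : unitsAt v) : Kˣ) : K) = ζ := rfl

lemma isPrimitiveRoot_resHom {v : Place K} (hv : v.valuation K (p : K) = 1) :
    IsPrimitiveRoot (resHom v 1 (rootUnit hζ v)) p := by
  refine ⟨?_, fun l hl => ?_⟩
  · rw [← map_pow, ← map_one (resHom v 1)]
    congr 1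
    exact Subtype.ext (Units.ext (by push_cast; exact hζ.pow_eq_one))
  · by_contra h
    rw [← map_pow, resHom_eq_one_iff, ← valuation_lt_one_iff_le_exp] at hl
    push_cast at hl
    rw [coe_rootUnit, valuation_pow_sub_one hζ v h, valuation_sub_one_eq_one hζ hv] at hl
    exact lt_irrefl _ hl

lemma natCard_units_residue (v : Place K) :
    Nat.card ((𝓞 K) ⧸ v.asIdeal ^ 1)ˣ = Ideal.absNorm v.asIdeal - 1 := by
  let := Fintype.ofFinite ((𝓞 K) ⧸ v.asIdeal ^ 1)
  have : IsField ((𝓞 K) ⧸ v.asIdeal ^ 1) := Finite.isField_of_domain _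
  let := this.toField
  rw [Nat.card_units, natCard_quot, pow_one]

include hζ in
lemma dvd_absNorm_sub_one {v : Place K} (hv : v.valuation K (p : K) = 1) :
    p ∣ Ideal.absNorm v.asIdeal - 1 := by
  rw [← natCard_units_residue, (isPrimitiveRoot_resHom hζ hv).eq_orderOf]
  exact orderOf_dvd_natCard _

/-- `(N v - 1) / p`. -/
noncomputable def expo (p : ℕ) (v : Place K) : ℕ := (Ideal.absNorm v.asIdeal - 1) / p

include hζ in
lemma expo_mul {v : Place K} (hv : v.valuation K (p : K) = 1) :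
    expo p v * p = Ideal.absNorm v.asIdeal - 1 :=
  Nat.div_mul_cancel (dvd_absNorm_sub_one hζ hv)

lemma pow_expo_mem_zpowers {v : Place K} (hv : v.valuation K (p : K) = 1)
    (z : ((𝓞 K) ⧸ v.asIdeal ^ 1)ˣ) :
    z ^ expo p v ∈ Subgroup.zpowers (resHom v 1 (rootUnit hζ v)) := by
  have : NeZero p := ⟨hp.out.ne_zero⟩
  rw [(isPrimitiveRoot_resHom hζ hv).zpowers_eq, mem_rootsOfUnity, ← pow_mul,
    expo_mul hζ hv, ← natCard_units_residue, pow_card_eq_one']

/-- The residue symbol on units at `v`. -/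
noncomputable def symUnit {v : Place K} (hv : v.valuation K (p : K) = 1) :
    Additive (unitsAt v) →+ ZMod p :=
  haveI : NeZero p := ⟨hp.out.ne_zero⟩
  AddMonoidHom.mk'
    (fun u => (isPrimitiveRoot_resHom hζ hv).zmodEquivZPowers.symm
      (Additive.ofMul ⟨_, pow_expo_mem_zpowers hζ hv (resHom v 1 (Additive.toMul u))⟩))
    (fun a b => by
      rw [← map_add]
      congr 1
      apply Additive.toMul.injective
      apply Subtype.ext
      simp [mul_pow])

lemma symUnit_eq_iff {v : Place K} (hv : v.valuation K (p : K) = 1) (u : unitsAt v) (i : ℕ) :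
    symUnit hζ hv (Additive.ofMul u) = (i : ZMod p) ↔
      resHom v 1 u ^ expo p v = resHom v 1 (rootUnit hζ v) ^ i := by
  have : NeZero p := ⟨hp.out.ne_zero⟩
  show (isPrimitiveRoot_resHom hζ hv).zmodEquivZPowers.symm _ = _ ↔ _
  rw [AddEquiv.symm_apply_eq]
  rw [IsPrimitiveRoot.zmodEquivZPowers_apply_coe_nat]
  rw [Additive.ofMul.injective.eq_iff, Subtype.ext_iff]
  rfl

/-- Residue symbol at `v` on `Kˣ` (computed after removing a uniformiser). -/
noncomputable def sym (v : Place K) : Additive Kˣ →+ ZMod p :=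
  if hv : v.valuation K (p : K) = 1 then
    AddMonoidHom.mk'
      (fun x => symUnit hζ hv (Additive.ofMul
        ⟨Additive.toMul x / (exists_ord_eq_one v).choose ^ ordHom v x, by
          rw [mem_unitsAt_iff_ord, Units.val_div_eq_div_val,
            ord_div v (Units.ne_zero _) (Units.ne_zero _), Units.val_zpow_eq_zpow_val, ord_zpow,
            (exists_ord_eq_one v).choose_spec, mul_one, sub_eq_zero]
          rfl⟩))
      (fun a b => by
        rw [← map_add]
        congr 1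
        apply Additive.toMul.injective
        apply Subtype.ext
        simp [zpow_add, mul_div_mul_comm])
  else 0

lemma sym_eq_symUnit {v : Place K} (hv : v.valuation K (p : K) = 1) (u : unitsAt v) :
    sym hζ v (Additive.ofMul (u : Kˣ)) = symUnit hζ hv (Additive.ofMul u) := by
  rw [sym, dif_pos hv, AddMonoidHom.mk'_apply]
  congr 1
  apply Additive.toMul.injective
  apply Subtype.ext
  simp [ordHom_apply, mem_unitsAt_iff_ord.mp u.2]

/-- Euler criterion description of the symbol on units. -/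
lemma sym_eq_iff {v : Place K} (hv : v.valuation K (p : K) = 1) {x : Kˣ}
    (hx : v.valuation K (x : K) = 1) (i : ℕ) :
    sym hζ v (Additive.ofMul x) = (i : ZMod p) ↔
      v.valuation K ((x : K) ^ expo p v - ζ ^ i) < 1 := by
  rw [sym_eq_symUnit hζ hv ⟨x, hx⟩, symUnit_eq_iff, ← map_pow, ← map_pow, resHom_eq_iff]
  push_cast
  rfl

lemma sym_nsmul (v : Place K) (x : Kˣ) (n : ℕ) :
    sym hζ v (Additive.ofMul (x ^ n)) = n • sym hζ v (Additive.ofMul x) := by
  rw [ofMul_pow, map_nsmul]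

lemma sym_powSub (v : Place K) {x : Kˣ} (hx : x ∈ powSub K p) :
    sym hζ v (Additive.ofMul x) = 0 := by
  obtain ⟨y, rfl⟩ := mem_powSub.mp hx
  simp [nsmul_eq_mul]

lemma isPow_of_pow_eq_one {G : Type*} [CommGroup G] [IsCyclic G] [Finite G] {m n : ℕ}
    (hmn : Nat.card G = m * n) {x : G} (hx : x ^ m = 1) : ∃ z : G, z ^ n = x := by
  obtain ⟨g, hg⟩ := IsCyclic.exists_monoid_generator (α := G)
  obtain ⟨j, rfl⟩ := hg x
  simp only [← pow_mul] at hx
  rw [← orderOf_dvd_iff_pow_eq_one, orderOf_eq_card_of_forall_mem_powers hg, hmn,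
    mul_comm j] at hx
  have hm : 0 < m := Nat.pos_of_mul_pos_right (hmn ▸ Nat.card_pos)
  obtain ⟨k, rfl⟩ := (Nat.mul_dvd_mul_iff_left hm).mp hx
  exact ⟨g ^ k, by simp [← pow_mul, mul_comm]⟩

lemma mem_splitSub_iff_sym_unit {v : Place K} (hv : v.valuation K (p : K) = 1) (u : unitsAt v) :
    (u : Kˣ) ∈ splitSub hζ v ↔ symUnit hζ hv (Additive.ofMul u) = 0 := by
  rw [← Nat.cast_zero, symUnit_eq_iff, pow_zero]
  constructor
  · intro h
    obtain ⟨y, hy⟩ := (mem_splitSub hζ).mp h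
    have hyu : v.valuation K (((u : Kˣ) / y ^ p : Kˣ) : K) = 1 := valuation_eq_one_of_near hζ hy
    have hyo : ord v (y : K) = 0 := by
      have h1 := (valuation_eq_one_iff_ord v (Units.ne_zero _)).mp hyu
      rw [Units.val_div_eq_div_val, ord_div v (Units.ne_zero _) (Units.ne_zero _),
        mem_unitsAt_iff_ord.mp u.2, Units.val_pow_eq_pow_val, ord_pow] at h1
      have : (p : ℤ) * ord v (y : K) = 0 := by linarith
      exact (mul_eq_zero.mp this).resolve_left (by exact_mod_cast hp.out.ne_zero)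
    let y' : unitsAt v := ⟨y, mem_unitsAt_iff_ord.mpr hyo⟩
    have : resHom v 1 u = resHom v 1 y' ^ p := by
      rw [← map_pow, ← div_eq_one, ← map_div, resHom_eq_one_iff, ← valuation_lt_one_iff_le_exp]
      exact lt_of_lt_of_le hy (thr_le_one hζ v)
    rw [this, ← pow_mul, mul_comm, expo_mul hζ hv, ← natCard_units_residue, pow_card_eq_one']
  · intro h
    obtain ⟨z, hz⟩ := isPow_of_pow_eq_one (n := p)
      (by rw [natCard_units_residue, expo_mul hζ hv]) h
    obtain ⟨y, rfl⟩ := mk_surj_units v z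
    rw [← map_pow] at hz
    have := (resHom_eq_one_iff v 1 (u / y ^ p)).mp (by rw [map_div, hz, div_self'])
    exact (mem_splitSub hζ).mpr ⟨y, lt_of_le_of_lt this (exp_neg_one_lt_thr hζ hv)⟩

/-- The split subgroup in terms of valuation and symbol. -/
lemma mem_splitSub_iff {v : Place K} (hv : v.valuation K (p : K) = 1) (x : Kˣ) :
    x ∈ splitSub hζ v ↔ (p : ℤ) ∣ ord v (x : K) ∧ sym hζ v (Additive.ofMul x) = 0 := by
  have key : ∀ c : Kˣ, c ∈ unitsAt v → x = c * (x / c) → x / c ∈ powSub K p →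
      (x ∈ splitSub hζ v ↔ sym hζ v (Additive.ofMul x) = 0) := by
    intro c hc hxc hpow
    have hs : sym hζ v (Additive.ofMul x) = sym hζ v (Additive.ofMul c) := by
      rw [hxc, ofMul_mul, map_add, sym_powSub hζ v hpow, add_zero]
    rw [hs, sym_eq_symUnit hζ hv ⟨c, hc⟩, ← mem_splitSub_iff_sym_unit hζ hv ⟨c, hc⟩]
    conv_lhs => rw [hxc]
    exact Subgroup.mul_mem_cancel_right _ (powSub_le_splitSub hζ v hpow)
  constructor
  · intro h
    obtain ⟨y, hy⟩ := (mem_unrSub hζ).mp (splitSub_le_unrSub hζ v h)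
    exact ⟨dvd_ord_of_mem_splitSub hζ h, (key _ hy.1 (by simp)
      (by rw [div_div_cancel]; exact mem_powSub.mpr ⟨y, rfl⟩)).mp h⟩
  · rintro ⟨h1, h2⟩
    obtain ⟨y, hy⟩ := (mem_unrSub hζ).mp (mem_unrSub_of_dvd_ord hζ hv h1)
    exact (key _ hy.1 (by simp)
      (by rw [div_div_cancel]; exact mem_powSub.mpr ⟨y, rfl⟩)).mpr h2

lemma index_splitSub_le_mul (v : Place K) (h0 : (splitUnits hζ v).index ≠ 0) :
    (splitSub hζ v).index ≤ p * (splitUnits hζ v).index ∧ (splitSub hζ v).index ≠ 0 := by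
  have : NeZero p := ⟨hp.out.ne_zero⟩
  let ψ : Kˣ →* Multiplicative (ZMod p) :=
    AddMonoidHom.toMultiplicativeRight ((Int.castAddHom (ZMod p)).comp (ordHom v))
  have hψ : ∀ x : Kˣ, x ∈ ψ.ker ↔ (p : ℤ) ∣ ord v (x : K) := by
    intro x
    rw [MonoidHom.mem_ker, ← ZMod.intCast_zmod_eq_zero_iff_dvd]
    exact Iff.rfl
  have hle : splitSub hζ v ≤ ψ.ker := fun x hx => (hψ x).mpr (dvd_ord_of_mem_splitSub hζ hx)
  have hker : ψ.ker = unitsAt v ⊔ splitSub hζ v := by
    refine le_antisymm (fun x hx => ?_) (sup_le (fun x hx => ?_) hle)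
    · obtain ⟨k, hk⟩ := (hψ x).mp hx
      obtain ⟨π, hπ⟩ := exists_ord_eq_one v
      have h1 : x / (π ^ k) ^ p ∈ unitsAt v := by
        rw [mem_unitsAt_iff_ord, Units.val_div_eq_div_val,
          ord_div v x.ne_zero (Units.ne_zero _), Units.val_pow_eq_pow_val, ord_pow,
          Units.val_zpow_eq_zpow_val, ord_zpow, hπ, hk]
        ring
      rw [← div_mul_cancel x ((π ^ k) ^ p)]
      exact Subgroup.mul_mem_sup h1 (powSub_le_splitSub hζ v (mem_powSub.mpr ⟨_, rfl⟩))
    · exact (hψ x).mpr (by rw [mem_unitsAt_iff_ord.mp hx]; exact dvd_zero _)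
  have hrel : (splitSub hζ v).relIndex ψ.ker = (splitUnits hζ v).index := by
    rw [hker, Subgroup.relIndex_sup_right]; rfl
  have hidx := Subgroup.relIndex_mul_index hle
  rw [hrel, Subgroup.index_ker] at hidx
  have hr : Nat.card ψ.range ≤ p := by
    refine (Nat.card_le_card_of_injective _ Subtype.val_injective).trans ?_
    simp
  refine ⟨?_, ?_⟩
  · rw [← hidx, mul_comm p]; exact Nat.mul_le_mul_left _ hr
  · rw [← hidx]; exact Nat.mul_ne_zero h0 (Nat.card_pos).ne'

lemma index_splitSub_le {v : Place K} (hv : v.valuation K (p : K) = 1) :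
    (splitSub hζ v).index ≤ p ^ 2 ∧ (splitSub hζ v).index ≠ 0 := by
  obtain ⟨h1, h2⟩ := index_splitUnits_le hζ hv
  obtain ⟨h3, h4⟩ := index_splitSub_le_mul hζ v h2
  exact ⟨h3.trans (by rw [sq]; exact Nat.mul_le_mul_left _ h1), h4⟩

lemma index_splitSub_le_of_norm_eq {v : Place K} (hN : Ideal.absNorm v.asIdeal = p)
    (hv : v.valuation K (ζ - 1) = exp (-1 : ℤ)) :
    (splitSub hζ v).index ≤ p ^ (p + 1) ∧ (splitSub hζ v).index ≠ 0 := by
  have hk : exp (-((p + 1 : ℕ) : ℤ)) < thr hζ v := by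
    rw [thr, hv, ← exp_nsmul, exp_lt_exp]; push_cast [nsmul_eq_mul]; omega
  obtain ⟨h1, h2⟩ := index_map_pow_bound (resHom v (p + 1)) p (splitUnits hζ v)
    (ker_resHom_le_splitUnits hζ v hk) (pow_mem_splitUnits hζ v)
  have hcard : Nat.card (powMonoidHom p : ((𝓞 K) ⧸ v.asIdeal ^ (p + 1))ˣ →* _).ker ≤ p ^ p := by
    set A := (powMonoidHom p : ((𝓞 K) ⧸ v.asIdeal ^ (p + 1))ˣ →* _).ker
    have hA : IsPGroup p A := fun g => ⟨1, by
      apply Subtype.ext
      rw [pow_one, Subgroup.coe_pow, Subgroup.coe_one]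
      exact MonoidHom.mem_ker.mp g.2⟩
    obtain ⟨j, hj⟩ := IsPGroup.iff_card.mp hA
    rw [hj]
    refine Nat.pow_le_pow_right hp.out.pos ?_
    have hlt : Nat.card A < p ^ (p + 1) := by
      refine lt_of_le_of_lt (Nat.card_le_card_of_injective _ Subtype.val_injective) ?_
      have hq := natCard_quot v (p + 1)
      rw [hN] at hq
      rw [← hq]
      refine lt_of_le_of_ne (Nat.card_le_card_of_injective _ Units.val_injective) ?_
      intro heq
      have : Nontrivial ((𝓞 K) ⧸ v.asIdeal ^ (p + 1)) :=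
        Ideal.Quotient.nontrivial_iff.mpr fun h => v.isPrime.ne_top
          (top_le_iff.mp (h ▸ Ideal.pow_le_self (Nat.succ_ne_zero p)))
      have hsurj : Function.Surjective
          (Units.val : ((𝓞 K) ⧸ v.asIdeal ^ (p + 1))ˣ → (𝓞 K) ⧸ v.asIdeal ^ (p + 1)) :=
        ((Nat.bijective_iff_injective_and_card _).mpr ⟨Units.val_injective, heq⟩).2
      obtain ⟨z, hz⟩ := hsurj 0
      exact z.ne_zero hz
    rw [hj] at hlt
    exact Nat.lt_succ_iff.mp ((Nat.pow_lt_pow_iff_right hp.out.one_lt).mp hlt)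
  obtain ⟨h3, h4⟩ := index_splitSub_le_mul hζ v h2
  exact ⟨h3.trans (by rw [pow_succ']; exact Nat.mul_le_mul_left _ (h1.trans hcard)), h4⟩

end FLTAgent.Ext
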