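/-
S14 helper library: power residue characters of `𝔽_q` with values in a number field, and the
congruences for their Jacobi sums at a place above `q`.
-/
import Fermat.Agent.Ext.Symbol

set_option autoImplicit false
set_option linter.unusedSectionVars false

open IsDedekindDomain NumberField Finset
open scoped NumberField

namespace FLTAgent.Ext

section sums

variable {q : ℕ} [hq : Fact q.Prime]

lemma sum_pow_eq_ite {n : ℕ} (hn0 : 0 < n) (hn : n < 2 * (q - 1)) :
    ∑ x : ZMod q, x ^ n = if n = q - 1 then -1 else 0 := by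
  have hcard : Fintype.card (ZMod q) = q := ZMod.card q
  rcases lt_trichotomy n (q - 1) with h | h | h
  · rw [if_neg h.ne]
    exact FiniteField.sum_pow_lt_card_sub_one _ n (by rwa [hcard])
  · rw [if_pos h, h]
    have h1 : ∀ x : ZMod q, x ^ (q - 1) = if x = 0 then 0 else 1 := by
      intro x
      split_ifs with hx
      · rw [hx, zero_pow (by have := hq.out.two_le; omega)]
      · exact ZMod.pow_card_sub_one_eq_one hx
    simp only [h1, Finset.sum_ite, Finset.sum_const_zero, zero_add, Finset.sum_const, nsmul_one]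
    rw [Finset.filter_ne', Finset.card_erase_of_mem (mem_univ _), Finset.card_univ, hcard,
      Nat.cast_sub hq.out.one_le]
    simp
  · rw [if_neg h.ne']
    have h1 : ∀ x : ZMod q, x ^ n = x ^ (n - (q - 1)) := by
      intro x
      rcases eq_or_ne x 0 with rfl | hx
      · rw [zero_pow (by omega), zero_pow (by omega)]
      · conv_lhs => rw [show n = (n - (q - 1)) + (q - 1) by omega, pow_add,
          ZMod.pow_card_sub_one_eq_one hx, mul_one]
    simp only [h1]
    exact FiniteField.sum_pow_lt_card_sub_one _ _ (by rw [hcard]; omega)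

lemma sum_pow_mul_one_sub_pow_eq {A B : ℕ} :
    ∑ x : ZMod q, x ^ A * (1 - x) ^ B =
      ∑ i ∈ range (B + 1), ((-1) ^ i * (B.choose i : ZMod q)) * ∑ x : ZMod q, x ^ (A + i) := by
  simp only [Finset.mul_sum]
  rw [Finset.sum_comm]
  refine Finset.sum_congr rfl fun x _ => ?_
  rw [show (1 - x : ZMod q) = -x + 1 by ring, add_pow, Finset.mul_sum]
  refine Finset.sum_congr rfl fun i _ => ?_
  rw [one_pow, neg_pow, pow_add]
  ring

lemma sum_eq_zero_of_lt {A B : ℕ} (hA : 0 < A) (h : A + B < q - 1) :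
    ∑ x : ZMod q, x ^ A * (1 - x) ^ B = 0 := by
  rw [sum_pow_mul_one_sub_pow_eq]
  refine Finset.sum_eq_zero fun i hi => ?_
  rw [mem_range] at hi
  rw [sum_pow_eq_ite (by omega) (by omega), if_neg (by omega), mul_zero]

lemma sum_ne_zero_of_le {A B : ℕ} (hA : 0 < A) (hA' : A < q - 1) (hB' : B < q - 1)
    (h : q - 1 ≤ A + B) :
    ∑ x : ZMod q, x ^ A * (1 - x) ^ B ≠ 0 := by
  rw [sum_pow_mul_one_sub_pow_eq, Finset.sum_eq_single (q - 1 - A)]
  · rw [sum_pow_eq_ite (by omega) (by omega), if_pos (by omega)]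
    refine mul_ne_zero (mul_ne_zero (pow_ne_zero _ (by simp)) ?_) (by simp)
    intro h0
    rw [ZMod.natCast_eq_zero_iff] at h0
    have hdvd : q ∣ B.factorial := by
      rw [← Nat.choose_mul_factorial_mul_factorial (show q - 1 - A ≤ B by omega), mul_assoc]
      exact h0.mul_right _
    exact absurd ((hq.out.dvd_factorial).mp hdvd) (by omega)
  · intro i hi hne
    rw [mem_range] at hi
    rw [sum_pow_eq_ite (by omega) (by omega), if_neg (by omega), mul_zero]
  · intro hni
    rw [mem_range] at hni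
    omega

end sums

section char

variable {K : Type*} [Field K] [NumberField K] {p : ℕ} [hp : Fact p.Prime] {ζ : K}
  (hζ : IsPrimitiveRoot ζ p) {q : ℕ} [hq : Fact q.Prime]

/-- `u` lies over the rational prime `q`. -/
def OverPrime (q : ℕ) (u : Place K) : Prop := u.valuation K (q : K) < 1

lemma valuation_intCast_lt_one_iff {u : Place K} (hu : OverPrime q u) (n : ℤ) :
    u.valuation K (n : K) < 1 ↔ (n : ZMod q) = 0 := by
  constructor
  · intro h
    by_contra hne
    rw [ZMod.intCast_zmod_eq_zero_iff_dvd] at hne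
    obtain ⟨a, b, hab⟩ :=
      ((Nat.prime_iff_prime_int.mp hq.out).irreducible.coprime_iff_not_dvd).mpr hne
    have h1 : u.valuation K ((a * (q : ℤ) + b * n : ℤ) : K) < 1 := by
      push_cast
      refine Valuation.map_add_lt _ ?_ ?_
      · rw [map_mul]; exact (mul_le_of_le_one_left' (valuation_intCast_le_one u a)).trans_lt hu
      · rw [map_mul]; exact (mul_le_of_le_one_left' (valuation_intCast_le_one u b)).trans_lt h
    rw [hab, Int.cast_one, map_one] at h1
    exact lt_irrefl _ h1
  · intro h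
    obtain ⟨k, rfl⟩ := (ZMod.intCast_zmod_eq_zero_iff_dvd n q).mp h
    push_cast
    rw [map_mul]
    exact (mul_le_of_le_one_right' (valuation_intCast_le_one u k)).trans_lt hu

lemma valuation_intCast_eq_one_iff {u : Place K} (hu : OverPrime q u) (n : ℤ) :
    u.valuation K (n : K) = 1 ↔ (n : ZMod q) ≠ 0 := by
  rw [Ne, ← valuation_intCast_lt_one_iff hu, not_lt]
  exact ⟨fun h => h.ge, fun h => le_antisymm (valuation_intCast_le_one u n) h⟩

lemma valuation_p_eq_one_of_overPrime {u : Place K} (hu : OverPrime q u) (hqp : q ≠ p) :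
    u.valuation K (p : K) = 1 := by
  rw [← Int.cast_natCast p, valuation_intCast_eq_one_iff hu, Int.cast_natCast, Ne,
    ZMod.natCast_eq_zero_iff]
  exact fun h => hqp ((Nat.prime_dvd_prime_iff_eq hq.out hp.out).mp h)

include hζ in
lemma exists_root_near {u : Place K} (hu : OverPrime q u) (n : ℤ)
    (hn : (n : ZMod q) ^ p = 1) :
    ∃ i : ℕ, u.valuation K ((n : K) - ζ ^ i) < 1 := by
  have h1 : u.valuation K ((n : K) ^ p - 1) < 1 := by
    rw [show (n : K) ^ p - 1 = ((n ^ p - 1 : ℤ) : K) by push_cast; rfl,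
      valuation_intCast_lt_one_iff hu]
    push_cast
    rw [hn, sub_self]
  have hprod : (n : K) ^ p - 1 = ∏ i ∈ range p, ((n : K) - ζ ^ i) := by
    have := congrArg (Polynomial.eval (n : K))
      (X_pow_sub_C_eq_prod hζ hp.out.pos (one_pow p : (1 : K) ^ p = 1))
    simpa [Polynomial.eval_prod] using this
  rw [hprod, map_prod] at h1
  by_contra hcon
  push Not at hcon
  exact absurd h1 (not_lt.mpr (Finset.one_le_prod' fun i _ => hcon i))

include hζ in
lemma root_unique {u : Place K} (hu : u.valuation K (p : K) = 1) {x : K} {i j : ℕ}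
    (hi : u.valuation K (x - ζ ^ i) < 1) (hj : u.valuation K (x - ζ ^ j) < 1) :
    (i : ZMod p) = j := by
  wlog hij : i ≤ j generalizing i j
  · exact (this hj hi (not_le.mp hij).le).symm
  by_contra hne
  have hd : ¬ p ∣ (j - i) := fun h => hne ((ZMod.natCast_eq_natCast_iff _ _ _).mpr
    ((Nat.modEq_iff_dvd' hij).mpr h))
  have h1 : u.valuation K (ζ ^ i * (ζ ^ (j - i) - 1)) < 1 := by
    rw [mul_sub, ← pow_add, Nat.add_sub_cancel' hij, mul_one,
      show ζ ^ j - ζ ^ i = (x - ζ ^ i) - (x - ζ ^ j) by ring]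
    exact (Valuation.map_sub _ _ _).trans_lt (max_lt hi hj)
  rw [map_mul, map_pow, valuation_root_eq_one hζ, one_pow, one_mul,
    valuation_pow_sub_one hζ u hd, valuation_sub_one_eq_one hζ hu] at h1
  exact lt_irrefl _ h1

/-- A character of order dividing `p`, congruent to `x ↦ x ^ A` at `u`. -/
structure ResidueChar (_hζ : IsPrimitiveRoot ζ p) (u : Place K) (q A : ℕ) [Fact q.Prime] where
  chi : MulChar (ZMod q) (𝓞 K)
  log : ZMod q → ZMod p
  chi_eq : ∀ x : ZMod q, x ≠ 0 → ((chi x : 𝓞 K) : K) = ζ ^ (log x).val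
  log_mul : ∀ x y : ZMod q, x ≠ 0 → y ≠ 0 → log (x * y) = log x + log y
  log_zero : log 0 = 0
  congr : ∀ x : ZMod q, u.valuation K (((chi x : 𝓞 K) : K) - ((x.val : K)) ^ A) < 1

lemma exists_residueChar {u : Place K} (hu : OverPrime q u) (hqp : q ≠ p) {A : ℕ} (hA : 0 < A)
    (hAp : q - 1 ∣ A * p) : Nonempty (ResidueChar hζ u q A) := by
  classical
  have hup := valuation_p_eq_one_of_overPrime (p := p) hu hqp
  have hex : ∀ x : ZMod q, x ≠ 0 → ∃ i : ℕ, u.valuation K ((x.val : K) ^ A - ζ ^ i) < 1 := by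
    intro x hx
    obtain ⟨k, hk⟩ := hAp
    obtain ⟨i, hi⟩ := exists_root_near hζ hu (((x.val : ℤ)) ^ A) (by
      push_cast
      rw [ZMod.natCast_zmod_val, ← pow_mul, hk, pow_mul, ZMod.pow_card_sub_one_eq_one hx, one_pow])
    exact ⟨i, by simpa using hi⟩
  let L : ZMod q → ZMod p := fun x => if hx : x = 0 then 0 else ((hex x hx).choose : ZMod p)
  have hval : ∀ x, x ≠ 0 → u.valuation K ((x.val : K) ^ A - ζ ^ (L x).val) < 1 := by
    intro x hx
    simp only [L, dif_neg hx]
    have h := (hex x hx).choose_spec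
    rwa [ZMod.val_natCast, ← pow_eq_pow_mod _ hζ.pow_eq_one]
  have hmul : ∀ x y : ZMod q, x ≠ 0 → y ≠ 0 → L (x * y) = L x + L y := by
    intro x y hx hy
    have : NeZero p := ⟨hp.out.ne_zero⟩
    have h1 := hval (x * y) (mul_ne_zero hx hy)
    have h2 : u.valuation K ((x.val : K) ^ A * (y.val : K) ^ A - ζ ^ ((L x).val + (L y).val)) < 1 := by
      rw [pow_add, show (x.val : K) ^ A * (y.val : K) ^ A - ζ ^ (L x).val * ζ ^ (L y).val =
        (x.val : K) ^ A * ((y.val : K) ^ A - ζ ^ (L y).val) +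
          ζ ^ (L y).val * ((x.val : K) ^ A - ζ ^ (L x).val) by ring]
      refine Valuation.map_add_lt _ ?_ ?_
      · rw [map_mul, map_pow]
        exact (mul_le_of_le_one_left'
          (pow_le_one' (valuation_natCast_le_one u _) _)).trans_lt (hval y hy)
      · rw [map_mul, map_pow, valuation_root_eq_one hζ, one_pow, one_mul]; exact hval x hx
    have h3 : u.valuation K ((x.val : K) ^ A * (y.val : K) ^ A - ((x * y).val : K) ^ A) < 1 := by
      rw [show (x.val : K) ^ A * (y.val : K) ^ A - ((x * y).val : K) ^ A =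
        ((((x.val : ℤ) * y.val) ^ A - ((x * y).val : ℤ) ^ A : ℤ) : K) by push_cast; ring,
        valuation_intCast_lt_one_iff hu]
      push_cast
      rw [ZMod.natCast_zmod_val, ZMod.natCast_zmod_val, ZMod.natCast_zmod_val, sub_self]
    have h4 : u.valuation K ((x.val : K) ^ A * (y.val : K) ^ A - ζ ^ (L (x * y)).val) < 1 := by
      rw [show (x.val : K) ^ A * (y.val : K) ^ A - ζ ^ (L (x * y)).val =
        ((x.val : K) ^ A * (y.val : K) ^ A - ((x * y).val : K) ^ A) +
          (((x * y).val : K) ^ A - ζ ^ (L (x * y)).val) by ring]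
      exact Valuation.map_add_lt _ h3 h1
    have := root_unique hζ hup h4 h2
    rwa [Nat.cast_add, ZMod.natCast_zmod_val, ZMod.natCast_zmod_val, ZMod.natCast_zmod_val] at this
  have hL1 : L 1 = 0 := by
    have h := hmul 1 1 one_ne_zero one_ne_zero
    rw [mul_one] at h
    exact (left_eq_add.mp h)
  have : NeZero p := ⟨hp.out.ne_zero⟩
  let ζi : 𝓞 K := hζ.toInteger
  have hζi : ζi ^ p = 1 := RingOfIntegers.coe_injective (by push_cast; exact hζ.pow_eq_one)
  let χ : MulChar (ZMod q) (𝓞 K) :=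
    { toFun := fun x => if x = 0 then 0 else ζi ^ (L x).val
      map_one' := by simp [hL1]
      map_mul' := fun x y => by
        rcases eq_or_ne x 0 with rfl | hx
        · simp
        rcases eq_or_ne y 0 with rfl | hy
        · simp
        rw [if_neg (mul_ne_zero hx hy), if_neg hx, if_neg hy, ← pow_add, hmul x y hx hy,
          ZMod.val_add, ← pow_eq_pow_mod _ hζi]
      map_nonunit' := fun x hx => by
        rw [isUnit_iff_ne_zero, not_not] at hx
        simp [hx] }
  have hχ : ∀ x : ZMod q, x ≠ 0 → ((χ x : 𝓞 K) : K) = ζ ^ (L x).val := fun x hx => by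
    show (((if x = 0 then 0 else ζi ^ (L x).val : 𝓞 K)) : K) = _
    rw [if_neg hx]
    push_cast
    rfl
  refine ⟨⟨χ, L, hχ, hmul, dif_pos rfl, fun x => ?_⟩⟩
  rcases eq_or_ne x 0 with rfl | hx
  · rw [MulChar.map_zero]; simp [zero_pow hA.ne']
  · rw [hχ x hx, Valuation.map_sub_swap]
    exact hval x hx

namespace ResidueChar

variable {hζ} {u : Place K} {A : ℕ} (C : ResidueChar hζ u q A)

lemma val_chi_le_one (v : Place K) (x : ZMod q) : v.valuation K ((C.chi x : 𝓞 K) : K) ≤ 1 :=
  valuation_coe_le_one v _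

lemma jacobi_congr (hu : OverPrime q u) {i j A' B' : ℕ} (hi : 0 < i) (hj : 0 < j)
    (hA' : ∀ x : ZMod q, x ^ (i * A) = x ^ A') (hB' : ∀ x : ZMod q, x ^ (j * A) = x ^ B') :
    (u.valuation K ((jacobiSum (C.chi ^ i) (C.chi ^ j) : 𝓞 K) : K) < 1 ↔
      ∑ x : ZMod q, x ^ A' * (1 - x) ^ B' = 0) := by
  set N : ℤ := ∑ x : ZMod q, (x.val : ℤ) ^ (i * A) * ((1 - x).val : ℤ) ^ (j * A)
  have hN : (N : ZMod q) = ∑ x : ZMod q, x ^ A' * (1 - x) ^ B' := by
    simp only [N]
    push_cast
    simp only [ZMod.natCast_zmod_val, hA', hB']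
  have hd : u.valuation K (((jacobiSum (C.chi ^ i) (C.chi ^ j) : 𝓞 K) : K) - (N : K)) < 1 := by
    simp only [N, jacobiSum]
    push_cast
    rw [← Finset.sum_sub_distrib]
    refine Valuation.map_sum_lt _ one_ne_zero fun x _ => ?_
    rw [MulChar.pow_apply' _ hi.ne', MulChar.pow_apply' _ hj.ne', pow_mul', pow_mul']
    push_cast
    set a := ((C.chi x : 𝓞 K) : K)
    set b := ((C.chi (1 - x) : 𝓞 K) : K)
    set c := (x.val : K) ^ A
    set d := ((1 - x).val : K) ^ A
    show u.valuation K (a ^ i * b ^ j - c ^ i * d ^ j) < 1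
    have hc : u.valuation K c ≤ 1 := by
      rw [map_pow]; exact pow_le_one' (valuation_natCast_le_one u _) _
    have hpow : ∀ (a c : K), u.valuation K a ≤ 1 → u.valuation K c ≤ 1 →
        u.valuation K (a - c) < 1 → ∀ n : ℕ, u.valuation K (a ^ n - c ^ n) < 1 := by
      intro a c ha hc h n
      induction n with
      | zero => simp
      | succ n ih =>
        rw [show a ^ (n + 1) - c ^ (n + 1) = a ^ n * (a - c) + (a ^ n - c ^ n) * c by ring]
        refine Valuation.map_add_lt _ ?_ ?_
        · rw [map_mul, map_pow]; exact (mul_le_of_le_one_left' (pow_le_one' ha _)).trans_lt h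
        · rw [map_mul]; exact (mul_le_of_le_one_right' hc).trans_lt ih
    have hdv : u.valuation K d ≤ 1 := by
      rw [map_pow]; exact pow_le_one' (valuation_natCast_le_one u _) _
    rw [show a ^ i * b ^ j - c ^ i * d ^ j = a ^ i * (b ^ j - d ^ j) + (a ^ i - c ^ i) * d ^ j by
      ring]
    refine Valuation.map_add_lt _ ?_ ?_
    · rw [map_mul, map_pow]
      exact (mul_le_of_le_one_left' (pow_le_one' (C.val_chi_le_one u x) _)).trans_lt
        (hpow b d (C.val_chi_le_one u _) hdv (C.congr _) j)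
    · rw [map_mul, map_pow (u.valuation K) d]
      exact (mul_le_of_le_one_right' (pow_le_one' hdv _)).trans_lt
        (hpow a c (C.val_chi_le_one u x) hc (C.congr _) i)
  rw [← hN, ← valuation_intCast_lt_one_iff hu]
  constructor
  · intro h
    rw [show (N : K) = ((jacobiSum (C.chi ^ i) (C.chi ^ j) : 𝓞 K) : K) -
      (((jacobiSum (C.chi ^ i) (C.chi ^ j) : 𝓞 K) : K) - (N : K)) by ring]
    exact (Valuation.map_sub _ _ _).trans_lt (max_lt h hd)
  · intro h
    rw [show ((jacobiSum (C.chi ^ i) (C.chi ^ j) : 𝓞 K) : K) =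
      (((jacobiSum (C.chi ^ i) (C.chi ^ j) : 𝓞 K) : K) - (N : K)) + (N : K) by ring]
    exact Valuation.map_add_lt _ hd h

end ResidueChar

end char

end FLTAgent.Ext
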