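/-
S14 helper library: the `p`-th power of a Gauss sum as a Kummer radical, and its residue symbols.
-/
import Fermat.Agent.Ext.ResidueChar

set_option autoImplicit false
set_option linter.unusedSectionVars false

open IsDedekindDomain NumberField Finset
open scoped NumberField

namespace FLTAgent.Ext

variable {K : Type*} [Field K] [NumberField K] {p : ℕ} [hp : Fact p.Prime] {ζ : K}
  {hζ : IsPrimitiveRoot ζ p} {q : ℕ} [hq : Fact q.Prime] {u : Place K} {m : ℕ}

namespace ResidueChar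

variable (C : ResidueChar hζ u q ((p - 1) * m))

/-- The Gauss radical `g(χ) ^ p`, defined through Jacobi sums. -/
noncomputable def radical : 𝓞 K :=
  C.chi (-1) * (q : 𝓞 K) * ∏ j ∈ Ico 1 (p - 1), jacobiSum C.chi (C.chi ^ j)

lemma log_ne_zero_of_not_pow (hu : OverPrime q u) (hqm : q - 1 = p * m) {x : ZMod q} (hx : x ≠ 0)
    (hpow : ¬ ∃ z : ZMod q, z ^ p = x) : C.log x ≠ 0 := by
  intro h
  have h1 := C.congr x
  rw [C.chi_eq x hx, h, ZMod.val_zero, pow_zero, Valuation.map_sub_swap,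
    show ((x.val : K)) ^ ((p - 1) * m) - 1 = (((x.val : ℤ) ^ ((p - 1) * m) - 1 : ℤ) : K) by
      push_cast; rfl,
    valuation_intCast_lt_one_iff hu] at h1
  push_cast at h1
  rw [ZMod.natCast_zmod_val, sub_eq_zero] at h1
  have h2 : x ^ (p * m) = 1 := by rw [← hqm]; exact ZMod.pow_card_sub_one_eq_one hx
  have h3 : x ^ m = 1 := by
    have h4 : x ^ ((p - 1) * m) * x ^ m = x ^ (p * m) := by
      rw [← pow_add, ← Nat.succ_mul, Nat.succ_eq_add_one, Nat.sub_add_cancel hp.out.one_le]
    rwa [h1, h2, one_mul] at h4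
  obtain ⟨z, hz⟩ := isPow_of_pow_eq_one (G := (ZMod q)ˣ) (m := m) (n := p)
    (by rw [Nat.card_units, Nat.card_zmod, hqm, mul_comm]) (x := Units.mk0 x hx)
    (Units.ext (by simpa using h3))
  exact hpow ⟨z, by simpa using congrArg Units.val hz⟩

lemma exists_log_ne_zero (hu : OverPrime q u) (hqm : q - 1 = p * m) :
    ∃ x : ZMod q, x ≠ 0 ∧ C.log x ≠ 0 := by
  by_contra hcon
  push Not at hcon
  have hnot : ¬ Function.Surjective fun z : (ZMod q)ˣ => z ^ p := fun hs => by
    obtain ⟨z, hz⟩ := exists_prime_orderOf_dvd_card' (G := (ZMod q)ˣ) p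
      (by rw [Nat.card_units, Nat.card_zmod, hqm]; exact dvd_mul_right p m)
    have h1 : z ^ p = (1 : (ZMod q)ˣ) ^ p := by rw [← hz, pow_orderOf_eq_one, one_pow]
    have := (Finite.injective_iff_surjective.mpr hs) h1
    rw [this, orderOf_one] at hz
    exact hp.out.one_lt.ne hz
  refine hnot fun z => ?_
  by_contra h
  refine C.log_ne_zero_of_not_pow hu hqm z.ne_zero ?_ (hcon z z.ne_zero)
  rintro ⟨w, hw⟩
  have hw0 : w ≠ 0 := by
    rintro rfl
    rw [zero_pow hp.out.ne_zero] at hw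
    exact z.ne_zero hw.symm
  exact h ⟨Units.mk0 w hw0, Units.ext (by simpa using hw)⟩

lemma chi_eq_toInteger (x : ZMod q) (hx : x ≠ 0) :
    haveI : NeZero p := ⟨hp.out.ne_zero⟩
    C.chi x = hζ.toInteger ^ (C.log x).val := by
  have : NeZero p := ⟨hp.out.ne_zero⟩
  apply RingOfIntegers.coe_injective
  show ((C.chi x : 𝓞 K) : K) = ((hζ.toInteger ^ (C.log x).val : 𝓞 K) : K)
  rw [C.chi_eq x hx]
  push_cast
  rfl

lemma chi_pow_p : C.chi ^ p = 1 := by
  have : NeZero p := ⟨hp.out.ne_zero⟩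
  refine MulChar.ext fun x => ?_
  rw [MulChar.pow_apply' _ hp.out.ne_zero, C.chi_eq_toInteger _ x.ne_zero,
    MulChar.one_apply_coe, ← pow_mul, mul_comm, pow_mul,
    show (hζ.toInteger : 𝓞 K) ^ p = 1 from RingOfIntegers.coe_injective
      (by push_cast; exact hζ.pow_eq_one), one_pow]

lemma orderOf_ringHomComp (hu : OverPrime q u) (hqm : q - 1 = p * m) {R : Type*} [CommRing R]
    [IsDomain R] (f : 𝓞 K →+* R)
    (hf : haveI : NeZero p := ⟨hp.out.ne_zero⟩; f hζ.toInteger ≠ 1) :
    orderOf (C.chi.ringHomComp f) = p := by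
  have : NeZero p := ⟨hp.out.ne_zero⟩
  refine orderOf_eq_prime (MulChar.ext fun x => ?_) fun h => ?_
  · rw [MulChar.pow_apply' _ hp.out.ne_zero, MulChar.one_apply_coe, MulChar.ringHomComp_apply,
      ← map_pow, ← MulChar.pow_apply' _ hp.out.ne_zero, C.chi_pow_p, MulChar.one_apply_coe, map_one]
  · obtain ⟨x, hx, hlog⟩ := C.exists_log_ne_zero hu hqm
    have h1 := DFunLike.congr_fun h x
    rw [MulChar.ringHomComp_apply, C.chi_eq_toInteger x hx, map_pow,
      MulChar.one_apply hx.isUnit] at h1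
    have hp1 : (f hζ.toInteger) ^ p = 1 := by
      rw [← map_pow, show (hζ.toInteger : 𝓞 K) ^ p = 1 from RingOfIntegers.coe_injective
        (by push_cast; exact hζ.pow_eq_one), map_one]
    have hord : orderOf (f hζ.toInteger) = p := orderOf_eq_prime hp1 hf
    rw [← orderOf_dvd_iff_pow_eq_one, hord] at h1
    exact hlog ((ZMod.val_eq_zero _).mp (Nat.eq_zero_of_dvd_of_lt h1 (ZMod.val_lt _)))

lemma map_radical_eq (hu : OverPrime q u) (hqm : q - 1 = p * m) {R : Type*} [CommRing R]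
    [IsDomain R] (f : 𝓞 K →+* R)
    (hf : haveI : NeZero p := ⟨hp.out.ne_zero⟩; f hζ.toInteger ≠ 1)
    {ψ : AddChar (ZMod q) R} (hψ : ψ.IsPrimitive) :
    gaussSum (C.chi.ringHomComp f) ψ ^ p = f C.radical := by
  have hord := C.orderOf_ringHomComp hu hqm f hf
  have h := gaussSum_pow_eq_prod_jacobiSum (χ := C.chi.ringHomComp f) (ψ := ψ)
    (by rw [hord]; exact hp.out.two_le) hψ
  rw [hord, ZMod.card] at h
  rw [h, radical, map_mul, map_mul, map_prod, map_natCast, MulChar.ringHomComp_apply]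
  congr 1
  refine Finset.prod_congr rfl fun j _ => ?_
  rw [MulChar.ringHomComp_pow, jacobiSum_ringHomComp]

lemma valuation_toInteger_sub_one {v : Place K} (hv : v.valuation K (p : K) = 1) :
    haveI : NeZero p := ⟨hp.out.ne_zero⟩
    hζ.toInteger - 1 ∉ v.asIdeal := by
  have : NeZero p := ⟨hp.out.ne_zero⟩
  rw [← v.valuation_eq_one_iff_notMem (K := K), map_sub, map_one]
  exact valuation_sub_one_eq_one hζ hv

/-- The residue symbol of the radical at `v` is given by `N v` modulo `q`. -/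
theorem sym_radical (hu : OverPrime q u) (hqm : q - 1 = p * m) {v : Place K}
    (hvp : v.valuation K (p : K) = 1) (hvq : v.valuation K (q : K) = 1)
    {b : Kˣ} (hb : (b : K) = (C.radical : K)) (hb1 : v.valuation K (b : K) = 1) :
    sym hζ v (Additive.ofMul b) = -C.log (Ideal.absNorm v.asIdeal : ℕ) := by
  have : NeZero p := ⟨hp.out.ne_zero⟩
  have := v.isMaximal
  let := Ideal.Quotient.field v.asIdeal
  let k := 𝓞 K ⧸ v.asIdeal
  let k' := AlgebraicClosure k
  let f : 𝓞 K →+* k' := (algebraMap k k').comp (Ideal.Quotient.mk v.asIdeal)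
  have hker : ∀ r : 𝓞 K, f r = 0 ↔ r ∈ v.asIdeal := fun r => by
    simp only [f, RingHom.comp_apply, map_eq_zero]
    exact Ideal.Quotient.eq_zero_iff_mem
  have hf : f hζ.toInteger ≠ 1 := fun h => valuation_toInteger_sub_one (hζ := hζ) hvp
    ((hker _).mp (by rw [map_sub, h, map_one, sub_self]))
  have hfin : Finite k := Ideal.finiteQuotientOfFreeOfNeBot _ v.ne_bot
  obtain ⟨ℓ, hℓ⟩ := CharP.exists k
  have hℓp : ℓ.Prime := (CharP.char_is_prime_or_zero k ℓ).resolve_right (fun h => by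
    subst h
    have := CharP.charP_to_charZero k
    exact (Finite.not_infinite hfin) inferInstance)
  have := Fact.mk hℓp
  let := Fintype.ofFinite k
  obtain ⟨n, -, hn⟩ := FiniteField.card k ℓ
  have hN : Ideal.absNorm v.asIdeal = ℓ ^ (n : ℕ) := by
    rw [← hn, Fintype.card_eq_nat_card]; rfl
  have : CharP k' ℓ := charP_of_injective_ringHom (algebraMap k k').injective ℓ
  have hq0 : (q : k') ≠ 0 := by
    rw [← map_natCast f, Ne, hker, ← v.valuation_eq_one_iff_notMem (K := K)]
    simpa using hvq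
  have : NeZero (q : k') := ⟨hq0⟩
  have : NeZero q := ⟨hq.out.ne_zero⟩
  obtain ⟨μ, hμ⟩ := HasEnoughRootsOfUnity.exists_primitiveRoot k' q
  set ψ := AddChar.zmodChar q ((IsPrimitiveRoot.iff_def μ q).mp hμ).left
  have hψ : ψ.IsPrimitive := AddChar.zmodChar_primitive_of_primitive_root q hμ
  set χ' := C.chi.ringHomComp f with hχ'
  set g := gaussSum χ' ψ with hg
  set N := Ideal.absNorm v.asIdeal with hNdef
  have hNq : (N : ZMod q) ≠ 0 := by
    rw [hN, Nat.cast_pow]
    refine pow_ne_zero _ fun h => hq0 ?_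
    rw [ZMod.natCast_eq_zero_iff, Nat.prime_dvd_prime_iff_eq hq.out hℓp] at h
    rw [h]; exact CharP.cast_eq_zero k' ℓ
  have hord : orderOf χ' = p := C.orderOf_ringHomComp hu hqm f hf
  have hchiN : χ' ^ N = χ' := by
    obtain ⟨d, hd⟩ := dvd_absNorm_sub_one hζ hvp
    have h1 : N = p * d + 1 := by
      have : 1 ≤ N := by rw [hN]; exact Nat.one_le_pow _ _ hℓp.pos
      rw [hNdef] at this ⊢; omega
    rw [h1, pow_succ, pow_mul]
    conv_lhs => rw [← hord, pow_orderOf_eq_one, one_pow, one_mul]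
  have hgN : g ^ N = χ'⁻¹ (N : ZMod q) * g := by
    refine Eq.trans ?_ (gaussSum_mulShift_eq χ' ψ (Units.mk0 _ hNq))
    have hN0 : N ≠ 0 := fun h => hNq (by rw [h, Nat.cast_zero])
    calc g ^ N = ∑ x, (χ' x * ψ x) ^ N := by
          rw [hg, gaussSum, hN]; exact sum_pow_char_pow ℓ n Finset.univ fun x => χ' x * ψ x
      _ = gaussSum χ' (ψ.mulShift (Units.mk0 _ hNq : (ZMod q)ˣ)) := by
          refine Finset.sum_congr rfl fun x _ => ?_
          rw [mul_pow, ← MulChar.pow_apply' _ hN0, hchiN, AddChar.mulShift_apply,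
            Units.val_mk0, ← AddChar.map_nsmul_eq_pow, nsmul_eq_mul]
  have hχ1 : χ' ≠ 1 := fun h => by
    rw [h, orderOf_one] at hord; exact hp.out.one_lt.ne hord
  have hg0 : g ≠ 0 := gaussSum_ne_zero_of_nontrivial (by rwa [ZMod.card]) hχ1 hψ
  have hpow : f C.radical ^ expo p v = χ'⁻¹ (N : ZMod q) := by
    apply mul_right_cancel₀ hg0
    rw [← C.map_radical_eq hu hqm f hf hψ, ← hχ', ← hg, ← pow_mul, mul_comm p, expo_mul hζ hvp, ← hgN,
      ← hNdef, ← pow_succ, Nat.sub_add_cancel (Nat.one_le_iff_ne_zero.mpr fun h => hNq (by simp [h]))]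
  have hinv : χ'⁻¹ (N : ZMod q) = f (hζ.toInteger ^ (-C.log (N : ZMod q)).val) := by
    rw [MulChar.inv_apply', hχ', MulChar.ringHomComp_apply,
      C.chi_eq_toInteger _ (inv_ne_zero hNq)]
    congr 3
    have h1 := C.log_mul _ _ hNq (inv_ne_zero hNq)
    rw [mul_inv_cancel₀ hNq] at h1
    have h0 := C.log_mul 1 1 one_ne_zero one_ne_zero
    rw [mul_one] at h0
    rw [left_eq_add.mp h0] at h1
    exact eq_neg_of_add_eq_zero_right h1.symm
  rw [← ZMod.natCast_zmod_val (-C.log _), sym_eq_iff hζ hvp hb1, hb]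
  have hmem : C.radical ^ expo p v - hζ.toInteger ^ (-C.log (N : ZMod q)).val ∈ v.asIdeal := by
    rw [← hker, map_sub, map_pow f, hpow, hinv, sub_self]
  rw [← v.valuation_lt_one_iff_mem (K := K)] at hmem
  push_cast at hmem
  exact hmem

lemma valuation_chi_neg_one (v : Place K) :
    v.valuation K ((C.chi (-1) : 𝓞 K) : K) = 1 := by
  rw [C.chi_eq (-1) (by simp), map_pow, valuation_root_eq_one hζ, one_pow]

lemma valuation_radical {v : Place K} (hu : OverPrime q u) (hqm : q - 1 = p * m)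
    (hv : v.valuation K (q : K) = 1) : v.valuation K (C.radical : K) = 1 := by
  have : NeZero p := ⟨hp.out.ne_zero⟩
  rw [radical]
  push_cast
  rw [map_mul, map_mul, map_prod, hv, mul_one]
  refine (congrArg₂ (· * ·) (C.valuation_chi_neg_one v) ?_).trans (one_mul _)
  refine Finset.prod_eq_one fun j hj => ?_
  rw [Finset.mem_Ico] at hj
  have hf : (algebraMap (𝓞 K) K) hζ.toInteger ≠ 1 := hζ.ne_one hp.out.one_lt
  have hord := C.orderOf_ringHomComp hu hqm (algebraMap (𝓞 K) K) hf
  set χK := C.chi.ringHomComp (algebraMap (𝓞 K) K) with hχK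
  have h := jacobiSum_mul_jacobiSum_inv (F := ZMod q) (F' := K) (χ := χK) (φ := χK ^ j)
    (by rw [ringChar.eq_zero, ZMod.ringChar_zmod_n]; exact hq.out.ne_zero.symm)
    (fun h1 => by rw [h1, orderOf_one] at hord; exact hp.out.one_lt.ne hord)
    (pow_ne_one_of_lt_orderOf (by omega) (by rw [hord]; omega))
    (by rw [← pow_succ']; exact pow_ne_one_of_lt_orderOf (by omega) (by rw [hord]; omega))
  rw [ZMod.card] at h
  have hJ : jacobiSum χK (χK ^ j) = ((jacobiSum C.chi (C.chi ^ j) : 𝓞 K) : K) := by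
    rw [hχK, MulChar.ringHomComp_pow, jacobiSum_ringHomComp]
  have hJ' : jacobiSum χK⁻¹ (χK ^ j)⁻¹ = ((jacobiSum C.chi⁻¹ (C.chi ^ j)⁻¹ : 𝓞 K) : K) := by
    rw [hχK, MulChar.ringHomComp_pow, MulChar.ringHomComp_inv, MulChar.ringHomComp_inv,
      jacobiSum_ringHomComp]
  rw [hJ, hJ'] at h
  have h2 := congrArg (v.valuation K) h
  rw [map_mul, hv] at h2
  exact eq_one_of_one_le_mul_left (valuation_coe_le_one v _) (valuation_coe_le_one v _) h2.ge

lemma valuation_radical_over (hu : OverPrime q u) (hqm : q - 1 = p * m) (hqp : q ≠ p) :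
    u.valuation K (C.radical : K) = u.valuation K (q : K) := by
  have : NeZero p := ⟨hp.out.ne_zero⟩
  have hm : 0 < m := Nat.pos_of_ne_zero fun h => by
    rw [h, mul_zero] at hqm; have := hq.out.two_le; omega
  rw [radical]
  push_cast
  rw [map_mul, map_mul, map_prod]
  refine (congrArg₂ (· * ·) (congrArg₂ (· * ·) (C.valuation_chi_neg_one u) rfl)
    (Finset.prod_eq_one fun j hj => ?_)).trans ((mul_one _).trans (one_mul _))
  rw [Finset.mem_Ico] at hj
  refine le_antisymm (valuation_coe_le_one u _) (not_lt.mp fun hlt => ?_)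
  have hexp : ∀ (j : ℕ), 1 ≤ j → j < p → ∀ x : ZMod q,
      x ^ (j * ((p - 1) * m)) = x ^ ((p - j) * m) := by
    intro j hj1 hjp x
    have he : j * ((p - 1) * m) = (p - j) * m + (j - 1) * (q - 1) := by
      rw [hqm, ← mul_assoc, ← mul_assoc, ← Nat.add_mul]
      congr 1
      obtain ⟨d, rfl⟩ := Nat.exists_eq_add_of_lt hjp
      obtain ⟨i, rfl⟩ := Nat.exists_eq_add_of_le' hj1
      rw [show i + 1 + d + 1 - 1 = i + 1 + d from by omega,
        show i + 1 + d + 1 - (i + 1) = d + 1 from by omega,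
        show i + 1 - 1 = i from by omega]
      ring
    rcases eq_or_ne x 0 with rfl | hx
    · rw [zero_pow, zero_pow]
      · exact Nat.mul_ne_zero (by omega) hm.ne'
      · exact Nat.mul_ne_zero (by omega) (Nat.mul_ne_zero (by omega) hm.ne')
    · rw [he, pow_add, pow_mul' x (j - 1), ZMod.pow_card_sub_one_eq_one hx, one_pow, mul_one]
  have h := (C.jacobi_congr hu one_pos (by omega : 0 < j) (A' := (p - 1) * m) (B' := (p - j) * m)
    (fun x => by rw [one_mul]) (hexp j (by omega) (by omega))).mp (by rwa [pow_one])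
  refine sum_ne_zero_of_le (Nat.mul_pos (by omega) hm) ?_ ?_ ?_ h
  · rw [hqm]; exact Nat.mul_lt_mul_of_pos_right (by omega) hm
  · rw [hqm]; exact Nat.mul_lt_mul_of_pos_right (by omega) hm
  · rw [hqm, ← Nat.add_mul]; exact Nat.mul_le_mul_right _ (by omega)

include C in
/-- The radical is unramified at the places over `p`. -/
lemma radical_mem_unrSub (hu : OverPrime q u) (hqm : q - 1 = p * m) (hqp : q ≠ p) (hp2 : p ≠ 2)
    {b : Kˣ} (hb : (b : K) = (C.radical : K)) {v : Place K} (hv : v.valuation K (p : K) < 1) :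
    b ∈ unrSub hζ v := by
  have : NeZero p := ⟨hp.out.ne_zero⟩
  have : NeZero q := ⟨hq.out.ne_zero⟩
  let Ω := AlgebraicClosure K
  let f : 𝓞 K →+* Ω := (algebraMap K Ω).comp (algebraMap (𝓞 K) K)
  have hfinj : Function.Injective f :=
    (algebraMap K Ω).injective.comp RingOfIntegers.coe_injective
  have hf : f hζ.toInteger ≠ 1 := fun h => hζ.ne_one hp.out.one_lt
    ((algebraMap K Ω).injective (h.trans (map_one _).symm))
  obtain ⟨μ, hμ⟩ := HasEnoughRootsOfUnity.exists_primitiveRoot Ω q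
  set ψ := AddChar.zmodChar q ((IsPrimitiveRoot.iff_def μ q).mp hμ).left
  have hψ : ψ.IsPrimitive := AddChar.zmodChar_primitive_of_primitive_root q hμ
  set χ' := C.chi.ringHomComp f
  set ε : Ω := algebraMap K Ω (ζ - 1)
  have hε0 : ε ≠ 0 := by
    simp only [ε, ne_eq, map_eq_zero, sub_eq_zero]
    exact hζ.ne_one hp.out.one_lt
  have hint : ∀ r : 𝓞 K, IsIntegral ℤ (f r) := fun r =>
    (RingOfIntegers.isIntegral_coe r).map (algebraMap K Ω).toIntAlgHom
  have hψint : ∀ x, IsIntegral ℤ (ψ x) := fun x => by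
    rw [AddChar.zmodChar_apply]; exact (hμ.isIntegral hq.out.pos).pow _
  -- `g + 1` is divisible by `ζ - 1`
  obtain ⟨X, hX, hgX⟩ : ∃ X : Ω, IsIntegral ℤ X ∧ gaussSum χ' ψ + 1 = ε * X := by
    refine ⟨∑ x ∈ ({0}ᶜ : Finset (ZMod q)),
      f (∑ i ∈ range (C.log x).val, hζ.toInteger ^ i) * ψ x, ?_, ?_⟩
    · exact IsIntegral.sum _ fun x _ => (hint _).mul (hψint x)
    · have hsum : ∑ x, ψ x = 0 := AddChar.sum_eq_zero_of_ne_one (fun h => by
        have := hψ one_ne_zero
        exact this (by ext x; simp [h]))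
      have h1 : gaussSum χ' ψ + 1 = ∑ x, (χ' x - 1) * ψ x + 1 := by
        rw [gaussSum]
        simp only [sub_mul, one_mul, Finset.sum_sub_distrib, hsum, sub_zero]
      rw [h1, ← Finset.sum_compl_add_sum ({0} : Finset (ZMod q)), Finset.sum_singleton,
        AddChar.map_zero_eq_one, MulChar.map_zero]
      simp only [zero_sub, mul_one, neg_add_cancel_right]
      rw [Finset.mul_sum]
      refine Finset.sum_congr rfl fun x hx => ?_
      rw [Finset.mem_compl, Finset.mem_singleton] at hx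
      rw [MulChar.ringHomComp_apply, C.chi_eq_toInteger x hx, ← mul_assoc]
      congr 1
      rw [show ε = f (hζ.toInteger - 1) from rfl, ← map_mul, mul_geom_sum, map_sub, map_one]
  -- so `radical + 1` is divisible by its `p`-th power
  set c : K := (p : K) / (ζ - 1) ^ (p - 1) with hc
  have hζ1 : ζ - 1 ≠ 0 := sub_ne_zero.mpr (hζ.ne_one hp.out.one_lt)
  have hcint : IsIntegral ℤ c := by
    obtain ⟨a, ha⟩ := HeightOneSpectrum.mem_integers_of_valuation_le_one (R := 𝓞 K) K c fun w => by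
      rw [hc, map_div₀, map_pow, valuation_natCast_eq hζ w, div_self]
      exact pow_ne_zero _ (by simpa using hζ1)
    rw [← ha]; exact RingOfIntegers.isIntegral_coe a
  have hY : IsIntegral ℤ (((C.radical : K) + 1) / (ζ - 1) ^ p) := by
    rw [← isIntegral_algebraMap_iff (A := K) (B := Ω) (algebraMap K Ω).injective]
    have hg : gaussSum χ' ψ = ε * X + (-1) := by rw [← hgX]; ring
    let Sint := integralClosure ℤ Ω
    have hεi : IsIntegral ℤ ε := hint (hζ.toInteger - 1)
    obtain ⟨r, hr⟩ := exists_add_pow_prime_eq hp.out (⟨ε * X, hεi.mul hX⟩ : Sint) (-1)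
    have hr' : gaussSum χ' ψ ^ p = (ε * X) ^ p + (-1) ^ p + p * (ε * X) * (-1) * (r : Ω) := by
      have h' := congrArg (Subtype.val) hr
      push_cast at h'
      rw [hg]
      exact h'
    have hodd : (-1 : Ω) ^ p = -1 := (hp.out.odd_of_ne_two hp2).neg_one_pow
    have heq : algebraMap K Ω (((C.radical : K) + 1) / (ζ - 1) ^ p) =
        X ^ p - algebraMap K Ω c * X * (r : Ω) := by
      have hrad : algebraMap K Ω (C.radical : K) = gaussSum χ' ψ ^ p :=
        (C.map_radical_eq hu hqm f hf hψ).symm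
      rw [map_div₀, map_add, map_one, hrad, hr', hodd, hc, map_div₀, map_pow, map_pow,
        map_natCast]
      change ((ε * X) ^ p + -1 + (p : Ω) * (ε * X) * -1 * (r : Ω) + 1) / ε ^ p =
        X ^ p - (p : Ω) / ε ^ (p - 1) * X * (r : Ω)
      obtain ⟨k, hk⟩ := Nat.exists_eq_add_of_le' hp.out.one_le
      rw [hk, Nat.add_sub_cancel, mul_pow, pow_succ ε k]
      have hεk : ε ^ k ≠ 0 := pow_ne_zero _ hε0
      generalize ((k + 1 : ℕ) : Ω) = P
      rw [div_eq_iff (mul_ne_zero hεk hε0), sub_mul]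
      have : P / ε ^ k * X * (r : Ω) * (ε ^ k * ε) = P * X * (r : Ω) * ε := by
        rw [show P / ε ^ k * X * (r : Ω) * (ε ^ k * ε) = P / ε ^ k * ε ^ k * (X * (r : Ω) * ε) by ring,
          div_mul_cancel₀ _ hεk]
        ring
      rw [this]
      ring
    rw [heq]
    exact (hX.pow p).sub ((((hcint.map (algebraMap K Ω).toIntAlgHom)).mul hX).mul r.2)
  have hYv : v.valuation K (((C.radical : K) + 1) / (ζ - 1) ^ p) ≤ 1 :=
    valuation_coe_le_one v ⟨_, hY⟩
  rw [map_div₀, map_pow, div_le_one₀ (pow_pos (zero_lt_iff.mpr (by simpa using hζ1)) _)] at hYv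
  have hvq : v.valuation K (q : K) = 1 := by
    refine le_antisymm (valuation_natCast_le_one v q) (not_lt.mp fun hlt => ?_)
    exact (valuation_p_eq_one_of_overPrime (p := p) (u := v) hlt hqp).not_lt hv
  refine (mem_unrSub hζ).mpr ⟨-1, ?_, ?_⟩
  · rw [Units.val_div_eq_div_val, Units.val_pow_eq_pow_val, Units.val_neg, Units.val_one,
      (hp.out.odd_of_ne_two hp2).neg_one_pow, div_neg, div_one, Valuation.map_neg, hb]
    exact C.valuation_radical hu hqm hvq
  · rw [Units.val_div_eq_div_val, Units.val_pow_eq_pow_val, Units.val_neg, Units.val_one,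
      (hp.out.odd_of_ne_two hp2).neg_one_pow, div_neg, div_one, hb,
      show -(C.radical : K) - 1 = -((C.radical : K) + 1) by ring, Valuation.map_neg]
    exact hYv

end ResidueChar

end FLTAgent.Ext
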