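/-
S14 helper library: an elementary counting contradiction, and counting of integral ideals of a
number field avoiding a finite set of primes.
-/
import Fermat.Agent.Ext.Ord

set_option autoImplicit false
set_option linter.unusedSectionVars false

open IsDedekindDomain NumberField Filter Topology
open scoped NumberField

namespace FLTAgent.Ext

/-- Two copies of a family with linear growth do not inject into a family with linear growth. -/
theorem false_of_linear_growth {M G : Type*} (N : M → ℕ) (NG : G → ℕ) (ι : M × M → G)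
    (hι : Function.Injective ι) (hN : ∀ q : M × M, NG (ι q) ≤ N q.1 * N q.2)
    (hMfin : ∀ n : ℕ, {a : M | N a ≤ n}.Finite) (hGfin : ∀ n : ℕ, {b : G | NG b ≤ n}.Finite)
    {k C n₀ : ℕ} (hlow : ∀ n, n₀ ≤ n → n ≤ k * {a : M | N a ≤ n}.ncard)
    (hup : ∀ n, n₀ ≤ n → {a : M | N a ≤ n}.ncard ≤ C * n)
    (hupG : ∀ n, n₀ ≤ n → {b : G | NG b ≤ n}.ncard ≤ C * n) : False := by
  classical
  let f : ℕ → ℕ := fun n => {a : M | N a ≤ n}.ncard
  have hk : 0 < k := by
    rcases Nat.eq_zero_or_pos k with h | h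
    · have := hlow (n₀ + 1) (by omega); simp [h] at this
    · exact h
  have hC : 0 < C := by
    rcases Nat.eq_zero_or_pos C with h | h
    · have h1 := hlow (n₀ + 1) (by omega)
      have h2 := hup (n₀ + 1) (by omega)
      simp only [h, zero_mul, nonpos_iff_eq_zero] at h2
      simp [h2] at h1
    · exact h
  set R := 2 * k * C with hR
  have hR2 : 2 ≤ R := by
    have := Nat.mul_pos hk hC
    rw [hR]; nlinarith
  have hn₀R : ∀ j, n₀ ≤ j → n₀ ≤ R ^ j := fun j hj =>
    hj.trans (Nat.lt_pow_self (by omega : 1 < R)).le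
  set J := 2 * k * k * C + 1 with hJ
  set T := J + 2 * n₀ with hT
  let blk : ℕ → Finset M := fun i =>
    (hMfin (R ^ (n₀ + i + 1))).toFinset \ (hMfin (R ^ (n₀ + i))).toFinset
  have hblk : ∀ i, R ^ (n₀ + i + 1) ≤ 2 * k * (blk i).card := by
    intro i
    have h1 : f (R ^ (n₀ + i + 1)) ≤ (blk i).card + f (R ^ (n₀ + i)) := by
      simp only [f, Set.ncard_eq_toFinset_card _ (hMfin _), blk]
      exact Finset.card_le_card_sdiff_add_card
    have h2 := hlow _ (hn₀R (n₀ + i + 1) (by omega))
    have h3 : f (R ^ (n₀ + i)) ≤ C * R ^ (n₀ + i) := hup _ (hn₀R (n₀ + i) (by omega))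
    have h4 : R ^ (n₀ + i + 1) = 2 * k * C * R ^ (n₀ + i) := by rw [pow_succ', ← hR]
    have h5 : k * f (R ^ (n₀ + i + 1)) ≤ k * ((blk i).card + C * R ^ (n₀ + i)) :=
      Nat.mul_le_mul_left k (h1.trans (by omega))
    have h6 : R ^ (n₀ + i + 1) ≤ k * (blk i).card + k * (C * R ^ (n₀ + i)) := by
      calc R ^ (n₀ + i + 1) ≤ k * f (R ^ (n₀ + i + 1)) := h2
        _ ≤ _ := h5.trans (by rw [mul_add])
    nlinarith
  let P : Finset (M × M) := (Finset.range J).biUnion fun i =>
    blk i ×ˢ (hMfin (R ^ (T - (n₀ + i + 1)))).toFinset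
  have hP : P.card = ∑ i ∈ Finset.range J, (blk i).card * f (R ^ (T - (n₀ + i + 1))) := by
    rw [Finset.card_biUnion]
    · refine Finset.sum_congr rfl fun i _ => ?_
      rw [Finset.card_product]
      simp only [f, Set.ncard_eq_toFinset_card _ (hMfin _)]
    · intro i _ j _ hij
      rw [Function.onFun, Finset.disjoint_left]
      rintro ⟨a, b⟩ ha hb
      simp only [blk, Finset.mem_product, Finset.mem_sdiff, Set.Finite.mem_toFinset,
        Set.mem_ofPred_eq, not_le] at ha hb
      rcases lt_or_gt_of_ne hij with h | h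
      · have : R ^ (n₀ + i + 1) ≤ R ^ (n₀ + j) := Nat.pow_le_pow_right (by omega) (by omega)
        omega
      · have : R ^ (n₀ + j + 1) ≤ R ^ (n₀ + i) := Nat.pow_le_pow_right (by omega) (by omega)
        omega
  have hlowP : J * R ^ T ≤ 2 * k * k * P.card := by
    rw [hP, Finset.mul_sum]
    calc J * R ^ T = ∑ _i ∈ Finset.range J, R ^ T := by simp
      _ ≤ _ := by
        refine Finset.sum_le_sum fun i hi => ?_
        rw [Finset.mem_range] at hi
        have e : R ^ T = R ^ (n₀ + i + 1) * R ^ (T - (n₀ + i + 1)) := by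
          rw [← pow_add]; congr 1; omega
        rw [e]
        calc R ^ (n₀ + i + 1) * R ^ (T - (n₀ + i + 1))
            ≤ (2 * k * (blk i).card) * (k * f (R ^ (T - (n₀ + i + 1)))) :=
              Nat.mul_le_mul (hblk i) (hlow _ (hn₀R _ (by omega)))
          _ = _ := by ring
  have hupP : P.card ≤ C * R ^ T := by
    refine le_trans ?_ (hupG _ (hn₀R T (by omega)))
    rw [Set.ncard_eq_toFinset_card _ (hGfin _)]
    refine Finset.card_le_card_of_injOn ι ?_ hι.injOn
    intro q hq
    simp only [P, Finset.coe_biUnion, Set.mem_iUnion, Finset.mem_coe, Finset.mem_range,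
      Finset.mem_product, blk, Finset.mem_sdiff, Set.Finite.mem_toFinset, Set.mem_ofPred_eq,
      exists_prop] at hq ⊢
    obtain ⟨i, hi, ⟨ha, -⟩, hb⟩ := hq
    refine (hN q).trans ((Nat.mul_le_mul ha hb).trans ?_)
    rw [← pow_add]
    exact Nat.pow_le_pow_right (by omega) (by omega)
  have hRT : 0 < R ^ T := pow_pos (by omega) _
  nlinarith [hlowP.trans (Nat.mul_le_mul_left (2 * k * k) hupP)]

section ideals

variable {K : Type*} [Field K] [NumberField K]

/-- Nonzero ideals without prime factor in `B`. -/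
def idealsAvoiding (B : Finset (Place K)) : Set (Ideal (𝓞 K)) :=
  {I | I ≠ ⊥ ∧ ∀ v ∈ B, ¬ I ≤ v.asIdeal}

lemma finite_idealsAvoiding (B : Finset (Place K)) (s : ℝ) :
    {I ∈ idealsAvoiding B | (Ideal.absNorm I : ℝ) ≤ s}.Finite := by
  refine (Ideal.finite_setOfPred_absNorm_le (S := 𝓞 K) ⌊s⌋₊).subset fun I hI => ?_
  exact Nat.le_floor hI.2

/-- Counting function of `idealsAvoiding`. -/
noncomputable def countAvoiding (B : Finset (Place K)) (s : ℝ) : ℕ :=
  {I ∈ idealsAvoiding B | (Ideal.absNorm I : ℝ) ≤ s}.ncard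

lemma exists_tendsto_countAvoiding (B : Finset (Place K)) :
    ∃ c : ℝ, 0 < c ∧ Tendsto (fun s => (countAvoiding B s : ℝ) / s) atTop (𝓝 c) := by
  classical
  induction B using Finset.induction_on with
  | empty =>
    refine ⟨_, ?_, (NumberField.Ideal.tendsto_norm_le_div_atTop₀ K).congr' ?_⟩
    · have := Units.regulator_pos K
      have := Units.torsionOrder_pos K
      have : 0 < classNumber K := Fintype.card_pos
      have hd : (0 : ℝ) < |(discr K : ℝ)| := by
        simpa using NumberField.discr_ne_zero K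
      positivity
    · filter_upwards with s
      congr 2
      refine Nat.card_congr
        { toFun := fun I => ⟨I.1.1, ⟨nonZeroDivisors.coe_ne_zero I.1, by simp⟩, I.2⟩
          invFun := fun I => ⟨⟨I.1, mem_nonZeroDivisors_of_ne_zero I.2.1.1⟩, I.2.2⟩
          left_inv := fun I => rfl
          right_inv := fun I => rfl }
  | insert v B hv ih =>
    obtain ⟨c, hc, hT⟩ := ih
    set N : ℕ := Ideal.absNorm v.asIdeal with hN
    have hN1 : 1 < N := by
      have h0 : N ≠ 0 := by
        rw [hN, Ne, Ideal.absNorm_eq_zero_iff]; exact v.ne_bot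
      have h1 : N ≠ 1 := by
        rw [hN, Ne, Ideal.absNorm_eq_one_iff]; exact v.isPrime.ne_top
      omega
    have hN0 : (0 : ℝ) < N := by exact_mod_cast Nat.lt_of_lt_of_le Nat.one_pos hN1.le
    have hsplit : ∀ s, countAvoiding B s =
        countAvoiding (insert v B) s + countAvoiding B (s / N) := by
      intro s
      unfold countAvoiding
      have hdisj : ∀ (a : Ideal (𝓞 K)), a ∈ idealsAvoiding B →
          v.asIdeal * a ∈ idealsAvoiding B := by
        rintro a ⟨ha, ha'⟩
        refine ⟨mul_ne_zero v.ne_bot ha, fun w hw h => ?_⟩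
        rcases (w.isPrime.mul_le).mp h with h | h
        · have : v = w := HeightOneSpectrum.ext (v.isMaximal.eq_of_le w.isPrime.ne_top h)
          exact hv (this ▸ hw)
        · exact ha' w hw h
      have hmem : ∀ a : Ideal (𝓞 K), ((Ideal.absNorm (v.asIdeal * a) : ℕ) : ℝ) ≤ s ↔
          (Ideal.absNorm a : ℝ) ≤ s / N := by
        intro a
        rw [map_mul, ← hN, le_div_iff₀ hN0]; push_cast; rw [mul_comm]
      set S1 := {I ∈ idealsAvoiding (insert v B) | (Ideal.absNorm I : ℝ) ≤ s}
      set S2 := {I ∈ idealsAvoiding B | (Ideal.absNorm I : ℝ) ≤ s / N}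
      have hu : {I ∈ idealsAvoiding B | (Ideal.absNorm I : ℝ) ≤ s} =
          S1 ∪ (fun a => v.asIdeal * a) '' S2 := by
        ext I
        simp only [S1, S2, Set.mem_union, Set.mem_image, Set.mem_ofPred_eq]
        constructor
        · rintro ⟨hI, hs⟩
          by_cases h : I ≤ v.asIdeal
          · right
            obtain ⟨a, rfl⟩ := Ideal.dvd_iff_le.mpr h
            refine ⟨a, ⟨⟨fun ha => hI.1 (by simp [ha]), fun w hw h' => ?_⟩,
              (hmem a).mp hs⟩, rfl⟩
            exact hI.2 w hw (Ideal.mul_le_right.trans h')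
          · left
            refine ⟨⟨hI.1, ?_⟩, hs⟩
            simp only [Finset.forall_mem_insert]
            exact ⟨h, hI.2⟩
        · rintro (⟨⟨h1, h2⟩, hs⟩ | ⟨a, ⟨ha, hs⟩, rfl⟩)
          · exact ⟨⟨h1, fun w hw => h2 w (Finset.mem_insert_of_mem hw)⟩, hs⟩
          · exact ⟨hdisj a ha, (hmem a).mpr hs⟩
      rw [hu, Set.ncard_union_eq ?_ (finite_idealsAvoiding _ _)
        ((finite_idealsAvoiding _ _).image _),
        Set.ncard_image_of_injective _ (fun a b h => mul_left_cancel₀ v.ne_bot h)]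
      rw [Set.disjoint_left]
      rintro I hI ⟨a, -, rfl⟩
      exact hI.1.2 v (Finset.mem_insert_self _ _) Ideal.mul_le_left
    refine ⟨c - c / N, ?_, ?_⟩
    · have : c / N < c := by
        rw [div_lt_iff₀ hN0]
        have : (1 : ℝ) < N := by exact_mod_cast hN1
        nlinarith
      linarith
    · have h2 : Tendsto (fun s : ℝ => (countAvoiding B (s / N) : ℝ) / (s / N) / N) atTop
          (𝓝 (c / N)) := (hT.comp (tendsto_id.atTop_div_const hN0)).div_const _
      refine (hT.sub h2).congr' ?_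
      filter_upwards [eventually_gt_atTop 0] with s hs
      rw [hsplit s]; push_cast
      field_simp
      ring

lemma exists_linear_bounds (B : Finset (Place K)) :
    ∃ k C n₀ : ℕ, ∀ n : ℕ, n₀ ≤ n →
      n ≤ k * {I : idealsAvoiding B | Ideal.absNorm (I : Ideal (𝓞 K)) ≤ n}.ncard ∧
      {I : idealsAvoiding B | Ideal.absNorm (I : Ideal (𝓞 K)) ≤ n}.ncard ≤ C * n := by
  obtain ⟨c, hc, hT⟩ := exists_tendsto_countAvoiding B
  have hev : ∀ᶠ n : ℕ in atTop, c / 2 < (countAvoiding B n : ℝ) / n ∧
      (countAvoiding B n : ℝ) / n < c + 1 :=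
    (tendsto_natCast_atTop_atTop (R := ℝ)).eventually
      ((hT.eventually (lt_mem_nhds (by linarith))).and (hT.eventually (gt_mem_nhds (by linarith))))
  obtain ⟨n₁, hn₁⟩ := eventually_atTop.mp hev
  refine ⟨⌈2 / c⌉₊, ⌈c + 1⌉₊, n₁ + 1, fun n hn => ?_⟩
  have heq : {I : idealsAvoiding B | Ideal.absNorm (I : Ideal (𝓞 K)) ≤ n}.ncard =
      countAvoiding B n := by
    unfold countAvoiding
    rw [← Set.ncard_image_of_injective _ Subtype.val_injective]
    congr 1
    ext I
    simp [Nat.cast_le, and_comm]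
  obtain ⟨h1, h2⟩ := hn₁ n (by omega)
  have hn0 : (0 : ℝ) < n := by exact_mod_cast (by omega : 0 < n)
  rw [lt_div_iff₀ hn0] at h1
  rw [div_lt_iff₀ hn0] at h2
  rw [heq]
  constructor
  · have hk : 2 / c ≤ (⌈2 / c⌉₊ : ℝ) := Nat.le_ceil _
    have : (n : ℝ) ≤ (⌈2 / c⌉₊ : ℝ) * countAvoiding B n := by
      calc (n : ℝ) = 2 / c * (c / 2 * n) := by field_simp
        _ ≤ (⌈2 / c⌉₊ : ℝ) * countAvoiding B n :=
          mul_le_mul hk h1.le (by positivity) (by positivity)
    exact_mod_cast this
  · have : (countAvoiding B n : ℝ) ≤ (⌈c + 1⌉₊ : ℝ) * n :=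
      h2.le.trans (mul_le_mul_of_nonneg_right (Nat.le_ceil _) hn0.le)
    exact_mod_cast this

lemma finite_avoiding_le (B : Finset (Place K)) (n : ℕ) :
    {I : idealsAvoiding B | Ideal.absNorm (I : Ideal (𝓞 K)) ≤ n}.Finite :=
  (Ideal.finite_setOfPred_absNorm_le (S := 𝓞 K) n).preimage Subtype.val_injective.injOn

end ideals

end FLTAgent.Ext
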