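/-
S14 helper library: places in a Galois extension of number fields, conjugation of places.
-/
import Fermat.Agent.Ext.Local

set_option autoImplicit false
set_option linter.unusedSectionVars false

open IsDedekindDomain NumberField WithZero
open scoped NumberField Pointwise

namespace FLTAgent.Ext

variable {K F : Type*} [Field K] [Field F] [NumberField K] [NumberField F] [Algebra K F]

/-- The place below `w`. -/
noncomputable abbrev below (K : Type*) {F : Type*} [Field K] [Field F] [NumberField K]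
    [NumberField F] [Algebra K F] (w : Place F) : Place K :=
  w.under (𝓞 K)

instance liesOver_below (w : Place F) : w.asIdeal.LiesOver (below K w).asIdeal := ⟨rfl⟩

/-- Ramification index of `w` over `K`. -/
noncomputable def eIdx (K : Type*) {F : Type*} [Field K] [Field F] [NumberField K]
    [NumberField F] [Algebra K F] (w : Place F) : ℕ :=
  w.asIdeal.ramificationIdx (𝓞 K)

lemma eIdx_pos (w : Place F) : 0 < eIdx K w := Ideal.ramificationIdx_pos _ _

lemma valuation_algebraMap' (w : Place F) (x : K) :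
    w.valuation F (algebraMap K F x) = (below K w).valuation K x ^ eIdx K w := by
  rw [eIdx, ← Ideal.ramificationIdx'_eq_ramificationIdx (below K w).asIdeal w.asIdeal
    (below K w).ne_bot]
  exact ((below K w).valuation_liesOver F w x).symm

lemma ord_algebraMap' (w : Place F) (x : K) :
    ord w (algebraMap K F x) = eIdx K w * ord (below K w) x := by
  simp [ord, valuation_algebraMap', log_pow]

lemma valuation_algebraMap_le_one_iff (w : Place F) (x : K) :
    w.valuation F (algebraMap K F x) ≤ 1 ↔ (below K w).valuation K x ≤ 1 := by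
  rw [valuation_algebraMap', pow_le_one_iff (eIdx_pos w).ne']

lemma valuation_algebraMap_lt_one_iff (w : Place F) (x : K) :
    w.valuation F (algebraMap K F x) < 1 ↔ (below K w).valuation K x < 1 := by
  rw [valuation_algebraMap', pow_lt_one_iff (eIdx_pos w).ne']

lemma valuation_algebraMap_eq_one_iff (w : Place F) (x : K) :
    w.valuation F (algebraMap K F x) = 1 ↔ (below K w).valuation K x = 1 := by
  rw [valuation_algebraMap']
  exact ⟨eq_one_of_pow_eq_one (eIdx_pos w).ne', fun h => by simp [h]⟩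

section places

lemma exists_place_over (v : Place K) : ∃ w : Place F, below K w = v := by
  obtain ⟨P, hP, hPv⟩ := Ideal.exists_maximal_ideal_liesOver_of_isIntegral (S := 𝓞 F) v.asIdeal
  refine ⟨⟨P, hP.isPrime, Ideal.ne_bot_of_liesOver_of_ne_bot v.ne_bot P⟩, ?_⟩
  exact HeightOneSpectrum.ext hPv.over.symm

lemma finite_places_over (v : Place K) : {w : Place F | below K w = v}.Finite := by
  refine (IsDedekindDomain.primesOver_finite v.asIdeal (B := 𝓞 F)).preimage
    (f := HeightOneSpectrum.asIdeal) (Set.injOn_of_injective fun _ _ h => HeightOneSpectrum.ext h)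
    |>.subset ?_
  intro w hw
  exact ⟨w.isPrime, ⟨(congrArg HeightOneSpectrum.asIdeal hw).symm⟩⟩

lemma ncard_places_over (v : Place K) :
    {w : Place F | below K w = v}.ncard = (v.asIdeal.primesOver (𝓞 F)).ncard := by
  refine Set.ncard_congr (fun w _ => w.asIdeal) (fun w hw => ?_) (fun _ _ _ _ h => ?_)
    (fun P hP => ?_)
  · exact ⟨w.isPrime, ⟨(congrArg HeightOneSpectrum.asIdeal hw).symm⟩⟩
  · exact HeightOneSpectrum.ext h
  · exact ⟨⟨P, hP.1, Ideal.ne_bot_of_mem_primesOver v.ne_bot hP⟩,
      HeightOneSpectrum.ext hP.2.over.symm, rfl⟩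

end places

section conj

variable [IsGalois K F] (σ : F ≃ₐ[K] F)

/-- The conjugate place. -/
noncomputable def conjPlace (w : Place F) : Place F where
  asIdeal := σ • w.asIdeal
  isPrime := inferInstance
  ne_bot := fun h => w.ne_bot <| by
    have := congrArg (fun I => σ⁻¹ • I) h
    simpa [inv_smul_smul] using this

lemma conjPlace_mul (σ τ : F ≃ₐ[K] F) (w : Place F) :
    conjPlace (σ * τ) w = conjPlace σ (conjPlace τ w) :=
  HeightOneSpectrum.ext (mul_smul σ τ w.asIdeal)

lemma conjPlace_one (w : Place F) : conjPlace (1 : F ≃ₐ[K] F) w = w :=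
  HeightOneSpectrum.ext (one_smul _ w.asIdeal)

lemma below_conjPlace (w : Place F) : below K (conjPlace σ w) = below K w := by
  apply HeightOneSpectrum.ext
  show Ideal.under (𝓞 K) (σ • w.asIdeal) = Ideal.under (𝓞 K) w.asIdeal
  rw [Ideal.under_smul]

lemma intValuation_conjPlace (w : Place F) (r : 𝓞 F) :
    (conjPlace σ w).intValuation (σ • r) = w.intValuation r := by
  rcases eq_or_ne r 0 with rfl | hr
  · simp
  have hr' : σ • r ≠ 0 := (smul_ne_zero_iff_ne σ).mpr hr
  have key : ∀ n : ℕ, (conjPlace σ w).intValuation (σ • r) ≤ exp (-(n : ℤ)) ↔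
      w.intValuation r ≤ exp (-(n : ℤ)) := by
    intro n
    rw [HeightOneSpectrum.intValuation_le_pow_iff_mem, HeightOneSpectrum.intValuation_le_pow_iff_mem,
      show (conjPlace σ w).asIdeal ^ n = σ • (w.asIdeal ^ n) from (smul_pow' σ w.asIdeal n).symm,
      Ideal.smul_mem_pointwise_smul_iff]
  rw [HeightOneSpectrum.intValuation_if_neg _ hr'] at key ⊢
  rw [HeightOneSpectrum.intValuation_if_neg _ hr] at key ⊢
  simp only [exp_le_exp, exp_inj, neg_le_neg_iff, neg_inj, Nat.cast_le, Nat.cast_inj] at key ⊢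
  exact le_antisymm ((key _).mp le_rfl) ((key _).mpr le_rfl)

lemma valuation_conjPlace (w : Place F) (z : F) :
    (conjPlace σ w).valuation F (σ z) = w.valuation F z := by
  obtain ⟨n, d, hd, rfl⟩ := IsFractionRing.div_surjective (A := 𝓞 F) z
  have h : ∀ r : 𝓞 F, σ (algebraMap (𝓞 F) F r) = algebraMap (𝓞 F) F (σ • r) := fun r => rfl
  rw [map_div₀ σ, h, h, map_div₀, map_div₀]
  simp only [HeightOneSpectrum.valuation_of_algebraMap, intValuation_conjPlace]

lemma valuation_apply_eq (w : Place F) (z : F) :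
    w.valuation F (σ z) = (conjPlace σ⁻¹ w).valuation F z := by
  conv_lhs => rw [← conjPlace_one (K := K) w, ← mul_inv_cancel σ, conjPlace_mul]
  exact valuation_conjPlace σ _ z

lemma ord_apply_eq (w : Place F) (z : F) : ord w (σ z) = ord (conjPlace σ⁻¹ w) z := by
  simp [ord, valuation_apply_eq]

lemma exists_conjPlace_eq {w w' : Place F} (h : below K w = below K w') :
    ∃ τ : F ≃ₐ[K] F, conjPlace τ w = w' := by
  have : w'.asIdeal.LiesOver (below K w).asIdeal := h ▸ liesOver_below w'
  obtain ⟨τ, hτ⟩ := Ideal.exists_smul_eq_of_isGaloisGroup (below K w).asIdeal w.asIdeal w'.asIdeal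
    (F ≃ₐ[K] F)
  exact ⟨τ, HeightOneSpectrum.ext hτ⟩

/-- `n · e · f = [F : K]`. -/
lemma card_mul_eIdx_mul (w : Place F) :
    {w' : Place F | below K w' = below K w}.ncard *
      (eIdx K w * w.asIdeal.inertiaDeg (𝓞 K)) = Module.finrank K F := by
  rw [ncard_places_over, eIdx,
    ← Ideal.ramificationIdxIn_eq_ramificationIdx (below K w).asIdeal w.asIdeal (F ≃ₐ[K] F),
    ← Ideal.inertiaDegIn_eq_inertiaDeg (below K w).asIdeal w.asIdeal (F ≃ₐ[K] F),
    Ideal.ncard_primesOver_mul_ramificationIdxIn_mul_inertiaDegIn (below K w).asIdeal (𝓞 F)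
      (F ≃ₐ[K] F),
    IsGalois.card_aut_eq_finrank]

lemma absNorm_eq_of_inertiaDeg_eq_one (w : Place F) (h : w.asIdeal.inertiaDeg (𝓞 K) = 1) :
    Ideal.absNorm w.asIdeal = Ideal.absNorm (below K w).asIdeal := by
  rw [← Ideal.absNorm_pow_inertiaDeg (below K w).asIdeal w.asIdeal, h, pow_one]

/-- With residue degree one, every `w`-integer is congruent to an element of `K`. -/
lemma exists_sub_lt_one_of_inertiaDeg_eq_one (w : Place F) (h : w.asIdeal.inertiaDeg (𝓞 K) = 1)
    {z : F} (hz : w.valuation F z ≤ 1) :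
    ∃ c : K, (below K w).valuation K c ≤ 1 ∧ w.valuation F (z - algebraMap K F c) < 1 := by
  obtain ⟨a, ha⟩ := exists_integral_rep w 1 hz
  have hcard : Nat.card (𝓞 K ⧸ (below K w).asIdeal) = Nat.card (𝓞 F ⧸ w.asIdeal) :=
    (absNorm_eq_of_inertiaDeg_eq_one w h).symm
  have hinj : Function.Injective
      (algebraMap (𝓞 K ⧸ (below K w).asIdeal) (𝓞 F ⧸ w.asIdeal)) :=
    FaithfulSMul.algebraMap_injective _ _
  have : Finite (𝓞 F ⧸ w.asIdeal) := Ideal.finiteQuotientOfFreeOfNeBot _ w.ne_bot
  have hbij := hinj.bijective_of_nat_card_le hcard.ge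
  obtain ⟨b, hb⟩ := hbij.2 (Ideal.Quotient.mk _ a)
  obtain ⟨c, rfl⟩ := Ideal.Quotient.mk_surjective b
  rw [Ideal.Quotient.algebraMap_mk_of_liesOver, eq_comm, Ideal.Quotient.eq,
    ← pow_one w.asIdeal, ← valuation_le_exp_iff_mem] at hb
  refine ⟨(c : K), valuation_coe_le_one _ c, ?_⟩
  have h1 : exp (-((1 : ℕ) : ℤ)) < (1 : ℤᵐ⁰) := by rw [← exp_zero, exp_lt_exp]; norm_num
  rw [show ((a - algebraMap (𝓞 K) (𝓞 F) c : 𝓞 F) : F) = (a : F) - algebraMap K F (c : K) from rfl]
    at hb
  rw [show z - algebraMap K F (c : K) =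
    ((a : F) - algebraMap K F (c : K)) - ((a : F) - z) by ring]
  exact (Valuation.map_sub _ _ _).trans_lt (max_lt (hb.trans_lt h1) (ha.trans_lt h1))

end conj

end FLTAgent.Ext
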