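/-
S14 helper library: decomposition of places in a Kummer extension `K(α)/K` of degree `p`,
`α ^ p = x`, in terms of the local subgroups `splitSub` and `unrSub`.
-/
import Fermat.Agent.Ext.Extension
import Fermat.Agent.Ext.Symbol

set_option autoImplicit false
set_option linter.unusedSectionVars false

open IsDedekindDomain NumberField WithZero
open scoped NumberField

namespace FLTAgent.Ext

variable {K F : Type*} [Field K] [Field F] [NumberField K] [NumberField F] [Algebra K F]
  {p : ℕ} [hp : Fact p.Prime] {ζ : K}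

/-- A Kummer extension of degree `p` with chosen radical and generator. -/
structure KummerData (_hζ : IsPrimitiveRoot ζ p) (x : Kˣ) (F : Type*) [Field F] [Algebra K F] where
  galois : IsGalois K F
  degree : Module.finrank K F = p
  root : F
  root_pow : root ^ p = algebraMap K F x
  gen : F ≃ₐ[K] F
  gen_root : gen root = algebraMap K F ζ * root

namespace KummerData

variable {hζ : IsPrimitiveRoot ζ p} {x : Kˣ} (D : KummerData hζ x F)

/-- A place with a single conjugate. -/
def Fixed (w : Place F) : Prop :=
  haveI := D.galois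
  conjPlace D.gen w = w

lemma root_ne_zero : D.root ≠ 0 := by
  intro h
  have := D.root_pow
  rw [h, zero_pow hp.out.ne_zero] at this
  exact x.ne_zero ((map_eq_zero _).mp this.symm)

lemma gen_pow_root (i : ℕ) : (D.gen ^ i) D.root = algebraMap K F ζ ^ i * D.root := by
  induction i with
  | zero => simp
  | succ i ih =>
    rw [pow_succ', AlgEquiv.mul_apply, ih, map_mul, map_pow, AlgEquiv.commutes, D.gen_root,
      pow_succ]
    ring

include D in
lemma finiteDimensional : FiniteDimensional K F :=
  Module.finite_of_finrank_pos (D.degree ▸ hp.out.pos)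

include D in
lemma card_gal : Nat.card (F ≃ₐ[K] F) = p := by
  have := D.galois; have := D.finiteDimensional
  rw [IsGalois.card_aut_eq_finrank, D.degree]

lemma gen_ne_one : D.gen ≠ 1 := by
  intro h
  have := D.gen_root
  rw [h, AlgEquiv.one_apply] at this
  have h1 : (algebraMap K F ζ - 1) * D.root = 0 := by rw [sub_mul, ← this]; ring
  rcases mul_eq_zero.mp h1 with h1 | h1
  · exact hζ.ne_one hp.out.one_lt ((algebraMap K F).injective (by simpa [sub_eq_zero] using h1))
  · exact D.root_ne_zero h1

lemma exists_pow_eq (τ : F ≃ₐ[K] F) : ∃ i : ℕ, D.gen ^ i = τ := by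
  have := D.finiteDimensional
  have hm := mem_powers_of_prime_card D.card_gal D.gen_ne_one (g' := τ)
  exact Submonoid.mem_powers_iff _ _ |>.mp hm

lemma zeta' (D : KummerData hζ x F) : IsPrimitiveRoot (algebraMap K F ζ) p := by
  have := D.root_pow
  exact hζ.map_of_injective (algebraMap K F).injective

lemma eq_of_fixed {w w' : Place F} (hw : D.Fixed w) (h : below K w' = below K w) : w' = w := by
  have := D.galois
  obtain ⟨τ, hτ⟩ := exists_conjPlace_eq h.symm
  obtain ⟨i, rfl⟩ := D.exists_pow_eq τ
  rw [← hτ]
  clear hτ h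
  induction i with
  | zero => rw [pow_zero, conjPlace_one]
  | succ i ih => rw [pow_succ, conjPlace_mul, show conjPlace D.gen w = w from hw]; exact ih

lemma fixed_congr {w w' : Place F} (h : below K w' = below K w) (hw : D.Fixed w) : D.Fixed w' := by
  rw [D.eq_of_fixed hw h]; exact hw

lemma ncard_of_fixed {w : Place F} (hw : D.Fixed w) :
    {w' : Place F | below K w' = below K w}.ncard = 1 := by
  rw [Set.ncard_eq_one]
  exact ⟨w, Set.ext fun w' => ⟨fun h => D.eq_of_fixed hw h, fun h => by rw [h]; rfl⟩⟩

lemma not_fixed_spec {w : Place F} (hw : ¬ D.Fixed w) :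
    {w' : Place F | below K w' = below K w}.ncard = p ∧ eIdx K w = 1 ∧
      w.asIdeal.inertiaDeg (𝓞 K) = 1 := by
  have := D.galois; have := D.finiteDimensional
  have hid := card_mul_eIdx_mul (K := K) w
  rw [D.degree] at hid
  have h2 : 1 < {w' : Place F | below K w' = below K w}.ncard := by
    rw [Set.one_lt_ncard_iff (finite_places_over _)]
    exact ⟨w, conjPlace D.gen w, rfl, below_conjPlace _ _, fun h => hw h.symm⟩
  rcases hp.out.eq_one_or_self_of_dvd _ ⟨_, hid.symm⟩ with h | h
  · omega
  · rw [h] at hid
    have := Nat.eq_one_of_mul_eq_one_right (Nat.mul_left_cancel hp.out.pos (hid.trans (mul_one p).symm))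
    exact ⟨h, this, Nat.eq_one_of_mul_eq_one_left
      (Nat.mul_left_cancel hp.out.pos (hid.trans (mul_one p).symm))⟩

lemma fixed_spec {w : Place F} (hw : D.Fixed w) :
    eIdx K w * w.asIdeal.inertiaDeg (𝓞 K) = p := by
  have := D.galois; have := D.finiteDimensional
  have hid := card_mul_eIdx_mul (K := K) w
  rw [D.degree, D.ncard_of_fixed hw, one_mul] at hid
  exact hid

lemma eIdx_eq_one_or (w : Place F) : eIdx K w = 1 ∨ (D.Fixed w ∧ eIdx K w = p) := by
  by_cases hw : D.Fixed w
  · rcases hp.out.eq_one_or_self_of_dvd _ ⟨_, (D.fixed_spec hw).symm⟩ with h | h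
    · exact Or.inl h
    · exact Or.inr ⟨hw, h⟩
  · exact Or.inl (D.not_fixed_spec hw).2.1

lemma inertiaDeg_of_eIdx_eq {w : Place F} (hw : D.Fixed w) (he : eIdx K w = p) :
    w.asIdeal.inertiaDeg (𝓞 K) = 1 := by
  have h := D.fixed_spec hw
  rw [he] at h
  exact Nat.mul_left_cancel hp.out.pos (h.trans (mul_one p).symm)

lemma valuation_gen {w : Place F} (hw : D.Fixed w) (z : F) :
    w.valuation F (D.gen z) = w.valuation F z := by
  have := D.galois
  conv_lhs => rw [← show conjPlace D.gen w = w from hw]
  exact valuation_conjPlace _ _ _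

lemma gen_div_algebraMap (y : K) :
    D.gen (D.root / algebraMap K F y) = algebraMap K F ζ * (D.root / algebraMap K F y) := by
  rw [map_div₀, D.gen_root, AlgEquiv.commutes, mul_div_assoc]

lemma div_algebraMap_pow (y : Kˣ) :
    (D.root / algebraMap K F y) ^ p = algebraMap K F ((x / y ^ p : Kˣ) : K) := by
  rw [div_pow, D.root_pow, Units.val_div_eq_div_val, Units.val_pow_eq_pow_val, map_div₀, map_pow]

/-- Some translate `z - ζ ^ i` is at least as small as a `p`-th root of `z ^ p - 1`. -/
lemma exists_translate_small (D : KummerData hζ x F) (w : Place F) (z : F) :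
    ∃ i : ℕ, w.valuation F (z - algebraMap K F ζ ^ i) ^ p ≤ w.valuation F (z ^ p - 1) := by
  classical
  have hprod : z ^ p - 1 = ∏ i ∈ Finset.range p, (z - algebraMap K F ζ ^ i) := by
    have := congrArg (Polynomial.eval z)
      (X_pow_sub_C_eq_prod D.zeta' hp.out.pos (one_pow p : (1 : F) ^ p = 1))
    simpa [Polynomial.eval_prod] using this
  obtain ⟨i, -, hi⟩ := Finset.exists_min_image (Finset.range p)
    (fun i => w.valuation F (z - algebraMap K F ζ ^ i)) (by simp [hp.out.ne_zero])
  refine ⟨i, ?_⟩
  rw [hprod, map_prod]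
  calc w.valuation F (z - algebraMap K F ζ ^ i) ^ p
      = ∏ _j ∈ Finset.range p, w.valuation F (z - algebraMap K F ζ ^ i) := by simp
    _ ≤ _ := Finset.prod_le_prod (fun _ _ => zero_le) fun j hj => hi j hj

/-- A place over a split place has more than one conjugate. -/
lemma not_fixed_of_mem_splitSub {w : Place F} (h : x ∈ splitSub hζ (below K w)) : ¬ D.Fixed w := by
  intro hw
  obtain ⟨y, hy⟩ := (mem_splitSub hζ).mp h
  set z := D.root / algebraMap K F (y : K) with hz
  obtain ⟨i, hi⟩ := D.exists_translate_small w z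
  have hlt : w.valuation F (z ^ p - 1) < w.valuation F (algebraMap K F (ζ - 1)) ^ p := by
    rw [hz, D.div_algebraMap_pow, ← map_one (algebraMap K F), ← map_sub,
      valuation_algebraMap', valuation_algebraMap', ← pow_mul, mul_comm, pow_mul]
    exact pow_lt_pow_left₀ hy zero_le (eIdx_pos w).ne'
  have h1 : w.valuation F (z - algebraMap K F ζ ^ i) <
      w.valuation F (algebraMap K F (ζ - 1)) :=
    lt_of_pow_lt_pow_left₀ p zero_le (lt_of_le_of_lt hi hlt)
  have hgz : D.gen z = algebraMap K F ζ * z := D.gen_div_algebraMap y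
  have h2 : w.valuation F (algebraMap K F ζ * z - algebraMap K F ζ ^ i) <
      w.valuation F (algebraMap K F (ζ - 1)) := by
    rw [← hgz, ← map_pow, ← AlgEquiv.commutes D.gen (ζ ^ i), ← map_sub, D.valuation_gen hw,
      map_pow]
    exact h1
  have hz1 : w.valuation F z = 1 := by
    refine eq_one_of_pow_eq_one hp.out.ne_zero ?_
    rw [← map_pow, hz, D.div_algebraMap_pow, valuation_algebraMap_eq_one_iff]
    exact valuation_eq_one_of_near hζ hy
  have h3 : w.valuation F (algebraMap K F (ζ - 1) * z) <
      w.valuation F (algebraMap K F (ζ - 1)) := by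
    rw [show algebraMap K F (ζ - 1) * z = (algebraMap K F ζ * z - algebraMap K F ζ ^ i) -
      (z - algebraMap K F ζ ^ i) by rw [map_sub, map_one]; ring]
    exact (Valuation.map_sub _ _ _).trans_lt (max_lt h2 h1)
  rw [map_mul, hz1, mul_one] at h3
  exact lt_irrefl _ h3

include D in
/-- Above an unramified place the ramification index is `1`. -/
lemma eIdx_eq_one_of_mem_unrSub {w : Place F} (h : x ∈ unrSub hζ (below K w)) :
    eIdx K w = 1 := by
  rcases D.eIdx_eq_one_or w with h1 | ⟨hw, he⟩
  · exact h1
  exfalso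
  obtain ⟨y, hy1, hy2⟩ := (mem_unrSub hζ).mp h
  set z := D.root / algebraMap K F (y : K) with hz
  obtain ⟨i, hi⟩ := D.exists_translate_small w z
  set d := algebraMap K F (ζ - 1) with hd
  have hd0 : d ≠ 0 := by
    rw [hd, map_ne_zero]; exact sub_ne_zero.mpr (hζ.ne_one hp.out.one_lt)
  have hle : w.valuation F (z ^ p - 1) ≤ w.valuation F d ^ p := by
    rw [hz, D.div_algebraMap_pow, ← map_one (algebraMap K F), ← map_sub,
      valuation_algebraMap', valuation_algebraMap', ← pow_mul, mul_comm, pow_mul]
    exact pow_le_pow_left₀ zero_le hy2 _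
  have hY : w.valuation F ((z - algebraMap K F ζ ^ i) / d) ≤ 1 := by
    rw [map_div₀, div_le_one₀ (zero_lt_iff.mpr (by simpa using hd0))]
    exact le_of_pow_le_pow_left₀ hp.out.ne_zero zero_le (hi.trans hle)
  have := D.galois
  obtain ⟨c, -, hc⟩ :=
    exists_sub_lt_one_of_inertiaDeg_eq_one w (D.inertiaDeg_of_eIdx_eq hw he) hY
  have hgz : D.gen z = algebraMap K F ζ * z := D.gen_div_algebraMap y
  have h2 : w.valuation F ((algebraMap K F ζ * z - algebraMap K F ζ ^ i) / d - algebraMap K F c)
      < 1 := by
    have h3 := hc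
    rw [← D.valuation_gen hw] at h3
    simpa only [map_sub, map_div₀, map_pow, AlgEquiv.commutes, hgz, hd] using h3
  have hz1 : w.valuation F z = 1 := by
    refine eq_one_of_pow_eq_one hp.out.ne_zero ?_
    rw [← map_pow, hz, D.div_algebraMap_pow, valuation_algebraMap_eq_one_iff]
    exact hy1
  have h4 : w.valuation F z < 1 := by
    rw [show z = ((algebraMap K F ζ * z - algebraMap K F ζ ^ i) / d - algebraMap K F c) -
      ((z - algebraMap K F ζ ^ i) / d - algebraMap K F c) by
        field_simp
        rw [hd, map_sub, map_one]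
        ring]
    exact (Valuation.map_sub _ _ _).trans_lt (max_lt h2 hc)
  exact h4.ne hz1

/-- Above a ramified place prime to `p` there is a single totally ramified place. -/
lemma spec_of_not_mem_unrSub {w : Place F}
    (hv : (below K w).valuation K (p : K) = 1) (h : x ∉ unrSub hζ (below K w)) :
    D.Fixed w ∧ eIdx K w = p := by
  rcases D.eIdx_eq_one_or w with h1 | h1
  · exfalso
    refine h (mem_unrSub_of_dvd_ord hζ hv ⟨ord w D.root, ?_⟩)
    have := congrArg (ord w) D.root_pow
    rw [ord_pow, ord_algebraMap', h1] at this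
    simpa using this.symm
  · exact h1

end KummerData

end FLTAgent.Ext
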