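/-
S14 helper library: existence of Kummer data and existence of places at which a given
non-`p`-th power is not split.
-/
import Fermat.Agent.Ext.Growth
import Fermat.Agent.Ext.Kummer

set_option autoImplicit false
set_option linter.unusedSectionVars false

open IsDedekindDomain NumberField Polynomial UniqueFactorizationMonoid
open scoped NumberField

universe u

namespace FLTAgent.Ext

variable {K : Type u} [Field K] [NumberField K] {p : ℕ} [hp : Fact p.Prime] {ζ : K}
  (hζ : IsPrimitiveRoot ζ p)

lemma exists_kummerData {x : Kˣ} (hx : x ∉ powSub K p) :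
    ∃ (F : Type u) (_ : Field F) (_ : NumberField F) (_ : Algebra K F),
      Nonempty (KummerData hζ x F) := by
  have hH : Irreducible (X ^ p - C (x : K)) := by
    refine X_pow_sub_C_irreducible_of_prime hp.out fun b hb => hx ?_
    have hb0 : b ≠ 0 := by
      rintro rfl
      rw [zero_pow hp.out.ne_zero] at hb
      exact x.ne_zero hb.symm
    exact mem_powSub.mpr ⟨Units.mk0 b hb0, Units.ext (by simpa using hb)⟩
  let F := (X ^ p - C (x : K)).SplittingField
  have hne : (primitiveRoots p K).Nonempty :=
    ⟨ζ, (mem_primitiveRoots hp.out.pos).mpr hζ⟩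
  have hfd : FiniteDimensional K F := Polynomial.IsSplittingField.finiteDimensional F (X ^ p - C (x : K))
  have hnf : NumberField F := NumberField.of_module_finite K F
  have hroot : (rootOfSplitsXPowSubC hp.out.pos (x : K) F) ^ p = algebraMap K F (x : K) := by
    have : NeZero p := ⟨hp.out.ne_zero⟩
    exact rootOfSplitsXPowSubC_pow (x : K) F
  have : NeZero p := ⟨hp.out.ne_zero⟩
  let ζu : rootsOfUnity p K := rootsOfUnity.mkOfPowEq ζ hζ.pow_eq_one
  refine ⟨F, inferInstance, hnf, inferInstance,
    ⟨{ galois := isGalois_of_isSplittingField_X_pow_sub_C hne hH F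
       degree := finrank_of_isSplittingField_X_pow_sub_C hne hH F
       root := rootOfSplitsXPowSubC hp.out.pos (x : K) F
       root_pow := hroot
       gen := (autEquivRootsOfUnity hne hH F).symm ζu
       gen_root := ?_ }⟩⟩
  rw [← autEquivRootsOfUnity_smul hne hH F hroot, MulEquiv.apply_symm_apply]
  rw [Subgroup.smul_def, Units.smul_def, Algebra.smul_def]
  rfl

/-- The multiset of places dividing an ideal. -/
noncomputable def factorPlaces (I : Ideal (𝓞 K)) : Multiset (Place K) :=
  (normalizedFactors I).pmap (fun P hP => ⟨P, Ideal.isPrime_of_prime hP, hP.ne_zero⟩)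
    (fun P hP => prime_of_normalized_factor P hP)

lemma map_asIdeal_factorPlaces (I : Ideal (𝓞 K)) :
    (factorPlaces I).map HeightOneSpectrum.asIdeal = normalizedFactors I := by
  rw [factorPlaces, Multiset.map_pmap, Multiset.pmap_eq_map, Multiset.map_id']

lemma notMem_of_mem_factorPlaces {B : Finset (Place K)} {I : Ideal (𝓞 K)}
    (hI : I ∈ idealsAvoiding B) {v : Place K} (hv : v ∈ factorPlaces I) : v ∉ B := by
  intro hB
  have := Multiset.mem_map_of_mem HeightOneSpectrum.asIdeal hv
  rw [map_asIdeal_factorPlaces] at this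
  exact hI.2 v hB (Ideal.le_of_dvd (dvd_of_mem_normalizedFactors this))

include hζ in
/-- A non-`p`-th power is non-split at some place outside any finite set. -/
theorem exists_place_notMem_splitSub {x : Kˣ} (hx : x ∉ powSub K p) (B₀ : Finset (Place K)) :
    ∃ v ∉ B₀, v.valuation K (p : K) = 1 ∧ x ∉ splitSub hζ v := by
  classical
  by_contra hcon
  push Not at hcon
  set B : Finset (Place K) := B₀ ∪ (finite_not_unramifiedPlace (K := K) (p := p)).toFinset with hB
  have hsplit : ∀ v ∉ B, x ∈ splitSub hζ v := by
    intro v hv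
    simp only [hB, Finset.mem_union, Set.Finite.mem_toFinset, Set.mem_ofPred_eq, not_or,
      not_not] at hv
    exact hcon v hv.1 hv.2
  obtain ⟨F, _, _, _, ⟨D⟩⟩ := exists_kummerData hζ hx
  have := D.galois
  choose W₁ hW₁ using fun v : Place K => exists_place_over (F := F) v
  let W₂ : Place K → Place F := fun v => conjPlace D.gen (W₁ v)
  have hW₂ : ∀ v, below K (W₂ v) = v := fun v => (below_conjPlace _ _).trans (hW₁ v)
  have hne : ∀ v ∉ B, W₁ v ≠ W₂ v := fun v hv h =>
    D.not_fixed_of_mem_splitSub (w := W₁ v) (by rw [hW₁]; exact hsplit v hv) h.symm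
  have hnorm : ∀ (w : Place F) (v : Place K), below K w = v → v ∉ B →
      Ideal.absNorm w.asIdeal = Ideal.absNorm v.asIdeal := by
    intro w v h hv
    subst h
    exact absNorm_eq_of_inertiaDeg_eq_one w
      (D.not_fixed_spec (D.not_fixed_of_mem_splitSub (hsplit _ hv))).2.2
  let Φ : idealsAvoiding B → idealsAvoiding B → Multiset (Place F) := fun a b =>
    (factorPlaces a.1).map W₁ + (factorPlaces b.1).map W₂
  let ι : idealsAvoiding B × idealsAvoiding B → idealsAvoiding (∅ : Finset (Place F)) := fun q =>
    ⟨((Φ q.1 q.2).map HeightOneSpectrum.asIdeal).prod, by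
      refine ⟨fun h => ?_, by simp⟩
      obtain ⟨w, -, hw⟩ := Multiset.mem_map.mp (Multiset.prod_eq_zero_iff.mp h)
      exact w.ne_bot hw⟩
  have hNι : ∀ q : idealsAvoiding B × idealsAvoiding B,
      Ideal.absNorm (ι q).1 ≤ Ideal.absNorm q.1.1 * Ideal.absNorm q.2.1 := by
    intro q
    refine le_of_eq ?_
    have key : ∀ (W : Place K → Place F), (∀ v, below K (W v) = v) → ∀ a : idealsAvoiding B,
        Ideal.absNorm (((factorPlaces a.1).map W).map HeightOneSpectrum.asIdeal).prod =
          Ideal.absNorm a.1 := by
      intro W hW a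
      conv_rhs => rw [← associated_iff_eq.mp (prod_normalizedFactors a.2.1),
        ← map_asIdeal_factorPlaces]
      rw [map_multiset_prod, map_multiset_prod, Multiset.map_map, Multiset.map_map,
        Multiset.map_map]
      refine congrArg Multiset.prod (Multiset.map_congr rfl fun v hv => ?_)
      exact hnorm _ _ (hW v) (notMem_of_mem_factorPlaces a.2 hv)
    show Ideal.absNorm ((Φ q.1 q.2).map HeightOneSpectrum.asIdeal).prod = _
    rw [Multiset.map_add, Multiset.prod_add, map_mul, key W₁ hW₁, key W₂ hW₂]
  have hι : Function.Injective ι := by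
    intro q q' h
    have h1 : normalizedFactors (ι q).1 = normalizedFactors (ι q').1 := by rw [h]
    simp only [ι] at h1
    rw [normalizedFactors_prod_of_prime (fun P hP => by
        obtain ⟨w, -, rfl⟩ := Multiset.mem_map.mp hP; exact w.prime),
      normalizedFactors_prod_of_prime (fun P hP => by
        obtain ⟨w, -, rfl⟩ := Multiset.mem_map.mp hP; exact w.prime)] at h1
    have h2 : Φ q.1 q.2 = Φ q'.1 q'.2 :=
      Multiset.map_injective (fun _ _ h => HeightOneSpectrum.ext h) h1
    have inj : ∀ (W : Place K → Place F), (∀ v, below K (W v) = v) → Function.Injective W :=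
      fun W hW a b hab => by rw [← hW a, ← hW b, hab]
    have hsep : ∀ a b v, v ∉ B → (Φ a b).count (W₁ v) = (factorPlaces a.1).count v ∧
        (Φ a b).count (W₂ v) = (factorPlaces b.1).count v := by
      intro a b v hv
      simp only [Φ, Multiset.count_add]
      refine ⟨?_, ?_⟩
      · rw [Multiset.count_map_eq_count' W₁ _ (inj W₁ hW₁),
          Multiset.count_eq_zero (s := (factorPlaces b.1).map W₂) |>.mpr, add_zero]
        intro hmem
        obtain ⟨u, -, hu⟩ := Multiset.mem_map.mp hmem
        have : u = v := by rw [← hW₂ u, hu, hW₁]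
        exact hne v hv (this ▸ hu).symm
      · rw [Multiset.count_map_eq_count' W₂ _ (inj W₂ hW₂),
          Multiset.count_eq_zero (s := (factorPlaces a.1).map W₁) |>.mpr, zero_add]
        intro hmem
        obtain ⟨u, -, hu⟩ := Multiset.mem_map.mp hmem
        have : u = v := by rw [← hW₁ u, hu, hW₂]
        exact hne v hv (this ▸ hu)
    have heq : ∀ a b : idealsAvoiding B, factorPlaces a.1 = factorPlaces b.1 → a = b := by
      intro a b hab
      apply Subtype.ext
      rw [← associated_iff_eq.mp (prod_normalizedFactors a.2.1),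
        ← associated_iff_eq.mp (prod_normalizedFactors b.2.1), ← map_asIdeal_factorPlaces,
        ← map_asIdeal_factorPlaces, hab]
    have hz : ∀ (a : idealsAvoiding B) v, v ∈ B → (factorPlaces a.1).count v = 0 :=
      fun a v hv => Multiset.count_eq_zero.mpr fun h => notMem_of_mem_factorPlaces a.2 h hv
    refine Prod.ext (heq _ _ (Multiset.ext.mpr fun v => ?_))
      (heq _ _ (Multiset.ext.mpr fun v => ?_))
    · by_cases hv : v ∈ B
      · rw [hz _ v hv, hz _ v hv]
      · rw [← (hsep _ q.2 v hv).1, ← (hsep _ q'.2 v hv).1, h2]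
    · by_cases hv : v ∈ B
      · rw [hz _ v hv, hz _ v hv]
      · rw [← (hsep q.1 _ v hv).2, ← (hsep q'.1 _ v hv).2, h2]
  obtain ⟨k, C, n₀, hK⟩ := exists_linear_bounds B
  obtain ⟨k', C', n₀', hF⟩ := exists_linear_bounds (∅ : Finset (Place F))
  refine false_of_linear_growth (fun a : idealsAvoiding B => Ideal.absNorm a.1)
    (fun b : idealsAvoiding (∅ : Finset (Place F)) => Ideal.absNorm b.1) ι hι hNι
    (finite_avoiding_le B) (finite_avoiding_le ∅) (k := k) (C := C + C') (n₀ := n₀ + n₀')
    (fun n hn => (hK n (by omega)).1)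
    (fun n hn => (hK n (by omega)).2.trans (Nat.mul_le_mul_right _ (by omega)))
    (fun n hn => (hF n (by omega)).2.trans (Nat.mul_le_mul_right _ (by omega)))

end FLTAgent.Ext
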