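/-
S14 helper library: places with prescribed power residue behaviour.
-/
import Fermat.Agent.Ext.NonSplit

set_option autoImplicit false
set_option linter.unusedSectionVars false

open IsDedekindDomain NumberField
open scoped NumberField

universe u

namespace FLTAgent.Ext

variable {K F : Type u} [Field K] [Field F] [NumberField K] [NumberField F] [Algebra K F]
  {p : ℕ} [hp : Fact p.Prime] {ζ : K} (hζ : IsPrimitiveRoot ζ p)

/-- The map on multiplicative groups. -/
noncomputable abbrev unitsExt (K F : Type*) [Field K] [Field F] [Algebra K F] : Kˣ →* Fˣ :=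
  Units.map (algebraMap K F).toMonoidHom

lemma valuation_natCast_below (w : Place F) :
    w.valuation F (p : F) = 1 ↔ (below K w).valuation K (p : K) = 1 := by
  rw [← map_natCast (algebraMap K F) p, valuation_algebraMap_eq_one_iff]

lemma unitsExt_mem_splitSub (hζ' : IsPrimitiveRoot (algebraMap K F ζ) p) {w : Place F} {u : Kˣ}
    (h : u ∈ splitSub hζ (below K w)) : unitsExt K F u ∈ splitSub hζ' w := by
  obtain ⟨y, hy⟩ := (mem_splitSub hζ).mp h
  refine (mem_splitSub hζ').mpr ⟨unitsExt K F y, ?_⟩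
  rw [← map_pow, ← map_div]
  show w.valuation F (algebraMap K F _ - 1) < _
  rw [← map_one (algebraMap K F), ← map_sub, thr, ← map_one (algebraMap K F), ← map_sub,
    valuation_algebraMap', valuation_algebraMap', ← pow_mul, mul_comm, pow_mul]
  exact pow_lt_pow_left₀ hy zero_le (eIdx_pos w).ne'

lemma eq_algebraMap_of_gen_fixed {x : Kˣ} (D : KummerData hζ x F) {z : F} (h : D.gen z = z) :
    ∃ c : K, algebraMap K F c = z := by
  have := D.galois
  have := D.finiteDimensional
  have : z ∈ (⊥ : IntermediateField K F) := by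
    rw [IsGalois.mem_bot_iff_fixed]
    intro τ
    obtain ⟨i, rfl⟩ := D.exists_pow_eq τ
    induction i with
    | zero => rfl
    | succ i ih => rw [pow_succ, AlgEquiv.mul_apply, h, ih]
  exact IntermediateField.mem_bot.mp this

/-- The kernel of `Kˣ/Kˣᵖ → Fˣ/Fˣᵖ` in a Kummer extension is generated by the radical. -/
lemma exists_eq_pow_mul_of_mem_powSub {x : Kˣ} (D : KummerData hζ x F) {z : Kˣ}
    (h : unitsExt K F z ∈ powSub F p) : ∃ (c : Kˣ) (i : ℕ), z = c ^ p * x ^ i := by
  obtain ⟨y, hy⟩ := mem_powSub.mp h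
  have hy' : (y : F) ^ p = algebraMap K F z := by simpa using congrArg Units.val hy
  have hr : (D.gen (y : F) / y) ^ p = 1 := by
    rw [div_pow, ← map_pow, hy', AlgEquiv.commutes, div_self]
    simp
  obtain ⟨j, hj, hjy⟩ := D.zeta'.eq_pow_of_pow_eq_one hr
  have hfix : D.gen ((y : F) / D.root ^ j) = (y : F) / D.root ^ j := by
    rw [map_div₀, map_pow, D.gen_root, mul_pow, hjy]
    have := D.root_ne_zero
    have := y.ne_zero
    field_simp
  obtain ⟨c, hc⟩ := eq_algebraMap_of_gen_fixed hζ D hfix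
  have hc0 : c ≠ 0 := by
    rintro rfl
    rw [map_zero, eq_comm, div_eq_zero_iff] at hc
    rcases hc with hc | hc
    · exact y.ne_zero hc
    · exact D.root_ne_zero (pow_eq_zero_iff'.mp hc).1
  refine ⟨Units.mk0 c hc0, j, Units.ext ((algebraMap K F).injective ?_)⟩
  rw [Units.val_mul, Units.val_pow_eq_pow_val, Units.val_pow_eq_pow_val, Units.val_mk0,
    map_mul, map_pow, map_pow, hc, ← D.root_pow, ← pow_mul, mul_comm p j, pow_mul, ← mul_pow,
    div_mul_cancel₀ _ (pow_ne_zero _ D.root_ne_zero), hy']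

theorem exists_place_prescribed_aux (n : ℕ) :
    ∀ {K : Type u} [Field K] [NumberField K] {ζ : K} (hζ : IsPrimitiveRoot ζ p) (L : List Kˣ),
      L.length = n → ∀ {x : Kˣ}, x ∉ Subgroup.closure {u | u ∈ L} ⊔ powSub K p →
      ∀ B : Finset (Place K), ∃ v ∉ B, v.valuation K (p : K) = 1 ∧
        (∀ u ∈ L, u ∈ splitSub hζ v) ∧ x ∉ splitSub hζ v := by
  induction n with
  | zero =>
    intro K _ _ ζ hζ L hL x hx B
    obtain rfl := List.length_eq_zero_iff.mp hL
    obtain ⟨v, h1, h2, h3⟩ :=
      exists_place_notMem_splitSub hζ (fun h => hx (Subgroup.mem_sup_right h)) B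
    exact ⟨v, h1, h2, by simp, h3⟩
  | succ n ih =>
    intro K _ _ ζ hζ L hL x hx B
    obtain ⟨w₁, L, rfl⟩ := List.exists_cons_of_length_eq_add_one hL
    have hL' : L.length = n := by simpa using hL
    have hmono : Subgroup.closure {u | u ∈ L} ≤ Subgroup.closure {u | u ∈ w₁ :: L} :=
      Subgroup.closure_mono fun u hu => List.mem_cons_of_mem _ hu
    by_cases hw₁ : w₁ ∈ powSub K p
    · obtain ⟨v, h1, h2, h3, h4⟩ := ih hζ L hL' (fun h => hx (sup_le_sup_right hmono _ h)) B
      refine ⟨v, h1, h2, fun u hu => ?_, h4⟩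
      rcases List.mem_cons.mp hu with rfl | hu
      · exact powSub_le_splitSub hζ v hw₁
      · exact h3 u hu
    obtain ⟨F, _, _, _, ⟨D⟩⟩ := exists_kummerData hζ hw₁
    have hx' : unitsExt K F x ∉
        Subgroup.closure {u | u ∈ L.map (unitsExt K F)} ⊔ powSub F p := by
      intro h
      rw [show {u | u ∈ L.map (unitsExt K F)} = unitsExt K F '' {u | u ∈ L} from
        Set.ext fun u => by simp, ← MonoidHom.map_closure] at h
      obtain ⟨-, ⟨l, hl, rfl⟩, b, hb, hlb⟩ := Subgroup.mem_sup.mp h
      have hb' : b = unitsExt K F (x / l) := by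
        rw [map_div, ← hlb, mul_div_cancel_left]
      obtain ⟨c, i, hci⟩ := exists_eq_pow_mul_of_mem_powSub hζ D (hb' ▸ hb)
      refine hx ?_
      rw [show x = (w₁ ^ i * l) * c ^ p by
        rw [mul_right_comm, mul_comm (w₁ ^ i), ← hci, div_mul_cancel]]
      exact Subgroup.mul_mem_sup (mul_mem (pow_mem (Subgroup.subset_closure (by simp)) i)
        (hmono hl)) (mem_powSub.mpr ⟨c, rfl⟩)
    classical
    let Bad : Finset (Place K) := B ∪ (finite_not_unrSub hζ x).toFinset ∪
      (finite_not_unrSub hζ w₁).toFinset ∪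
      L.toFinset.biUnion fun u => (finite_not_unrSub hζ u).toFinset
    let BF : Finset (Place F) :=
      Bad.biUnion fun v => (finite_places_over (F := F) v).toFinset
    obtain ⟨w, hwB, hwp, hwL, hwx⟩ :=
      ih D.zeta' (L.map (unitsExt K F)) (by simpa using hL') hx' BF
    set v := below K w with hv
    have hvBad : v ∉ Bad := fun h => hwB <| by
      simp only [BF, Finset.mem_biUnion, Set.Finite.mem_toFinset, Set.mem_ofPred_eq]
      exact ⟨v, h, rfl⟩
    simp only [Bad, Finset.mem_union, Finset.mem_biUnion, List.mem_toFinset,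
      Set.Finite.mem_toFinset, Set.mem_ofPred_eq, not_or, not_not, not_exists, not_and] at hvBad
    obtain ⟨⟨⟨hvB, hvx⟩, hvw⟩, hvL⟩ := hvBad
    have hvp : v.valuation K (p : K) = 1 := (valuation_natCast_below w).mp hwp
    have hxv : x ∉ splitSub hζ v := fun h => hwx (unitsExt_mem_splitSub hζ D.zeta' h)
    have key : ∀ u : Kˣ, u ∈ unrSub hζ v → unitsExt K F u ∈ splitSub D.zeta' w →
        u ∈ splitSub hζ v := by
      intro u hu hu'
      by_contra hnu
      obtain ⟨i, hi⟩ := exists_pow_mul_mem_splitSub hζ hvp hu hvx hnu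
      refine hwx ?_
      rw [show unitsExt K F x = unitsExt K F (x / u ^ i) * unitsExt K F u ^ i by
        rw [map_div, map_pow, div_mul_cancel]]
      exact mul_mem (unitsExt_mem_splitSub hζ D.zeta' hi) (pow_mem hu' i)
    refine ⟨v, hvB, hvp, fun u hu => ?_, hxv⟩
    rcases List.mem_cons.mp hu with rfl | hu
    · refine key u hvw (powSub_le_splitSub _ _ (mem_powSub.mpr
        ⟨Units.mk0 D.root D.root_ne_zero, Units.ext ?_⟩))
      simp [D.root_pow]
    · exact key u (hvL u hu) (hwL _ (List.mem_map_of_mem hu))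

include hζ in
/-- There is a place outside `B` where all of `L` is split and `x` is not. -/
theorem exists_place_prescribed (L : List Kˣ) {x : Kˣ}
    (hx : x ∉ Subgroup.closure {u | u ∈ L} ⊔ powSub K p) (B : Finset (Place K)) :
    ∃ v ∉ B, v.valuation K (p : K) = 1 ∧
      (∀ u ∈ L, u ∈ splitSub hζ v) ∧ x ∉ splitSub hζ v :=
  exists_place_prescribed_aux L.length hζ L rfl hx B

end FLTAgent.Ext
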