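/-
S14 helper library: valuations of norms in a Kummer extension and the local invariant at
ramified places prime to `p`.
-/
import Fermat.Agent.Ext.Prescribed

set_option autoImplicit false
set_option linter.unusedSectionVars false

open IsDedekindDomain NumberField
open scoped NumberField

namespace FLTAgent.Ext

variable {K F : Type*} [Field K] [Field F] [NumberField K] [NumberField F] [Algebra K F]
  {p : ℕ} [hp : Fact p.Prime] {ζ : K} {hζ : IsPrimitiveRoot ζ p} {x : Kˣ}

/-- The norm on multiplicative groups. -/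
noncomputable abbrev normUnits (K F : Type*) [Field K] [Field F] [Algebra K F] : Fˣ →* Kˣ :=
  Units.map (Algebra.norm K)

namespace KummerData

variable (D : KummerData hζ x F)

lemma gen_pow_injective {i j : ℕ} (hi : i < p) (hj : j < p) (h : D.gen ^ i = D.gen ^ j) :
    i = j := by
  have h1 := D.gen_pow_root i
  rw [h, D.gen_pow_root j] at h1
  exact (D.zeta'.pow_inj hj hi (mul_right_cancel₀ D.root_ne_zero h1)).symm

lemma orderOf_gen : orderOf D.gen = p := by
  have := D.finiteDimensional
  refine orderOf_eq_prime ?_ D.gen_ne_one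
  calc D.gen ^ p = D.gen ^ Nat.card (F ≃ₐ[K] F) := congrArg (D.gen ^ ·) D.card_gal.symm
    _ = 1 := pow_card_eq_one'

lemma exists_pow_eq_lt (τ : F ≃ₐ[K] F) : ∃ i < p, D.gen ^ i = τ := by
  obtain ⟨i, hi⟩ := D.exists_pow_eq τ
  refine ⟨i % p, Nat.mod_lt _ hp.out.pos, ?_⟩
  calc D.gen ^ (i % p) = D.gen ^ (i % orderOf D.gen) :=
        congrArg (fun n => D.gen ^ (i % n)) D.orderOf_gen.symm
    _ = τ := by rw [pow_mod_orderOf, hi]

include D in
lemma algebraMap_norm (z : F) :
    algebraMap K F (Algebra.norm K z) = ∏ i ∈ Finset.range p, (D.gen ^ i) z := by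
  have := D.galois; have := D.finiteDimensional
  rw [Algebra.norm_eq_prod_automorphisms]
  symm
  refine Finset.prod_bij (fun i _ => D.gen ^ i) (fun i _ => Finset.mem_univ _)
    (fun i hi j hj h => D.gen_pow_injective (Finset.mem_range.mp hi) (Finset.mem_range.mp hj) h)
    (fun τ _ => ?_) (fun i _ => rfl)
  obtain ⟨i, hi, rfl⟩ := D.exists_pow_eq_lt τ
  exact ⟨i, Finset.mem_range.mpr hi, rfl⟩

lemma norm_root (hp2 : p ≠ 2) : Algebra.norm K D.root = x := by
  apply (algebraMap K F).injective
  rw [D.algebraMap_norm, Finset.prod_congr rfl (fun i _ => D.gen_pow_root i),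
    Finset.prod_mul_distrib, Finset.prod_pow_eq_pow_sum, Finset.prod_const, Finset.card_range,
    D.root_pow]
  have hodd : 2 ∣ p - 1 := by
    obtain ⟨k, hk⟩ := hp.out.odd_of_ne_two hp2
    omega
  obtain ⟨k, hk⟩ := hodd
  have : ∑ i ∈ Finset.range p, i = p * k := by
    rw [Finset.sum_range_id, hk, ← mul_assoc, mul_comm p 2, mul_assoc,
      Nat.mul_div_cancel_left _ two_pos]
  rw [this, pow_mul, D.zeta'.pow_eq_one, one_pow, one_mul]

include D in
lemma ord_norm (w : Place F) {z : F} (hz : z ≠ 0) :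
    (eIdx K w : ℤ) * ord (below K w) (Algebra.norm K z) =
      ∑ i ∈ Finset.range p, ord w ((D.gen ^ i) z) := by
  rw [← ord_algebraMap', D.algebraMap_norm]
  induction Finset.range p using Finset.cons_induction with
  | empty => simp
  | cons a s ha ih =>
    rw [Finset.prod_cons, Finset.sum_cons, ord_mul, ih]
    · exact (map_ne_zero_iff _ (AlgEquiv.injective _)).mpr hz
    · exact Finset.prod_ne_zero_iff.mpr fun i _ => (map_ne_zero_iff _ (AlgEquiv.injective _)).mpr hz

lemma valuation_gen_pow {w : Place F} (hw : D.Fixed w) (i : ℕ) (z : F) :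
    w.valuation F ((D.gen ^ i) z) = w.valuation F z := by
  induction i with
  | zero => simp
  | succ i ih => rw [pow_succ', AlgEquiv.mul_apply, D.valuation_gen hw, ih]

lemma ord_norm_fixed {w : Place F} (hw : D.Fixed w) {z : F} (hz : z ≠ 0) :
    (eIdx K w : ℤ) * ord (below K w) (Algebra.norm K z) = p * ord w z := by
  rw [D.ord_norm w hz, Finset.sum_congr rfl (fun i _ => by
    rw [show ord w ((D.gen ^ i) z) = ord w z by simp only [ord, D.valuation_gen_pow hw]])]
  simp

lemma conj_inv_pow_injective {w : Place F} (hw : ¬ D.Fixed w) {i j : ℕ} (hi : i < p) (hj : j < p)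
    (h : haveI := D.galois; conjPlace (D.gen ^ i)⁻¹ w = conjPlace (D.gen ^ j)⁻¹ w) : i = j := by
  have := D.galois; have := D.finiteDimensional
  classical
  have hset : {w' : Place F | below K w' = below K w} =
      ((Finset.range p).image fun i => conjPlace (D.gen ^ i)⁻¹ w : Set (Place F)) := by
    ext w'
    simp only [Set.mem_ofPred_eq, Finset.coe_image, Set.mem_image, Finset.coe_range, Set.mem_Iio]
    constructor
    · intro h'
      obtain ⟨τ, hτ⟩ := exists_conjPlace_eq h'.symm
      obtain ⟨k, hk, hk'⟩ := D.exists_pow_eq_lt τ⁻¹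
      exact ⟨k, hk, by rw [hk', inv_inv, hτ]⟩
    · rintro ⟨k, -, rfl⟩
      exact below_conjPlace _ _
  have hcard := (D.not_fixed_spec hw).1
  rw [hset, Set.ncard_coe_finset] at hcard
  exact (Finset.card_image_iff.mp (hcard.trans (Finset.card_range p).symm))
    (Finset.mem_range.mpr hi) (Finset.mem_range.mpr hj) h

lemma prod_congruent {w : Place F} (c : F) (hc : w.valuation F c ≤ 1) (f : ℕ → F)
    (hf : ∀ i, w.valuation F (f i - c) < 1) (n : ℕ) :
    w.valuation F (∏ i ∈ Finset.range n, f i - c ^ n) < 1 := by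
  induction n with
  | zero => simp
  | succ n ih =>
    rw [Finset.prod_range_succ, pow_succ,
      show (∏ i ∈ Finset.range n, f i) * f n - c ^ n * c =
        (∏ i ∈ Finset.range n, f i) * (f n - c) + (∏ i ∈ Finset.range n, f i - c ^ n) * c by ring]
    refine Valuation.map_add_lt _ ?_ ?_
    · rw [map_mul, map_prod]
      refine (mul_le_of_le_one_left' (Finset.prod_le_one (fun _ _ => zero_le) fun i _ => ?_)).trans_lt
        (hf n)
      rw [← sub_add_cancel (f i) c]
      exact Valuation.map_add_le _ (hf i).le hc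
    · rw [map_mul]
      exact (mul_le_of_le_one_right' hc).trans_lt ih

end KummerData

/-- The local invariant attached to `x` at `v`. -/
noncomputable def inv (hζ : IsPrimitiveRoot ζ p) (x : Kˣ) (v : Place K) :
    Additive Kˣ →+ ZMod p :=
  AddMonoidHom.mk'
    (fun y => (ord v (x : K) : ZMod p) * sym hζ v y -
      (ordHom v y : ZMod p) * sym hζ v (Additive.ofMul x))
    (fun a b => by simp only [map_add, Int.cast_add]; ring)

lemma inv_eq_zero_of_mem_splitSub {v : Place K} (hv : v.valuation K (p : K) = 1) {y : Kˣ}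
    (hy : y ∈ splitSub hζ v) : inv hζ x v (Additive.ofMul y) = 0 := by
  obtain ⟨h1, h2⟩ := (mem_splitSub_iff hζ hv y).mp hy
  show (ord v (x : K) : ZMod p) * _ - (ord v (y : K) : ZMod p) * _ = 0
  rw [h2, (ZMod.intCast_zmod_eq_zero_iff_dvd _ p).mpr h1]
  ring

lemma exists_sym_ne_zero {v : Place K} (hv : v.valuation K (p : K) = 1) :
    ∃ u : Kˣ, u ∈ unitsAt v ∧ sym hζ v (Additive.ofMul u) ≠ 0 := by
  by_contra hcon
  push Not at hcon
  have hall : ∀ z : ((𝓞 K) ⧸ v.asIdeal ^ 1)ˣ, z ^ expo p v = 1 := by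
    intro z
    obtain ⟨u, rfl⟩ := mk_surj_units v z
    have h := hcon u.1 u.2
    rw [sym_eq_symUnit hζ hv, ← Nat.cast_zero, symUnit_eq_iff, pow_zero] at h
    exact h
  obtain ⟨g, hg⟩ := IsCyclic.exists_monoid_generator (α := ((𝓞 K) ⧸ v.asIdeal ^ 1)ˣ)
  have hord := orderOf_eq_card_of_forall_mem_powers hg
  have hdvd := orderOf_dvd_of_pow_eq_one (hall g)
  have hm := expo_mul hζ hv
  rw [hord, natCard_units_residue, ← hm] at hdvd
  have hpos : 0 < expo p v := by
    refine Nat.pos_of_ne_zero fun h0 => ?_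
    rw [h0, zero_mul, ← natCard_units_residue] at hm
    exact absurd hm.symm Nat.card_pos.ne'
  have := Nat.le_of_dvd hpos hdvd
  have := Nat.mul_lt_mul_of_pos_left hp.out.one_lt hpos
  omega

lemma inv_surjective {v : Place K} (hv : v.valuation K (p : K) = 1)
    (hx : x ∉ unrSub hζ v) : Function.Surjective (inv hζ x v) := by
  obtain ⟨u, hu, hus⟩ := exists_sym_ne_zero (hζ := hζ) hv
  have ha : (ord v (x : K) : ZMod p) ≠ 0 := fun h =>
    hx (mem_unrSub_of_dvd_ord hζ hv ((ZMod.intCast_zmod_eq_zero_iff_dvd _ p).mp h))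
  have hval : inv hζ x v (Additive.ofMul u) ≠ 0 := by
    show (ord v (x : K) : ZMod p) * _ - (ord v (u : K) : ZMod p) * _ ≠ 0
    rw [mem_unitsAt_iff_ord.mp hu, Int.cast_zero, zero_mul, sub_zero]
    exact mul_ne_zero ha hus
  intro t
  have : NeZero p := ⟨hp.out.ne_zero⟩
  refine ⟨(t / inv hζ x v (Additive.ofMul u)).val • Additive.ofMul u, ?_⟩
  rw [map_nsmul, nsmul_eq_mul, ZMod.natCast_val, ZMod.cast_id, div_mul_cancel₀ _ hval]

/-- The invariant at a ramified place kills norms. -/
lemma inv_norm (D : KummerData hζ x F) (hp2 : p ≠ 2) {v : Place K}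
    (hv : v.valuation K (p : K) = 1) (hx : x ∉ unrSub hζ v) (z : Fˣ) :
    inv hζ x v (Additive.ofMul (normUnits K F z)) = 0 := by
  have := D.galois
  obtain ⟨w, rfl⟩ := exists_place_over (F := F) v
  obtain ⟨hw, he⟩ := D.spec_of_not_mem_unrSub hv hx
  set a := ord (below K w) (x : K) with ha
  set b := ord (below K w) (Algebra.norm K (z : F)) with hb
  have hbw : b = ord w (z : F) := by
    have h := D.ord_norm_fixed hw z.ne_zero
    rw [he] at h
    exact mul_left_cancel₀ (by exact_mod_cast hp.out.ne_zero) h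
  have hroot : ord w D.root = a := by
    have h := congrArg (ord w) D.root_pow
    rw [ord_pow, ord_algebraMap', he] at h
    exact mul_left_cancel₀ (by exact_mod_cast hp.out.ne_zero) h
  let r : Fˣ := Units.mk0 D.root D.root_ne_zero
  let u : Fˣ := z ^ a / r ^ b
  have hu : w.valuation F (u : F) = 1 := by
    rw [valuation_eq_one_iff_ord w u.ne_zero, Units.val_div_eq_div_val,
      ord_div w (Units.ne_zero _) (Units.ne_zero _), Units.val_zpow_eq_zpow_val,
      Units.val_zpow_eq_zpow_val, ord_zpow, ord_zpow, Units.val_mk0, ← hbw, hroot]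
    ring
  have hy : normUnits K F u = normUnits K F z ^ a / x ^ b := by
    rw [map_div, map_zpow, map_zpow, show normUnits K F r = x from Units.ext (D.norm_root hp2)]
  obtain ⟨c, hc1, hc⟩ := exists_sub_lt_one_of_inertiaDeg_eq_one w
    (D.inertiaDeg_of_eIdx_eq hw he) hu.le
  have hnu : w.valuation F (algebraMap K F (Algebra.norm K (u : F) - c ^ p)) < 1 := by
    rw [map_sub, map_pow, D.algebraMap_norm]
    refine KummerData.prod_congruent _ ((valuation_algebraMap_le_one_iff w c).mpr hc1) _
      (fun i => ?_) p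
    rw [← AlgEquiv.commutes (D.gen ^ i) c, ← map_sub, D.valuation_gen_pow hw]
    exact hc
  rw [valuation_algebraMap_lt_one_iff] at hnu
  have hN1 : (below K w).valuation K ((normUnits K F u : Kˣ) : K) = 1 := by
    rw [← valuation_algebraMap_eq_one_iff w,
      show ((normUnits K F u : Kˣ) : K) = Algebra.norm K (u : F) from rfl, D.algebraMap_norm,
      map_prod]
    exact Finset.prod_eq_one fun i _ => by rw [D.valuation_gen_pow hw, hu]
  have hcp : (below K w).valuation K (c ^ p) = 1 := by
    rw [show c ^ p = ((normUnits K F u : Kˣ) : K) - (Algebra.norm K (u : F) - c ^ p) from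
      (sub_sub_cancel _ _).symm]
    rw [Valuation.map_sub_eq_of_lt_left _ (by rw [hN1]; exact hnu), hN1]
  have hc0 : c ≠ 0 := fun h => by simp [h, hp.out.ne_zero] at hcp
  have hsplit : normUnits K F u ∈ splitSub hζ (below K w) := by
    refine (mem_splitSub hζ).mpr ⟨Units.mk0 c hc0, ?_⟩
    show (below K w).valuation K _ < _
    rw [thr_eq_one hζ hv, Units.val_div_eq_div_val, Units.val_pow_eq_pow_val, Units.val_mk0,
      show ((normUnits K F u : Kˣ) : K) / c ^ p - 1 =
        (Algebra.norm K (u : F) - c ^ p) / c ^ p by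
          rw [sub_div, div_self (pow_ne_zero _ hc0)]; rfl,
      map_div₀, hcp, div_one]
    exact hnu
  have h0 := ((mem_splitSub_iff hζ hv _).mp hsplit).2
  rw [hy, ofMul_div, map_sub, ofMul_zpow, ofMul_zpow, map_zsmul, map_zsmul, zsmul_eq_mul,
    zsmul_eq_mul] at h0
  exact h0

end FLTAgent.Ext
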