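/-
S14 helper library: an elementary Herbrand-quotient inequality for a finitely generated abelian
group with an automorphism of prime order whose norm-zero part is the image of `σ - 1`.
-/
import Mathlib

set_option autoImplicit false
set_option linter.unusedSectionVars false

open Module

namespace FLTAgent.Ext

variable {A : Type*} [AddCommGroup A]

lemma index_nsmul_range_free (n p : ℕ) [Fact p.Prime] :
    (nsmulAddMonoidHom p : (Fin n →₀ ℤ) →+ (Fin n →₀ ℤ)).range.index = p ^ n := by
  let f : (Fin n →₀ ℤ) →+ (Fin n → ZMod p) :=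
    { toFun := fun x i => (x i : ZMod p)
      map_zero' := by ext; simp
      map_add' := fun x y => by ext; simp }
  have hsurj : Function.Surjective f := fun y =>
    ⟨Finsupp.equivFunOnFinite.symm fun i => ((y i).val : ℤ), by ext i; simp [f]⟩
  have hker : f.ker = (nsmulAddMonoidHom p : (Fin n →₀ ℤ) →+ (Fin n →₀ ℤ)).range := by
    ext x
    simp only [AddMonoidHom.mem_ker, AddMonoidHom.mem_range, nsmulAddMonoidHom_apply]
    constructor
    · intro h
      have h' : ∀ i, ∃ k, x i = (p : ℤ) * k := fun i =>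
        (ZMod.intCast_zmod_eq_zero_iff_dvd _ p).mp (congrFun h i)
      choose k hk using h'
      exact ⟨Finsupp.equivFunOnFinite.symm k, by ext i; simp [hk i]⟩
    · rintro ⟨y, rfl⟩
      ext i; simp [f]
  rw [← hker, AddSubgroup.index_ker, AddMonoidHom.range_eq_top.mpr hsurj]
  simp

lemma index_nsmul_range_prod {F T : Type*} [AddCommGroup F] [AddCommGroup T] (p : ℕ) :
    (nsmulAddMonoidHom p : F × T →+ F × T).range.index =
      (nsmulAddMonoidHom p : F →+ F).range.index * (nsmulAddMonoidHom p : T →+ T).range.index := by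
  rw [← AddSubgroup.index_prod]
  congr 1
  ext ⟨x, y⟩
  simp [AddSubgroup.mem_prod]

lemma index_nsmul_range_finite {T : Type*} [AddCommGroup T] [Finite T] (p : ℕ) :
    (nsmulAddMonoidHom p : T →+ T).range.index =
      Nat.card (nsmulAddMonoidHom p : T →+ T).ker := by
  have h1 := AddSubgroup.card_mul_index (nsmulAddMonoidHom p : T →+ T).range
  have h2 := AddSubgroup.card_mul_index (nsmulAddMonoidHom p : T →+ T).ker
  rw [AddSubgroup.index_ker, mul_comm] at h2
  exact Nat.eq_of_mul_eq_mul_left Nat.card_pos (h1.trans h2.symm)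

/-- `[A : pA] = p ^ rank A * #A[p]`. -/
lemma index_nsmul_range (p : ℕ) [Fact p.Prime] [AddGroup.FG A] :
    (nsmulAddMonoidHom p : A →+ A).range.index =
      p ^ finrank ℤ A * Nat.card (nsmulAddMonoidHom p : A →+ A).ker := by
  obtain ⟨n, ι, hι, q, hq, e, ⟨f⟩⟩ := AddCommGroup.equiv_free_prod_directSum_zmod A
  classical
  have hne : ∀ i, NeZero (q i ^ e i) := fun i => ⟨pow_ne_zero _ (hq i).ne_zero⟩
  have : Fintype (DirectSum ι fun i => ZMod (q i ^ e i)) :=
    Fintype.ofEquiv _ (DirectSum.linearEquivFunOnFintype ℤ ι fun i => ZMod (q i ^ e i)).toEquiv.symm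
  set T := DirectSum ι fun i => ZMod (q i ^ e i)
  have hr : finrank ℤ A = n := by
    rw [f.toIntLinearEquiv.finrank_eq]
    have hT : Module.rank ℤ T = 0 := by
      rw [rank_eq_zero_iff]
      intro x
      refine ⟨(addOrderOf x : ℤ), by exact_mod_cast (addOrderOf_pos x).ne', ?_⟩
      rw [natCast_zsmul, addOrderOf_nsmul_eq_zero]
    have h := (LinearMap.fst ℤ (Fin n →₀ ℤ) T).rank_range_add_rank_ker
    rw [LinearMap.range_eq_top.mpr LinearMap.fst_surjective, rank_top,
      LinearMap.ker_fst, (LinearEquiv.ofInjective _ LinearMap.inr_injective).rank_eq.symm, hT,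
      add_zero] at h
    rw [finrank, ← h]
    simp
  have hidx : (nsmulAddMonoidHom p : A →+ A).range.index =
      (nsmulAddMonoidHom p : (Fin n →₀ ℤ) × T →+ (Fin n →₀ ℤ) × T).range.index := by
    rw [← AddSubgroup.index_map_equiv _ f]
    congr 1
    ext x
    simp only [AddSubgroup.mem_map, AddMonoidHom.mem_range, nsmulAddMonoidHom_apply]
    constructor
    · rintro ⟨-, ⟨y, rfl⟩, rfl⟩; exact ⟨f y, by simp⟩
    · rintro ⟨y, rfl⟩; exact ⟨_, ⟨f.symm y, rfl⟩, by simp⟩
  have hk : Nat.card (nsmulAddMonoidHom p : A →+ A).ker =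
      Nat.card (nsmulAddMonoidHom p : T →+ T).ker := by
    refine Nat.card_congr
      { toFun := fun x => ⟨(f x).2, ?_⟩
        invFun := fun t => ⟨f.symm (0, t), ?_⟩
        left_inv := ?_
        right_inv := ?_ }
    · have h2 : p • (x : A) = 0 := x.2
      rw [AddMonoidHom.mem_ker, nsmulAddMonoidHom_apply, ← Prod.smul_snd, ← map_nsmul, h2,
        map_zero]
      rfl
    · rw [AddMonoidHom.mem_ker, nsmulAddMonoidHom_apply, ← map_nsmul, Prod.smul_mk, smul_zero]
      have h2 : p • (t : T) = 0 := t.2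
      rw [h2]; exact map_zero _
    · intro x
      apply Subtype.ext
      have h2 : p • (x : A) = 0 := x.2
      have h3 : p • (f x).1 = 0 := by rw [← Prod.smul_fst, ← map_nsmul, h2, map_zero]; rfl
      have h4 : (f x).1 = 0 := (smul_eq_zero.mp h3).resolve_left (Fact.out : p.Prime).ne_zero
      show f.symm (0, (f x).2) = x
      rw [← h4, Prod.mk.eta, AddEquiv.symm_apply_apply]
    · intro t
      apply Subtype.ext
      simp
  rw [hidx, index_nsmul_range_prod, index_nsmul_range_free, index_nsmul_range_finite, hr, hk]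

lemma relIndex_map_le {B : Type*} [AddCommGroup B] (f : A →+ B) {H L : AddSubgroup A}
    (hle : H ≤ L) (h : H.relIndex L ≠ 0) :
    (H.map f).relIndex (L.map f) ≤ H.relIndex L ∧ (H.map f).relIndex (L.map f) ≠ 0 := by
  rw [AddSubgroup.relIndex_map_map]
  have : L ⊔ f.ker = L ⊔ (H ⊔ f.ker) := by rw [← sup_assoc, sup_of_le_left hle]
  rw [this, AddSubgroup.relIndex_sup_right]
  exact ⟨AddSubgroup.relIndex_le_of_le_left le_sup_left h,
    ne_zero_of_dvd_ne_zero h (AddSubgroup.relIndex_dvd_of_le_left _ le_sup_left)⟩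

/-- The Herbrand quotient inequality. -/
theorem herbrand_bound (p : ℕ) [hp : Fact p.Prime] [AddGroup.FG A] (D N Q : A →+ A)
    (hrange : N.ker = D.range) (hDN : ∀ x, D (N x) = 0) (hND : ∀ b ∈ D.ker, N b = p • b)
    (hQ : ∀ x, Q (D x) = D (Q x))
    (hpow : ∀ x, (⇑D)^[p - 1] x = N x + p • Q x)
    (hB : Nat.card (nsmulAddMonoidHom p : D.ker →+ D.ker).ker ≤ p)
    (hC : ∃ c ∈ D.range, c ≠ 0 ∧ p • c = 0) :
    N.range.relIndex D.ker ≠ 0 ∧
    (N.range.relIndex D.ker) ^ (p - 1) * p ^ (finrank ℤ A - finrank ℤ D.ker + 1) ≤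
      p ^ ((p - 1) * (finrank ℤ D.ker + 1)) := by
  set B := D.ker with hBdef
  set C := D.range with hCdef
  have : Module.Finite ℤ A := Module.Finite.iff_addGroup_fg.mpr inferInstance
  have hBfg : AddGroup.FG B := by
    rw [← Module.Finite.iff_addGroup_fg]
    exact Module.Finite.of_injective (B.subtype.toIntLinearMap) Subtype.val_injective
  have hCfg : AddGroup.FG C := by
    rw [← Module.Finite.iff_addGroup_fg]
    exact Module.Finite.of_injective (C.subtype.toIntLinearMap) Subtype.val_injective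
  -- the two images of multiplication by `p`
  have hsub : ∀ H : AddSubgroup A,
      (H.map (nsmulAddMonoidHom p)).relIndex H =
        (nsmulAddMonoidHom p : H →+ H).range.index := by
    intro H
    rw [AddSubgroup.relIndex]
    congr 1
    ext x
    simp [AddSubgroup.mem_addSubgroupOf, AddSubgroup.mem_map, Subtype.ext_iff]
  have hBp : (B.map (nsmulAddMonoidHom p)).relIndex B ≤ p ^ (finrank ℤ B + 1) ∧
      (B.map (nsmulAddMonoidHom p)).relIndex B ≠ 0 := by
    have : (Nat.card (nsmulAddMonoidHom p : B →+ B).ker) ≠ 0 := by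
      intro h
      have := index_nsmul_range (A := B) p
      rw [h, mul_zero] at this
      have hfin : Finite (B ⧸ (nsmulAddMonoidHom p : B →+ B).range) := by
        have hfgq : Module.Finite ℤ (B ⧸ (nsmulAddMonoidHom p : B →+ B).range) :=
          Module.Finite.of_surjective
            (QuotientAddGroup.mk' (nsmulAddMonoidHom p : B →+ B).range).toIntLinearMap
            (QuotientAddGroup.mk'_surjective _)
        exact Module.finite_of_fg_torsion _ fun x => ⟨⟨p, by simp [hp.out.ne_zero]⟩, by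
          obtain ⟨b, rfl⟩ := QuotientAddGroup.mk_surjective x
          show (p : ℤ) • (QuotientAddGroup.mk b : B ⧸ (nsmulAddMonoidHom p : B →+ B).range) = 0
          rw [natCast_zsmul, ← QuotientAddGroup.mk_nsmul, QuotientAddGroup.eq_zero_iff]
          exact ⟨b, rfl⟩⟩
      exact AddSubgroup.index_ne_zero_of_finite this
    rw [hsub, index_nsmul_range]
    exact ⟨by rw [pow_succ]; exact Nat.mul_le_mul_left _ hB,
      Nat.mul_ne_zero (pow_ne_zero _ hp.out.ne_zero) this⟩
  have hNB : N.range ≤ B := by rintro x ⟨y, rfl⟩; exact hDN y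
  have hpB : B.map N = B.map (nsmulAddMonoidHom p) := by
    ext x
    simp only [AddSubgroup.mem_map, nsmulAddMonoidHom_apply]
    exact ⟨fun ⟨b, hb, h⟩ => ⟨b, hb, by rw [← hND b hb, h]⟩,
      fun ⟨b, hb, h⟩ => ⟨b, hb, by rw [hND b hb, h]⟩⟩
  -- the two descriptions of `A / (B + C)`
  have e1 : (C.map D).relIndex C = (B ⊔ C).index := by
    have := AddSubgroup.relIndex_map_map D C ⊤
    rw [← AddMonoidHom.range_eq_map, top_sup_eq, AddSubgroup.relIndex_top_right] at this
    rw [this, sup_comm]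
  have e2 : (B.map N).relIndex N.range = (B ⊔ C).index := by
    have := AddSubgroup.relIndex_map_map N B ⊤
    rw [← AddMonoidHom.range_eq_map, top_sup_eq, AddSubgroup.relIndex_top_right, hrange] at this
    exact this
  have hmul : (B.map N).relIndex N.range * N.range.relIndex B = (B.map N).relIndex B :=
    AddSubgroup.relIndex_mul_relIndex _ _ _ (AddSubgroup.map_le_range _ _) hNB
  set x := (C.map D).relIndex C with hx
  set y := N.range.relIndex B with hy
  rw [e2, ← e1, hpB] at hmul
  have hx0 : x ≠ 0 := fun h => hBp.2 (by rw [← hmul, h, zero_mul])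
  -- powers of `D`
  let P : ℕ → AddSubgroup A := Nat.rec C fun _ H => H.map D
  have hP0 : P 0 = C := rfl
  have hPs : ∀ j, P (j + 1) = (P j).map D := fun _ => rfl
  have hPle : ∀ j, P (j + 1) ≤ P j := by
    intro j
    induction j with
    | zero => exact AddSubgroup.map_le_range _ _
    | succ j ih => rw [hPs (j + 1), hPs j]; exact AddSubgroup.map_mono ih
  have hPC : ∀ j, P j ≤ C := fun j => by
    induction j with
    | zero => exact le_rfl
    | succ j ih => exact (hPle j).trans ih
  have hstep : ∀ j, (P (j + 1)).relIndex (P j) ≤ x ∧ (P (j + 1)).relIndex (P j) ≠ 0 := by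
    intro j
    induction j with
    | zero => exact ⟨le_rfl, hx0⟩
    | succ j ih =>
      have h := relIndex_map_le D (hPle j) ih.2
      exact ⟨h.1.trans ih.1, h.2⟩
  have hind : ∀ j, (P j).relIndex C ≤ x ^ j ∧ (P j).relIndex C ≠ 0 := by
    intro j
    induction j with
    | zero => simp [hP0]
    | succ j ih =>
      rw [← AddSubgroup.relIndex_mul_relIndex _ _ _ (hPle j) (hPC j), pow_succ', ]
      exact ⟨Nat.mul_le_mul (hstep j).1 ih.1, Nat.mul_ne_zero (hstep j).2 ih.2⟩
  have hPD : ∀ j c, c ∈ C → (⇑D)^[j] c ∈ P j := by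
    intro j c hc
    induction j with
    | zero => exact hc
    | succ j ih => rw [Function.iterate_succ_apply']; exact ⟨_, ih, rfl⟩
  have hPsub : ∀ j z, z ∈ P j → ∃ c ∈ C, (⇑D)^[j] c = z := by
    intro j
    induction j with
    | zero => exact fun z hz => ⟨z, hz, rfl⟩
    | succ j ih =>
      rintro z ⟨w, hw, rfl⟩
      obtain ⟨c, hc, rfl⟩ := ih w hw
      exact ⟨c, hc, Function.iterate_succ_apply' _ _ _⟩
  have hle : P (p - 1) ≤ C.map (nsmulAddMonoidHom p) := by
    intro z hz
    obtain ⟨c, hc, rfl⟩ := hPsub _ z hz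
    obtain ⟨a, rfl⟩ := hc
    refine ⟨Q (D a), ⟨Q a, (hQ a).symm⟩, ?_⟩
    rw [hpow, nsmulAddMonoidHom_apply]
    have : N (D a) = 0 := by rw [← AddMonoidHom.mem_ker, hrange]; exact ⟨a, rfl⟩
    rw [this, zero_add]
  have hCp : p ^ (finrank ℤ C + 1) ≤ x ^ (p - 1) := by
    have hfin := (hind (p - 1)).2
    have h1 : (C.map (nsmulAddMonoidHom p)).relIndex C ≤ x ^ (p - 1) :=
      (AddSubgroup.relIndex_le_of_le_left hle hfin).trans (hind (p - 1)).1
    rw [hsub, index_nsmul_range] at h1
    refine le_trans ?_ h1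
    rw [pow_succ]
    refine Nat.mul_le_mul_left _ ?_
    have hCfin : Nat.card (nsmulAddMonoidHom p : C →+ C).ker ≠ 0 := by
      intro h
      have h2 : (C.map (nsmulAddMonoidHom p)).relIndex C ≠ 0 :=
        ne_zero_of_dvd_ne_zero hfin (AddSubgroup.relIndex_dvd_of_le_left _ hle)
      rw [hsub, index_nsmul_range, h, mul_zero] at h2
      exact h2 rfl
    obtain ⟨c, hc, hc0, hpc⟩ := hC
    let c' : (nsmulAddMonoidHom p : C →+ C).ker := ⟨⟨c, hc⟩, by
      apply Subtype.ext; simpa using hpc⟩
    have hord : addOrderOf c' = p := addOrderOf_eq_prime (Subtype.ext (Subtype.ext hpc))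
      (fun h => hc0 (congrArg (fun z => ((z.1 : C) : A)) h))
    calc p = addOrderOf c' := hord.symm
      _ ≤ _ := Nat.le_of_dvd (Nat.pos_of_ne_zero hCfin) (addOrderOf_dvd_natCard c')
  have hrank : finrank ℤ A - finrank ℤ B = finrank ℤ C := by
    have h := Submodule.finrank_quotient_add_finrank (LinearMap.ker D.toIntLinearMap)
    rw [D.toIntLinearMap.quotKerEquivRange.finrank_eq] at h
    have h1 : finrank ℤ (LinearMap.range D.toIntLinearMap) = finrank ℤ C := rfl
    have h2 : finrank ℤ (LinearMap.ker D.toIntLinearMap) = finrank ℤ B := rfl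
    omega
  refine ⟨fun h => hBp.2 (by rw [← hmul, h, mul_zero]), ?_⟩
  calc y ^ (p - 1) * p ^ (finrank ℤ A - finrank ℤ B + 1)
      ≤ y ^ (p - 1) * x ^ (p - 1) := by rw [hrank]; exact Nat.mul_le_mul_left _ hCp
    _ = (x * y) ^ (p - 1) := by rw [mul_comm, mul_pow]
    _ ≤ (p ^ (finrank ℤ B + 1)) ^ (p - 1) :=
        Nat.pow_le_pow_left (hmul ▸ hBp.1) _
    _ = p ^ ((p - 1) * (finrank ℤ B + 1)) := by rw [← pow_mul, mul_comm]

open Polynomial in
/-- `(X - 1) ^ (p - 1) ≡ 1 + X + ⋯ + X ^ (p - 1)` modulo `p`. -/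
lemma exists_sub_one_pow_eq (p : ℕ) [hp : Fact p.Prime] :
    ∃ Q : ℤ[X], (X - 1) ^ (p - 1) = (∑ i ∈ Finset.range p, X ^ i) + (p : ℤ[X]) * Q := by
  have hz : ((X - 1) ^ (p - 1) - ∑ i ∈ Finset.range p, X ^ i : ℤ[X]).map
      (Int.castRingHom (ZMod p)) = 0 := by
    simp only [Polynomial.map_sub, Polynomial.map_pow, Polynomial.map_X, Polynomial.map_one,
      Polynomial.map_sum, sub_eq_zero]
    have h1 : ((X : (ZMod p)[X]) - 1) ≠ 0 := by
      simpa using X_sub_C_ne_zero (1 : ZMod p)
    refine mul_right_cancel₀ h1 ?_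
    rw [geom_sum_mul, ← pow_succ, Nat.sub_add_cancel hp.out.one_le, sub_pow_char, one_pow]
  have : C (p : ℤ) ∣ ((X - 1) ^ (p - 1) - ∑ i ∈ Finset.range p, X ^ i : ℤ[X]) := by
    rw [C_dvd_iff_dvd_coeff]
    intro i
    rw [← ZMod.intCast_zmod_eq_zero_iff_dvd]
    have := congrArg (fun q => coeff q i) hz
    simp only [coeff_map, coeff_zero] at this
    simpa using this
  obtain ⟨Q, hQ⟩ := this
  refine ⟨Q, ?_⟩
  rw [sub_eq_iff_eq_add'] at hQ
  rw [hQ, map_natCast]

end FLTAgent.Ext
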