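/-
S14 helper library: groups of `S`-units (finite generation, rank), and finite sets of places
generating the class group.
-/
import Fermat.Agent.Ext.Local
import Fermat.Agent.Ext.Herbrand

set_option autoImplicit false
set_option linter.unusedSectionVars false

open IsDedekindDomain NumberField WithZero Module
open scoped NumberField nonZeroDivisors

namespace FLTAgent.Ext

variable {K : Type*} [Field K] [NumberField K]

/-- The `S`-units. -/
def sUnits (S : Set (Place K)) : Subgroup Kˣ where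
  carrier := {x | ∀ v ∉ S, ord v (x : K) = 0}
  one_mem' := fun v _ => by simp
  mul_mem' := fun {a b} ha hb v hv => by
    rw [Units.val_mul, ord_mul v a.ne_zero b.ne_zero, ha v hv, hb v hv, add_zero]
  inv_mem' := fun {a} ha v hv => by rw [Units.val_inv_eq_inv_val, ord_inv, ha v hv, neg_zero]

lemma mem_sUnits {S : Set (Place K)} {x : Kˣ} :
    x ∈ sUnits S ↔ ∀ v ∉ S, ord v (x : K) = 0 := Iff.rfl

lemma sUnits_mono {S T : Set (Place K)} (h : S ⊆ T) : sUnits S ≤ sUnits T :=
  fun _ hx v hv => hx v fun hS => hv (h hS)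

lemma ord_algebraMap_nonneg (v : Place K) (g : 𝓞 K) : 0 ≤ ord v (g : K) := by
  rcases eq_or_ne (g : K) 0 with h | h
  · simp [h, ord]
  · exact (valuation_le_one_iff_ord v h).mp (valuation_coe_le_one v g)

lemma le_ord_iff_mem (v : Place K) {g : 𝓞 K} (hg : g ≠ 0) (k : ℕ) :
    (k : ℤ) ≤ ord v (g : K) ↔ g ∈ v.asIdeal ^ k := by
  rw [← valuation_le_exp_iff_mem, valuation_eq_exp_ord v (RingOfIntegers.coe_ne_zero_iff.mpr hg),
    exp_le_exp, neg_le_neg_iff]

lemma ord_eq_zero_iff_notMem (v : Place K) {g : 𝓞 K} (hg : g ≠ 0) :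
    ord v (g : K) = 0 ↔ g ∉ v.asIdeal := by
  have h := le_ord_iff_mem v hg 1
  rw [pow_one] at h
  have := ord_algebraMap_nonneg v g
  push_cast at h
  rw [← h]; omega

lemma ord_of_span_eq_pow (v v' : Place K) {g : 𝓞 K} (hg : g ≠ 0) {n : ℕ}
    (h : Ideal.span {g} = v.asIdeal ^ n) :
    (v' = v → ord v' (g : K) = n) ∧ (v' ≠ v → ord v' (g : K) = 0) := by
  have hmem : g ∈ v.asIdeal ^ n := h ▸ Ideal.mem_span_singleton_self g
  constructor
  · rintro rfl
    have h1 := (le_ord_iff_mem v' hg n).mpr hmem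
    have h2 : ¬ ((n + 1 : ℕ) : ℤ) ≤ ord v' (g : K) := by
      rw [le_ord_iff_mem v' hg]
      intro h'
      have hle : v'.asIdeal ^ n ≤ v'.asIdeal ^ (n + 1) := by
        rw [← h]; exact (Ideal.span_singleton_le_iff_mem _).mpr h'
      exact absurd hle (Ideal.pow_succ_lt_pow v'.ne_bot n).not_ge
    push_cast at h2
    omega
  · intro hne
    rw [ord_eq_zero_iff_notMem v' hg]
    intro h'
    have hle : v.asIdeal ^ n ≤ v'.asIdeal := by
      rw [← h]; exact (Ideal.span_singleton_le_iff_mem _).mpr h'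
    exact hne (HeightOneSpectrum.ext
      (v.isMaximal.eq_of_le v'.isPrime.ne_top (v'.isPrime.le_of_pow_le hle))).symm

lemma exists_ord_eq_classNumber (v : Place K) :
    ∃ g : Kˣ, ord v (g : K) = classNumber K ∧ ∀ v', v' ≠ v → ord v' (g : K) = 0 := by
  have hv : v.asIdeal ^ classNumber K ∈ (Ideal (𝓞 K))⁰ :=
    mem_nonZeroDivisors_of_ne_zero (pow_ne_zero _ v.ne_bot)
  have h1 : ClassGroup.mk0 ⟨v.asIdeal ^ classNumber K, hv⟩ = 1 := by
    rw [show (⟨v.asIdeal ^ classNumber K, hv⟩ : (Ideal (𝓞 K))⁰) =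
      ⟨v.asIdeal, mem_nonZeroDivisors_of_ne_zero v.ne_bot⟩ ^ classNumber K from Subtype.ext rfl,
      map_pow, classNumber, pow_card_eq_one]
  rw [ClassGroup.mk0_eq_one_iff hv] at h1
  obtain ⟨g, hg⟩ := h1
  rw [Ideal.submodule_span_eq] at hg
  have hg0 : g ≠ 0 := by
    rintro rfl
    simp only [Ideal.span_singleton_zero] at hg
    exact pow_ne_zero _ v.ne_bot hg
  refine ⟨Units.mk0 (g : K) (RingOfIntegers.coe_ne_zero_iff.mpr hg0), ?_, fun v' hv' => ?_⟩
  · exact (ord_of_span_eq_pow v v hg0 hg.symm).1 rfl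
  · exact (ord_of_span_eq_pow v v' hg0 hg.symm).2 hv'

lemma valuation_algebraMap_unit (v : Place K) (u : (𝓞 K)ˣ) :
    v.valuation K ((u : 𝓞 K) : K) = 1 :=
  (v.valuation_eq_one_iff_notMem (K := K)).mpr fun h =>
    v.isPrime.ne_top (Ideal.eq_top_of_isUnit_mem _ h u.isUnit)

lemma mem_range_units_of_forall_ord_eq_zero {x : Kˣ} (h : ∀ v : Place K, ord v (x : K) = 0) :
    ∃ u : (𝓞 K)ˣ, Units.map (algebraMap (𝓞 K) K).toMonoidHom u = x := by
  have h1 : ∀ v : Place K, v.valuation K (x : K) ≤ 1 := fun v =>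
    (valuation_le_one_iff_ord v x.ne_zero).mpr (h v).ge
  have h2 : ∀ v : Place K, v.valuation K ((x⁻¹ : Kˣ) : K) ≤ 1 := fun v =>
    (valuation_le_one_iff_ord v (Units.ne_zero _)).mpr
      (by rw [Units.val_inv_eq_inv_val, ord_inv, h v]; rfl)
  obtain ⟨a, ha⟩ := HeightOneSpectrum.mem_integers_of_valuation_le_one K _ h1
  obtain ⟨b, hb⟩ := HeightOneSpectrum.mem_integers_of_valuation_le_one K _ h2
  have hab : a * b = 1 := RingOfIntegers.coe_injective (by
    show algebraMap (𝓞 K) K (a * b) = algebraMap (𝓞 K) K 1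
    rw [map_mul, ha, hb, map_one, ← Units.val_mul, mul_inv_cancel, Units.val_one])
  exact ⟨⟨a, b, hab, mul_comm a b ▸ hab⟩, Units.ext ha⟩

/-- The valuation vector of an `S`-unit. -/
noncomputable def ordVec (S : Finset (Place K)) :
    Additive (sUnits (S : Set (Place K))) →ₗ[ℤ] (S → ℤ) :=
  (AddMonoidHom.mk' (fun x v => ord v.1 (((Additive.toMul x : sUnits (S : Set (Place K))) : Kˣ) : K))
    (fun a b => funext fun v => by
      simp only [toMul_add, Subgroup.coe_mul, Units.val_mul, Pi.add_apply]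
      exact ord_mul _ (Units.ne_zero _) (Units.ne_zero _))).toIntLinearMap

/-- The units of `𝓞 K` as `S`-units. -/
noncomputable def unitsInc (S : Set (Place K)) :
    Additive (𝓞 K)ˣ →ₗ[ℤ] Additive (sUnits S) :=
  (MonoidHom.toAdditive ((Units.map (algebraMap (𝓞 K) K).toMonoidHom).codRestrict (sUnits S)
    (fun u v _ => (valuation_eq_one_iff_ord v (Units.ne_zero _)).mp
      (valuation_algebraMap_unit v u)))).toIntLinearMap

lemma unitsInc_injective (S : Set (Place K)) : Function.Injective (unitsInc S) := by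
  intro a b h
  apply Additive.toMul.injective
  apply Units.ext
  apply RingOfIntegers.coe_injective
  exact congrArg (fun z => (((Additive.toMul z : sUnits S) : Kˣ) : K)) h

lemma ker_ordVec (S : Finset (Place K)) :
    LinearMap.ker (ordVec S) = LinearMap.range (unitsInc (S : Set (Place K))) := by
  refine le_antisymm (fun x hx => ?_) ?_
  · obtain ⟨u, hu⟩ := mem_range_units_of_forall_ord_eq_zero
      (x := ((Additive.toMul x : sUnits (S : Set (Place K))) : Kˣ)) (fun v => by
        by_cases hv : v ∈ S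
        · exact congrFun (LinearMap.mem_ker.mp hx) ⟨v, hv⟩
        · exact (Additive.toMul x).2 v hv)
    exact ⟨Additive.ofMul u, Additive.toMul.injective (Subtype.ext hu)⟩
  · rintro x ⟨u, rfl⟩
    refine LinearMap.mem_ker.mpr (funext fun v => ?_)
    exact (valuation_eq_one_iff_ord v.1 (Units.ne_zero _)).mp
      (valuation_algebraMap_unit v.1 (Additive.toMul u))

instance finite_additive_sUnits (S : Finset (Place K)) :
    Module.Finite ℤ (Additive (sUnits (S : Set (Place K)))) := by
  constructor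
  refine Submodule.fg_of_fg_map_of_fg_inf_ker (ordVec S) ?_ ?_
  · exact IsNoetherian.noetherian _
  · rw [top_inf_eq, ker_ordVec, ← Submodule.map_top]
    exact (Module.Finite.fg_top).map _

lemma finrank_sUnits (S : Finset (Place K)) :
    finrank ℤ (Additive (sUnits (S : Set (Place K)))) = Units.rank K + S.card := by
  classical
  have h := Submodule.finrank_quotient_add_finrank (LinearMap.ker (ordVec S))
  rw [(ordVec S).quotKerEquivRange.finrank_eq, ker_ordVec,
    ← (LinearEquiv.ofInjective _ (unitsInc_injective (S : Set (Place K)))).finrank_eq,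
    Units.finrank_eq] at h
  have h1 : finrank ℤ (LinearMap.range (ordVec S)) = S.card := by
    refine le_antisymm ?_ ?_
    · refine (Submodule.finrank_le _).trans ?_
      simp
    · have hh : (classNumber K : ℤ) ≠ 0 := Int.natCast_ne_zero.mpr Fintype.card_pos.ne'
      let L : (S → ℤ) →ₗ[ℤ] (S → ℤ) := (classNumber K : ℤ) • LinearMap.id
      have hinj : Function.Injective L := fun a b hab => by
        funext v; exact mul_left_cancel₀ hh (congrFun hab v)
      have hle : LinearMap.range L ≤ LinearMap.range (ordVec S) := by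
        rintro _ ⟨a, rfl⟩
        choose g hg hg' using fun v : Place K => exists_ord_eq_classNumber v
        have hgS : ∀ v : S, g v.1 ∈ sUnits (S : Set (Place K)) := fun v v' hv' =>
          hg' _ _ (fun h => hv' (h ▸ v.2))
        refine ⟨∑ v : S, a v • Additive.ofMul ⟨g v.1, hgS v⟩, ?_⟩
        rw [map_sum]
        funext v'
        rw [Finset.sum_apply, Finset.sum_eq_single v' ?_ (by simp)]
        · rw [map_smul]
          show a v' • ord v'.1 (g v'.1 : K) = (classNumber K : ℤ) • a v'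
          rw [hg, smul_eq_mul, smul_eq_mul, mul_comm]
        · intro v _ hv
          rw [map_smul]
          show a v • ord v'.1 (g v.1 : K) = 0
          rw [hg' _ _ (fun h => hv (Subtype.ext h).symm), smul_zero]
      refine le_trans ?_ (Submodule.finrank_mono hle)
      rw [← (LinearEquiv.ofInjective L hinj).finrank_eq]
      simp
  omega

lemma card_torsion_sUnits_le (S : Finset (Place K)) {p : ℕ} [hp : Fact p.Prime] :
    Nat.card (nsmulAddMonoidHom p :
      Additive (sUnits (S : Set (Place K))) →+ _).ker ≤ p := by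
  have : NeZero p := ⟨hp.out.ne_zero⟩
  have h : ∀ x : (nsmulAddMonoidHom p : Additive (sUnits (S : Set (Place K))) →+ _).ker,
      ((Additive.toMul x.1 : sUnits (S : Set (Place K))) : Kˣ) ∈ rootsOfUnity p K := by
    intro x
    rw [mem_rootsOfUnity, ← Subgroup.coe_pow, ← toMul_nsmul]
    have : p • x.1 = 0 := x.2
    rw [this]; rfl
  refine le_trans (Nat.card_le_card_of_injective (fun x => (⟨_, h x⟩ : rootsOfUnity p K))
    (fun a b hab => ?_)) (card_rootsOfUnity K p)
  exact Subtype.ext (Additive.toMul.injective (Subtype.ext (congrArg Subtype.val hab :)))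

lemma root_mem_sUnits {p : ℕ} [Fact p.Prime] {ζ : Kˣ} (hζ : IsPrimitiveRoot (ζ : K) p)
    (S : Set (Place K)) : ζ ∈ sUnits S :=
  fun v _ => (valuation_eq_one_iff_ord v ζ.ne_zero).mp (valuation_root_eq_one hζ v)

/-- `S` generates the class group. -/
def Gen (S : Set (Place K)) : Prop :=
  ∀ v ∉ S, ∃ k : Kˣ, ord v (k : K) = 1 ∧ ∀ v' ∉ S, v' ≠ v → ord v' (k : K) = 0

lemma Gen.mono {S T : Set (Place K)} (h : Gen S) (hST : S ⊆ T) : Gen T := fun v hv => by
  obtain ⟨k, h1, h2⟩ := h v (fun hS => hv (hST hS))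
  exact ⟨k, h1, fun v' hv' hne => h2 v' (fun hS => hv' (hST hS)) hne⟩

/-- Prescribed valuations outside a generating set. -/
lemma Gen.exists_ord_eq {S : Set (Place K)} (h : Gen S) (n : Place K → ℤ)
    (hn : {v | v ∉ S ∧ n v ≠ 0}.Finite) :
    ∃ k : Kˣ, ∀ v ∉ S, ord v (k : K) = n v := by
  classical
  choose! g hg hg' using h
  refine ⟨∏ v ∈ hn.toFinset, g v ^ n v, fun v hv => ?_⟩
  have hsum : ord v (((∏ u ∈ hn.toFinset, g u ^ n u : Kˣ)) : K) =
      ∑ u ∈ hn.toFinset, n u * ord v (g u : K) := by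
    rw [← ordHom_apply, ofMul_prod, map_sum]
    refine Finset.sum_congr rfl fun u _ => ?_
    rw [ordHom_apply, Units.val_zpow_eq_zpow_val, ord_zpow]
  rw [hsum, Finset.sum_eq_single v]
  · rw [hg v hv, mul_one]
  · intro u hu hne
    rw [hg' u ((Set.Finite.mem_toFinset hn).mp hu).1 v hv hne.symm, mul_zero]
  · intro hnot
    rw [Set.Finite.mem_toFinset] at hnot
    have : n v = 0 := not_not.mp fun h0 => hnot ⟨hv, h0⟩
    rw [this, zero_mul]

lemma exists_gen : ∃ S : Finset (Place K), Gen (S : Set (Place K)) := by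
  classical
  choose J hJ using fun c : ClassGroup (𝓞 K) => ClassGroup.mk0_surjective c
  have hfin : {v : Place K | ∃ c, (J c : Ideal (𝓞 K)) ≤ v.asIdeal}.Finite := by
    have : {v : Place K | ∃ c, (J c : Ideal (𝓞 K)) ≤ v.asIdeal} =
        ⋃ c, {v : Place K | v.asIdeal ∣ (J c : Ideal (𝓞 K))} := by
      ext v; simp [Ideal.dvd_iff_le]
    rw [this]
    exact Set.finite_iUnion fun c => Ideal.finite_factors (nonZeroDivisors.coe_ne_zero _)
  refine ⟨hfin.toFinset, fun v hv => ?_⟩
  rw [Set.Finite.coe_toFinset, Set.mem_ofPred_eq, not_exists] at hv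
  set c := (ClassGroup.mk0 (⟨v.asIdeal, mem_nonZeroDivisors_of_ne_zero v.ne_bot⟩ :
    (Ideal (𝓞 K))⁰))⁻¹
  have h1 : ClassGroup.mk0 ((⟨v.asIdeal, mem_nonZeroDivisors_of_ne_zero v.ne_bot⟩ :
    (Ideal (𝓞 K))⁰) * J c) = 1 := by
    rw [map_mul, hJ c, mul_inv_cancel]
  rw [ClassGroup.mk0_eq_one_iff (SetLike.coe_mem _)] at h1
  obtain ⟨g, hg⟩ := h1
  rw [Ideal.submodule_span_eq] at hg
  simp only [Submonoid.coe_mul] at hg
  have hg0 : g ≠ 0 := by
    rintro rfl
    simp only [Ideal.span_singleton_zero] at hg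
    exact mul_ne_zero v.ne_bot (nonZeroDivisors.coe_ne_zero (J c)) hg
  have hmem : g ∈ v.asIdeal * (J c : Ideal (𝓞 K)) := hg ▸ Ideal.mem_span_singleton_self g
  refine ⟨Units.mk0 (g : K) (RingOfIntegers.coe_ne_zero_iff.mpr hg0), ?_, fun v' hv' hne => ?_⟩
  · rw [Units.val_mk0]
    have h1 := (le_ord_iff_mem v hg0 1).mpr (by rw [pow_one]; exact Ideal.mul_le_left hmem)
    have h2 : ¬ ((2 : ℕ) : ℤ) ≤ ord v (g : K) := by
      rw [le_ord_iff_mem v hg0]
      intro h'
      have hle : v.asIdeal * (J c : Ideal (𝓞 K)) ≤ v.asIdeal * v.asIdeal := by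
        rw [hg, ← pow_two]; exact (Ideal.span_singleton_le_iff_mem _).mpr h'
      rw [← Ideal.dvd_iff_le] at hle
      exact hv c (Ideal.le_of_dvd ((mul_dvd_mul_iff_left v.ne_bot).mp hle))
    push_cast at h1 h2
    omega
  · rw [Units.val_mk0, ord_eq_zero_iff_notMem v' hg0]
    intro h'
    rw [Set.Finite.coe_toFinset, Set.mem_ofPred_eq, not_exists] at hv'
    have hle : v.asIdeal * (J c : Ideal (𝓞 K)) ≤ v'.asIdeal := by
      rw [hg]; exact (Ideal.span_singleton_le_iff_mem _).mpr h'
    rcases v'.isPrime.mul_le.mp hle with h | h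
    · exact hne (HeightOneSpectrum.ext (v.isMaximal.eq_of_le v'.isPrime.ne_top h)).symm
    · exact hv' c h

/-- A finite generating set avoiding a given finite set of places. -/
lemma exists_gen_disjoint (B : Finset (Place K)) :
    ∃ S : Finset (Place K), Disjoint S B ∧ Gen (S : Set (Place K)) := by
  classical
  obtain ⟨S₀, h₀⟩ := exists_gen (K := K)
  have key : ∀ v, ∃ k : Kˣ, ord v (k : K) = 1 ∧ ∀ u ∈ B, u ≠ v → ord u (k : K) = 0 := by
    intro v
    obtain ⟨π, hπ⟩ := exists_ord_eq_one v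
    obtain ⟨y, hy⟩ := exists_units_approx (insert v B) (fun _ => 1)
      (fun u => if u = v then π else 1)
    have hord : ∀ u ∈ insert v B, ord u (y : K) =
        ord u (((if u = v then π else 1 : Kˣ)) : K) := by
      intro u hu
      have h := Valuation.map_one_add_of_lt (u.valuation K)
        ((hy u hu).trans_le (by rw [← exp_zero, exp_le_exp]; norm_num))
      rw [add_sub_cancel, valuation_eq_one_iff_ord u (Units.ne_zero _), Units.val_div_eq_div_val,
        ord_div u y.ne_zero (Units.ne_zero _), sub_eq_zero] at h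
      exact h
    refine ⟨y, ?_, fun u hu hne => ?_⟩
    · rw [hord v (Finset.mem_insert_self _ _), if_pos rfl, hπ]
    · rw [hord u (Finset.mem_insert_of_mem hu), if_neg hne, Units.val_one, ord_one]
  choose k hk hk' using key
  let S : Finset (Place K) := (S₀ ∪ B.biUnion fun v => (finite_ord_ne_zero (k v : K)).toFinset) \ B
  refine ⟨S, Finset.sdiff_disjoint, fun v hv => ?_⟩
  by_cases hvB : v ∈ B
  · refine ⟨k v, hk v, fun v' hv' hne => ?_⟩
    by_cases hB' : v' ∈ B
    · exact hk' v v' hB' hne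
    · by_contra h
      refine hv' (Finset.mem_sdiff.mpr ⟨Finset.mem_union_right _ ?_, hB'⟩)
      exact Finset.mem_biUnion.mpr ⟨v, hvB, (Set.Finite.mem_toFinset _).mpr h⟩
  · have hv₀ : v ∉ (S₀ : Set (Place K)) := fun h =>
      hv (Finset.mem_sdiff.mpr ⟨Finset.mem_union_left _ h, hvB⟩)
    obtain ⟨g, hg, hg'⟩ := h₀ v hv₀
    refine ⟨g / ∏ u ∈ B, k u ^ ord u (g : K), ?_, fun v' hv' hne => ?_⟩
    all_goals
      have hformula : ∀ w : Place K,
          ord w ((g / ∏ u ∈ B, k u ^ ord u (g : K) : Kˣ) : K) =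
            ord w (g : K) - ∑ u ∈ B, ord u (g : K) * ord w (k u : K) := by
        intro w
        rw [← ordHom_apply, ofMul_div, map_sub, ordHom_apply, ofMul_prod, map_sum]
        congr 1
        refine Finset.sum_congr rfl fun u _ => ?_
        rw [ordHom_apply, Units.val_zpow_eq_zpow_val, ord_zpow]
      rw [hformula]
    · rw [hg, Finset.sum_eq_zero, sub_zero]
      intro u hu
      have : ord v (k u : K) = 0 := by
        by_contra h
        exact hv (Finset.mem_sdiff.mpr ⟨Finset.mem_union_right _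
          (Finset.mem_biUnion.mpr ⟨u, hu, (Set.Finite.mem_toFinset _).mpr h⟩), hvB⟩)
      rw [this, mul_zero]
    · by_cases hB' : v' ∈ B
      · rw [Finset.sum_eq_single v' (fun u hu hue => by
          rw [hk' u v' hB' hue.symm, mul_zero]) (fun h => absurd hB' h), hk, mul_one, sub_self]
      · have hv₀' : v' ∉ (S₀ : Set (Place K)) := fun h =>
          hv' (Finset.mem_sdiff.mpr ⟨Finset.mem_union_left _ h, hB'⟩)
        rw [hg' v' hv₀' hne, Finset.sum_eq_zero, sub_zero]
        intro u hu
        have : ord v' (k u : K) = 0 := by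
          by_contra h
          exact hv' (Finset.mem_sdiff.mpr ⟨Finset.mem_union_right _
            (Finset.mem_biUnion.mpr ⟨u, hu, (Set.Finite.mem_toFinset _).mpr h⟩), hB'⟩)
        rw [this, mul_zero]

lemma rank_of_totallyComplex [IsTotallyComplex K] : 2 * (Units.rank K + 1) = finrank ℚ K := by
  have := Fintype.card_pos (α := InfinitePlace K)
  rw [Units.rank, Nat.sub_add_cancel this, IsTotallyComplex.finrank (K := K),
    InfinitePlace.card_eq_nrRealPlaces_add_nrComplexPlaces,
    IsTotallyComplex.nrRealPlaces_eq_zero, zero_add]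

end FLTAgent.Ext
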