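/-
S14 helper library: the first inequality for Kummer extensions, in the form: the local
invariants at non-split places are not jointly surjective on `Kˣ`.
-/
import Fermat.Agent.Ext.Norm
import Fermat.Agent.Ext.SUnits

set_option autoImplicit false
set_option linter.unusedSectionVars false

open IsDedekindDomain NumberField Module
open scoped NumberField

namespace FLTAgent.Ext

lemma isTotallyComplex_of_algebra (K F : Type*) [Field K] [Field F] [Algebra K F]
    [IsTotallyComplex K] : IsTotallyComplex F :=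
  ⟨fun _ => InfinitePlace.not_isReal_iff_isComplex.mp fun h =>
    InfinitePlace.not_isReal_iff_isComplex.mpr (IsTotallyComplex.isComplex _)
      (InfinitePlace.IsReal.comap (algebraMap K F) h)⟩

variable {K F : Type} [Field K] [Field F] [NumberField K] [NumberField F] [Algebra K F]
  {p : ℕ} [hp : Fact p.Prime] {ζ : K} {hζ : IsPrimitiveRoot ζ p} {x : Kˣ}

namespace KummerData

variable (D : KummerData hζ x F)

/-- The generator acting on multiplicative groups. -/
noncomputable def genUnits : Fˣ →* Fˣ := Units.map (D.gen : F →+* F).toMonoidHom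

/-- The generator acting on `S`-units upstairs. -/
noncomputable def genSUnits (S : Set (Place K)) :
    sUnits {w : Place F | below K w ∈ S} →* sUnits {w : Place F | below K w ∈ S} :=
  (D.genUnits.comp (sUnits {w : Place F | below K w ∈ S}).subtype).codRestrict _ fun z w hw => by
    have := D.galois
    show ord w (D.gen ((z : Fˣ) : F)) = 0
    rw [ord_apply_eq]
    exact z.2 _ (by simpa [below_conjPlace] using hw)

lemma genSUnits_iterate (S : Set (Place K)) (i : ℕ) (z : sUnits {w : Place F | below K w ∈ S}) :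
    ((((⇑(D.genSUnits S))^[i] z : sUnits _) : Fˣ) : F) = (D.gen ^ i) ((z : Fˣ) : F) := by
  induction i with
  | zero => rfl
  | succ i ih =>
    rw [Function.iterate_succ_apply', pow_succ', AlgEquiv.mul_apply, ← ih]; rfl

include D in
lemma ord_norm_eq_zero {S : Set (Place K)} {z : Fˣ}
    (hz : z ∈ sUnits {w : Place F | below K w ∈ S}) :
    normUnits K F z ∈ sUnits S := by
  have := D.galois
  intro v hv
  obtain ⟨w, rfl⟩ := exists_place_over (F := F) v
  have h := D.ord_norm w z.ne_zero
  rw [Finset.sum_eq_zero, mul_eq_zero] at h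
  · exact h.resolve_left (by exact_mod_cast (eIdx_pos w).ne')
  · intro i _
    rw [ord_apply_eq]
    exact hz _ (by simpa [below_conjPlace] using hv)

/-- Places with a single place above. -/
def NonSplit (v : Place K) : Prop := ∀ w : Place F, below K w = v → D.Fixed w

lemma nonSplit_iff {v : Place K} {w : Place F} (h : below K w = v) :
    D.NonSplit v ↔ D.Fixed w :=
  ⟨fun h' => h' w h, fun h' _ hw' => D.fixed_congr (hw'.trans h.symm) h'⟩

lemma not_nonSplit_of_mem_splitSub {v : Place K} (h : x ∈ splitSub hζ v) : ¬ D.NonSplit v := by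
  obtain ⟨w, rfl⟩ := exists_place_over (F := F) v
  exact fun h' => D.not_fixed_of_mem_splitSub h (h' w rfl)

include D in
lemma exists_norm_ord_eq {S : Set (Place K)} (hgen : Gen {w : Place F | below K w ∈ S})
    (hS : ∀ v ∉ S, x ∈ unrSub hζ v) (n : Place K → ℤ) (hn : {v | v ∉ S ∧ n v ≠ 0}.Finite)
    (hdvd : ∀ v ∉ S, D.NonSplit v → (p : ℤ) ∣ n v) :
    ∃ z : Fˣ, ∀ v ∉ S, ord v ((normUnits K F z : Kˣ) : K) = n v := by
  classical
  have := D.galois
  choose W hW using fun v : Place K => exists_place_over (F := F) v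
  let n' : Place F → ℤ := fun w =>
    if w = W (below K w) then
      (if D.NonSplit (below K w) then n (below K w) / p else n (below K w)) else 0
  have hn' : {w : Place F | w ∉ {w : Place F | below K w ∈ S} ∧ n' w ≠ 0}.Finite := by
    refine (hn.image W).subset fun w hw => ?_
    obtain ⟨h1, h2⟩ := hw
    by_cases hc : w = W (below K w)
    · refine ⟨below K w, ⟨h1, fun h0 => h2 ?_⟩, hc.symm⟩
      simp [n', h0]
    · exact absurd (by simp [n', hc]) h2
  obtain ⟨z, hz⟩ := hgen.exists_ord_eq n' hn'
  refine ⟨z, fun v hv => ?_⟩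
  have hbW : ∀ i : ℕ, below K (conjPlace (D.gen ^ i)⁻¹ (W v)) = v := fun i =>
    (below_conjPlace _ _).trans (hW v)
  have he : eIdx K (W v) = 1 := D.eIdx_eq_one_of_mem_unrSub (by rw [hW]; exact hS v hv)
  have h := D.ord_norm (W v) z.ne_zero
  rw [he, Nat.cast_one, one_mul, hW] at h
  rw [show ((normUnits K F z : Kˣ) : K) = Algebra.norm K (z : F) from rfl, h]
  have hterm : ∀ i : ℕ, ord (W v) ((D.gen ^ i) (z : F)) =
      n' (conjPlace (D.gen ^ i)⁻¹ (W v)) := fun i => by
    rw [ord_apply_eq]
    exact hz _ (show below K _ ∉ S by rw [hbW i]; exact hv)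
  rw [Finset.sum_congr rfl fun i _ => hterm i]
  by_cases hns : D.NonSplit v
  · have hfix : ∀ i, conjPlace (D.gen ^ i)⁻¹ (W v) = W v := fun i =>
      D.eq_of_fixed (hns _ (hW v)) ((below_conjPlace _ _))
    simp only [hfix, n', hW, if_true, if_pos hns, Finset.sum_const, Finset.card_range,
      nsmul_eq_mul]
    exact Int.mul_ediv_cancel' (hdvd v hv hns)
  · have hnf : ¬ D.Fixed (W v) := fun h' => hns ((D.nonSplit_iff (hW v)).mpr h')
    rw [Finset.sum_eq_single 0]
    · simp only [pow_zero, inv_one, conjPlace_one, n', hW, if_true, if_neg hns]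
    · intro i hi hi0
      have hne : conjPlace (D.gen ^ i)⁻¹ (W v) ≠ W v := fun heq =>
        hi0 (D.conj_inv_pow_injective hnf (Finset.mem_range.mp hi) hp.out.pos (by
          rw [heq, pow_zero, inv_one, conjPlace_one]))
      simp only [n', hbW i, if_neg hne]
    · intro h0; exact absurd (Finset.mem_range.mpr hp.out.pos) h0

lemma eq_algebraMap_units {z : Fˣ} (h : D.gen (z : F) = z) :
    ∃ c : Kˣ, unitsExt K F c = z := by
  obtain ⟨c, hc⟩ := eq_algebraMap_of_gen_fixed hζ D h
  have hc0 : c ≠ 0 := fun h0 => z.ne_zero (by rw [← hc, h0, map_zero])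
  exact ⟨Units.mk0 c hc0, Units.ext hc⟩

open Classical in
lemma exists_hilbert90 {S : Finset (Place K)} (hgenK : Gen (S : Set (Place K)))
    (hS : ∀ v ∉ S, x ∈ unrSub hζ v) {z : Fˣ}
    (hz : z ∈ sUnits {w : Place F | below K w ∈ (S : Set (Place K))})
    (hN : Algebra.norm K (z : F) = 1) :
    ∃ y : Fˣ, y ∈ sUnits {w : Place F | below K w ∈ (S : Set (Place K))} ∧
      D.gen (y : F) / y = z := by
  have := D.galois; have := D.finiteDimensional
  have hgen : ∀ τ : F ≃ₐ[K] F, τ ∈ Subgroup.zpowers D.gen := fun τ => by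
    obtain ⟨i, rfl⟩ := D.exists_pow_eq τ
    exact Subgroup.npow_mem_zpowers D.gen i
  have : IsCyclic (F ≃ₐ[K] F) := isCyclic_of_prime_card D.card_gal
  obtain ⟨y₀, hy₀⟩ := groupCohomology.exists_div_of_norm_eq_one hgen hN
  have hy₁ : D.gen ((y₀⁻¹ : Fˣ) : F) / ((y₀⁻¹ : Fˣ) : F) = z := by
    rw [Units.val_inv_eq_inv_val, map_inv₀, ← hy₀]
    simp [div_eq_mul_inv, mul_comm]
  set y₁ := y₀⁻¹
  choose W hW using fun v : Place K => exists_place_over (F := F) v
  have hinv : ∀ w : Place F, below K w ∉ S →
      ord w (D.gen (y₁ : F)) = ord w (y₁ : F) := by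
    intro w hw
    have h := congrArg (ord w) hy₁
    rw [ord_div w ((map_ne_zero_iff _ (AlgEquiv.injective _)).mpr y₁.ne_zero) y₁.ne_zero,
      hz w hw] at h
    omega
  have hconst : ∀ (i : ℕ) (w : Place F), below K w ∉ S →
      ord w ((D.gen ^ i) (y₁ : F)) = ord w (y₁ : F) := by
    intro i
    induction i with
    | zero => intro w _; rfl
    | succ i ih =>
      intro w hw
      rw [pow_succ', AlgEquiv.mul_apply, ord_apply_eq, ih _ (by rw [below_conjPlace]; exact hw),
        ← ord_apply_eq, hinv w hw]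
  have hfib : ∀ w : Place F, below K w ∉ S →
      ord w (y₁ : F) = ord (W (below K w)) (y₁ : F) := by
    intro w hw
    obtain ⟨τ, hτ⟩ := exists_conjPlace_eq (w := w) (w' := W (below K w)) (hW _).symm
    obtain ⟨i, hi⟩ := D.exists_pow_eq τ⁻¹
    have := hconst i w hw
    rw [ord_apply_eq, hi, inv_inv, hτ] at this
    exact this.symm
  obtain ⟨k, hk⟩ := hgenK.exists_ord_eq (fun v => ord (W v) (y₁ : F)) (by
    refine ((finite_ord_ne_zero (y₁ : F)).image (below K)).subset fun v hv => ?_
    exact ⟨W v, hv.2, hW v⟩)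
  refine ⟨y₁ / unitsExt K F k, fun w hw => ?_, ?_⟩
  · rw [Units.val_div_eq_div_val, ord_div w (Units.ne_zero _) (Units.ne_zero _)]
    show ord w (y₁ : F) - ord w (algebraMap K F k) = 0
    rw [ord_algebraMap', D.eIdx_eq_one_of_mem_unrSub (hS _ hw), hk _ hw, hfib w hw]
    simp
  · rw [← hy₁, Units.val_div_eq_div_val, map_div₀]
    show D.gen (y₁ : F) / D.gen (algebraMap K F k) / ((y₁ : F) / algebraMap K F k) = _
    rw [AlgEquiv.commutes, div_div_div_cancel_right₀]
    exact (map_ne_zero _).mpr k.ne_zero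

lemma card_places_upstairs (S : Finset (Place K)) :
    ∃ T : Finset (Place F), (T : Set (Place F)) = {w | below K w ∈ (S : Set (Place K))} ∧
      ∀ (ns : Finset (Place K)), (∀ v, v ∈ ns ↔ v ∈ S ∧ D.NonSplit v) →
        (T.card : ℤ) = ns.card + p * (S.card - ns.card) := by
  classical
  have := D.galois
  refine ⟨S.biUnion fun v => (finite_places_over (F := F) v).toFinset,
    by ext w; simp, fun ns hns => ?_⟩
  rw [Finset.card_biUnion]
  · push_cast
    have hsub : ns ⊆ S := fun v hv => ((hns v).mp hv).1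
    rw [← Finset.sum_sdiff hsub]
    have h1 : ∀ v ∈ ns, ((finite_places_over (F := F) v).toFinset.card : ℤ) = 1 := by
      intro v hv
      obtain ⟨w, rfl⟩ := exists_place_over (F := F) v
      rw [← Set.ncard_eq_toFinset_card _ (finite_places_over _),
        D.ncard_of_fixed (((hns _).mp hv).2 w rfl)]
      rfl
    have h2 : ∀ v ∈ S \ ns, ((finite_places_over (F := F) v).toFinset.card : ℤ) = p := by
      intro v hv
      obtain ⟨w, rfl⟩ := exists_place_over (F := F) v
      obtain ⟨hvS, hvn⟩ := Finset.mem_sdiff.mp hv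
      have hnf : ¬ D.Fixed w := fun h =>
        hvn ((hns _).mpr ⟨hvS, (D.nonSplit_iff rfl).mpr h⟩)
      rw [← Set.ncard_eq_toFinset_card _ (finite_places_over _), (D.not_fixed_spec hnf).1]
    rw [Finset.sum_congr rfl h1, Finset.sum_congr rfl h2]
    have := Finset.card_sdiff_add_card_eq_card hsub
    simp only [Finset.sum_const, nsmul_eq_mul, mul_one]
    rw [← this]
    push_cast
    ring
  · intro a _ b _ hab
    rw [Function.onFun, Finset.disjoint_left]
    intro w hwa hwb
    simp only [Set.Finite.mem_toFinset, Set.mem_ofPred_eq] at hwa hwb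
    exact hab (hwa.symm.trans hwb)

end KummerData

end FLTAgent.Ext
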