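/-
S14 helper library: existence of product formulas attached to Kummer extensions
(a form of the first inequality of class field theory).
-/
import Fermat.Agent.Ext.FirstInequality

set_option autoImplicit false
set_option linter.unusedSectionVars false

open IsDedekindDomain NumberField Module
open scoped NumberField

namespace FLTAgent.Ext

variable {K F : Type} [Field K] [Field F] [NumberField K] [NumberField F] [Algebra K F]
  {p : ℕ} [hp : Fact p.Prime] {ζ : K}

open Classical in
/-- The local coordinate at `v`: valuation at unramified places, `inv` at ramified ones. -/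
noncomputable def coord (hζ : IsPrimitiveRoot ζ p) (x : Kˣ) (v : Place K) :
    Additive Kˣ →+ ZMod p :=
  if x ∈ unrSub hζ v then (Int.castAddHom (ZMod p)).comp (ordHom v) else inv hζ x v

variable {hζ : IsPrimitiveRoot ζ p} {x : Kˣ}

lemma coord_of_mem {v : Place K} (h : x ∈ unrSub hζ v) (y : Kˣ) :
    coord hζ x v (Additive.ofMul y) = (ord v (y : K) : ZMod p) := by
  rw [coord, if_pos h]; rfl

lemma coord_eq_zero_of_mem_splitSub (hwild : ∀ v, x ∈ unrSub hζ v ∨ v.valuation K (p : K) = 1)
    {v : Place K} {y : Kˣ} (hy : y ∈ splitSub hζ v) :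
    coord hζ x v (Additive.ofMul y) = 0 := by
  by_cases h : x ∈ unrSub hζ v
  · rw [coord_of_mem h, ZMod.intCast_zmod_eq_zero_iff_dvd]
    exact dvd_ord_of_mem_splitSub hζ hy
  · rw [coord, if_neg h]
    exact inv_eq_zero_of_mem_splitSub ((hwild v).resolve_left h) hy

lemma coord_surjective (hwild : ∀ v, x ∈ unrSub hζ v ∨ v.valuation K (p : K) = 1) (v : Place K) :
    Function.Surjective (coord hζ x v) := by
  by_cases h : x ∈ unrSub hζ v
  · intro t
    obtain ⟨π, hπ⟩ := exists_ord_eq_one v
    have : NeZero p := ⟨hp.out.ne_zero⟩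
    refine ⟨t.val • Additive.ofMul π, ?_⟩
    rw [map_nsmul, coord_of_mem h, hπ, nsmul_eq_mul]
    simp
  · rw [coord, if_neg h]
    exact inv_surjective ((hwild v).resolve_left h) h

lemma finite_coord_ne_zero (x : Kˣ) (y : Additive Kˣ) :
    {v : Place K | coord hζ x v y ≠ 0}.Finite := by
  refine ((finite_not_unrSub hζ x).union
    (finite_ord_ne_zero ((Additive.toMul y : Kˣ) : K))).subset fun v hv => ?_
  by_cases h : x ∈ unrSub hζ v
  · right
    intro h0
    refine hv ?_
    rw [show y = Additive.ofMul (Additive.toMul y) from rfl, coord_of_mem h, h0, Int.cast_zero]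
  · left; exact h

/-- `(σ - 1) ^ (p - 1) ≡ 1 + σ + ⋯ + σ ^ (p - 1)` modulo `p`, as endomorphisms. -/
lemma exists_endomorphism_pow_eq {A : Type*} [AddCommGroup A] (p : ℕ) [Fact p.Prime]
    (σ : AddMonoid.End A) :
    ∃ Q : AddMonoid.End A, (∀ a, Q ((σ - 1 : AddMonoid.End A) a) = (σ - 1 : AddMonoid.End A) (Q a)) ∧
      ∀ a, (⇑(σ - 1 : AddMonoid.End A))^[p - 1] a =
        (∑ i ∈ Finset.range p, σ ^ i : AddMonoid.End A) a + p • Q a := by
  obtain ⟨Qp, hQp⟩ := exists_sub_one_pow_eq p
  refine ⟨Polynomial.aeval σ Qp, fun a => ?_, fun a => ?_⟩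
  · have h : Polynomial.aeval σ Qp * (σ - 1) = (σ - 1) * Polynomial.aeval σ Qp := by
      rw [show (σ - 1 : AddMonoid.End A) = Polynomial.aeval σ (Polynomial.X - 1 : Polynomial ℤ) by simp,
        ← map_mul, ← map_mul, mul_comm]
    exact DFunLike.congr_fun h a
  · rw [← AddMonoid.End.coe_pow]
    have h : (σ - 1) ^ (p - 1) =
        (∑ i ∈ Finset.range p, σ ^ i) + (p : AddMonoid.End A) * Polynomial.aeval σ Qp := by
      rw [show (σ - 1 : AddMonoid.End A) = Polynomial.aeval σ (Polynomial.X - 1 : Polynomial ℤ) by simp,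
        ← map_pow, hQp]
      simp
    rw [h]
    rfl

namespace KummerData

variable (D : KummerData hζ x F)

lemma coord_norm (hp2 : p ≠ 2) (hwild : ∀ v, x ∈ unrSub hζ v ∨ v.valuation K (p : K) = 1)
    {v : Place K} (hv : D.NonSplit v) (z : Fˣ) :
    coord hζ x v (Additive.ofMul (normUnits K F z)) = 0 := by
  by_cases h : x ∈ unrSub hζ v
  · obtain ⟨w, rfl⟩ := exists_place_over (F := F) v
    have h1 := D.ord_norm_fixed (hv w rfl) z.ne_zero
    rw [D.eIdx_eq_one_of_mem_unrSub h, Nat.cast_one, one_mul] at h1
    rw [coord_of_mem h, show ((normUnits K F z : Kˣ) : K) = Algebra.norm K (z : F) from rfl, h1]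
    simp
  · rw [coord, if_neg h]
    exact inv_norm D hp2 ((hwild v).resolve_left h) h z

open Classical in
/-- All coordinates at non-split places. -/
noncomputable def coords : Additive Kˣ →+ ({v : Place K // D.NonSplit v} →₀ ZMod p) :=
  AddMonoidHom.mk'
    (fun y => Finsupp.onFinset ((finite_coord_ne_zero (hζ := hζ) x y).toFinset.subtype D.NonSplit)
      (fun v => coord hζ x v.1 y) (fun v hv => by simpa using hv))
    (fun a b => by ext v; simp)

@[simp] lemma coords_apply (y : Additive Kˣ) (v : {v : Place K // D.NonSplit v}) :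
    D.coords y v = coord hζ x v.1 y := by
  classical
  simp [coords]

/-- The valuation vectors of the coordinates cannot be surjective. -/
theorem coords_not_surjective [IsTotallyComplex K] (hp2 : p ≠ 2)
    (hwild : ∀ v, x ∈ unrSub hζ v ∨ v.valuation K (p : K) = 1) :
    ¬ Function.Surjective D.coords := by
  classical
  intro hsurj
  have := D.galois; have := D.finiteDimensional
  have := isTotallyComplex_of_algebra K F
  obtain ⟨GK, hGK⟩ := exists_gen (K := K)
  obtain ⟨GF, hGF⟩ := exists_gen (K := F)
  set S : Finset (Place K) :=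
    (finite_not_unrSub hζ x).toFinset ∪ GK ∪ GF.image (below K) with hSdef
  have hS : ∀ v ∉ S, x ∈ unrSub hζ v := fun v hv => not_not.mp fun h => hv (by simp [hSdef, h])
  have hgenK : Gen (S : Set (Place K)) := hGK.mono fun v hv => by simp [hSdef, show v ∈ GK from hv]
  set SF : Set (Place F) := {w | below K w ∈ (S : Set (Place K))} with hSF
  have hgenF : Gen SF := hGF.mono fun w hw => by
    simp only [hSF, Set.mem_ofPred_eq, hSdef, Finset.coe_union, Finset.coe_image]
    exact Or.inr ⟨w, hw, rfl⟩
  set ns : Finset (Place K) := S.filter fun v => D.NonSplit v with hns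
  -- the coordinates on `S`-units
  let Θ : Additive (sUnits (S : Set (Place K))) →+ (ns → ZMod p) :=
    AddMonoidHom.pi fun v =>
      (coord hζ x v.1).comp (MonoidHom.toAdditive (sUnits (S : Set (Place K))).subtype)
  have hΘsurj : Function.Surjective Θ := by
    intro t
    have hns' : ∀ v : ns, D.NonSplit v.1 := fun v => (Finset.mem_filter.mp v.2).2
    obtain ⟨y, hy⟩ := hsurj (Finsupp.onFinset
      (ns.subtype D.NonSplit) (fun v => if h : v.1 ∈ ns then t ⟨v.1, h⟩ else 0)
      (fun v hv => by
        simp only [Finset.mem_subtype]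
        by_contra h
        exact hv (dif_neg h)))
    have hy' : ∀ v : {v : Place K // D.NonSplit v},
        coord hζ x v.1 y = if h : v.1 ∈ ns then t ⟨v.1, h⟩ else 0 := fun v => by
      rw [← D.coords_apply, hy, Finsupp.onFinset_apply]
    have hdvd : ∀ v ∉ (S : Set (Place K)), D.NonSplit v →
        (p : ℤ) ∣ ord v ((Additive.toMul y : Kˣ) : K) := by
      intro v hv hnv
      have h1 := hy' ⟨v, hnv⟩
      rw [dif_neg (fun h => hv (Finset.mem_filter.mp h).1)] at h1
      rw [show y = Additive.ofMul (Additive.toMul y) from rfl, coord_of_mem (hS v hv)] at h1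
      exact (ZMod.intCast_zmod_eq_zero_iff_dvd _ p).mp h1
    obtain ⟨z, hz⟩ := D.exists_norm_ord_eq hgenF hS
      (fun v => ord v ((Additive.toMul y : Kˣ) : K))
      ((finite_ord_ne_zero _).subset fun v hv => hv.2) hdvd
    refine ⟨Additive.ofMul ⟨Additive.toMul y / normUnits K F z, fun v hv => ?_⟩, funext fun v => ?_⟩
    · rw [Units.val_div_eq_div_val, ord_div v (Units.ne_zero _) (Units.ne_zero _), hz v hv,
        sub_self]
    · show coord hζ x v.1 (Additive.ofMul (Additive.toMul y / normUnits K F z)) = t v
      rw [ofMul_div, map_sub, D.coord_norm hp2 hwild (hns' v), sub_zero, ofMul_toMul]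
      exact (hy' ⟨v.1, hns' v⟩).trans (dif_pos v.2)
  -- the group upstairs
  obtain ⟨T, hT, hTcard⟩ := D.card_places_upstairs S
  have hTcard' := hTcard ns fun v => by simp [hns]
  have hAfin : Module.Finite ℤ (Additive (sUnits SF)) := by
    rw [hSF, ← hT]; infer_instance
  have hArank : finrank ℤ (Additive (sUnits SF)) = Units.rank F + T.card := by
    rw [hSF, ← hT]; exact finrank_sUnits T
  have hAtors : Nat.card (nsmulAddMonoidHom p : Additive (sUnits SF) →+ _).ker ≤ p := by
    rw [hSF, ← hT]; exact card_torsion_sUnits_le T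
  have hAFG : AddGroup.FG (Additive (sUnits SF)) := Module.Finite.iff_addGroup_fg.mp hAfin
  let nm : Additive (sUnits SF) →+ Additive (sUnits (S : Set (Place K))) :=
    MonoidHom.toAdditive (((normUnits K F).comp (sUnits SF).subtype).codRestrict _
      fun z => D.ord_norm_eq_zero z.2)
  let ι : Additive (sUnits (S : Set (Place K))) →+ Additive (sUnits SF) :=
    MonoidHom.toAdditive (((unitsExt K F).comp (sUnits (S : Set (Place K))).subtype).codRestrict _
      fun k w hw => by
        show ord w (algebraMap K F ((k : Kˣ) : K)) = 0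
        rw [ord_algebraMap', k.2 _ hw, mul_zero])
  let val : Additive (sUnits SF) → F := fun a => (((Additive.toMul a : sUnits SF) : Fˣ) : F)
  have hval : Function.Injective val := fun a b h =>
    Additive.toMul.injective (Subtype.ext (Units.ext h))
  have hval_add : ∀ a b, val (a + b) = val a * val b := fun a b => rfl
  have hιinj : Function.Injective ι := fun a b h =>
    Additive.toMul.injective (Subtype.ext (Units.ext ((algebraMap K F).injective
      (congrArg val h))))
  let σA : AddMonoid.End (Additive (sUnits SF)) := MonoidHom.toAdditive (D.genSUnits (S : Set (Place K)))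
  let Dl : AddMonoid.End (Additive (sUnits SF)) := σA - 1
  let Nm : AddMonoid.End (Additive (sUnits SF)) := ∑ i ∈ Finset.range p, σA ^ i
  have hσval : ∀ a (i : ℕ), val ((σA ^ i) a) = (D.gen ^ i) (val a) := by
    intro a i
    rw [AddMonoid.End.coe_pow]
    exact D.genSUnits_iterate _ i (Additive.toMul a)
  have hDval : ∀ a, val (Dl a) = D.gen (val a) / val a := by
    intro a
    rw [eq_div_iff (by exact Units.ne_zero _), ← hval_add]
    show val ((σA a - a) + a) = _
    rw [sub_add_cancel]
    have := hσval a 1
    rwa [pow_one, pow_one] at this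
  have hNval : ∀ a, val (Nm a) = algebraMap K F (Algebra.norm K (val a)) := by
    intro a
    rw [D.algebraMap_norm]
    show val ((∑ i ∈ Finset.range p, σA ^ i : AddMonoid.End _) a) = _
    rw [show (∑ i ∈ Finset.range p, σA ^ i : AddMonoid.End _) a =
      ∑ i ∈ Finset.range p, (σA ^ i) a from AddMonoidHom.finsetSum_apply _ _ _]
    rw [← Finset.prod_congr rfl fun i _ => hσval a i]
    induction Finset.range p using Finset.cons_induction with
    | empty => rfl
    | cons i s hi ih => rw [Finset.sum_cons, Finset.prod_cons, hval_add, ih]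
  have hNι : ∀ a, Nm a = ι (nm a) := fun a => hval ((hNval a).trans rfl)
  have hι_ker : AddMonoidHom.ker Dl = ι.range := by
    refine le_antisymm (fun a ha => ?_) ?_
    · have h1 : D.gen (val a) = val a := by
        have h2 := hDval a
        rw [show Dl a = 0 from ha] at h2
        exact ((div_eq_one_iff_eq (Units.ne_zero _)).mp h2.symm)
      obtain ⟨c, hc⟩ := D.eq_algebraMap_units (z := ((Additive.toMul a : sUnits SF) : Fˣ)) h1
      refine ⟨Additive.ofMul ⟨c, fun v hv => ?_⟩, hval (congrArg Units.val hc)⟩
      obtain ⟨w, rfl⟩ := exists_place_over (F := F) v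
      have h2 := (Additive.toMul a : sUnits SF).2 w hv
      rw [← hc, show ((unitsExt K F c : Fˣ) : F) = algebraMap K F c from rfl,
        ord_algebraMap', mul_eq_zero] at h2
      exact h2.resolve_left (by exact_mod_cast (eIdx_pos w).ne')
    · rintro _ ⟨k, rfl⟩
      refine hval ((hDval _).trans ?_)
      show D.gen (algebraMap K F _) / algebraMap K F _ = 1
      rw [AlgEquiv.commutes, div_self]
      exact (map_ne_zero _).mpr (Units.ne_zero _)
  have hrange : AddMonoidHom.ker Nm = AddMonoidHom.range Dl := by
    refine le_antisymm (fun a ha => ?_) ?_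
    · have h1 : Algebra.norm K (val a) = 1 := by
        apply (algebraMap K F).injective
        rw [← hNval, show Nm a = 0 from ha, map_one]; rfl
      obtain ⟨y, hy, hyz⟩ := D.exists_hilbert90 hgenK hS
        (z := ((Additive.toMul a : sUnits SF) : Fˣ)) (Additive.toMul a : sUnits SF).2 h1
      exact ⟨Additive.ofMul ⟨y, hy⟩, hval ((hDval _).trans hyz)⟩
    · rintro _ ⟨a, rfl⟩
      refine hval ((hNval _).trans ?_)
      refine (congrArg (fun z => algebraMap K F (Algebra.norm K z)) (hDval a)).trans ?_
      rw [div_eq_mul_inv, map_mul, Algebra.norm_inv,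
        show Algebra.norm K (D.gen (val a)) = Algebra.norm K (val a) from
          Algebra.norm_eq_of_algEquiv D.gen (val a), mul_inv_cancel₀, map_one]
      · rfl
      · exact Algebra.norm_ne_zero_iff.mpr (Units.ne_zero _)
  obtain ⟨Q, hQc, hpowD⟩ := exists_endomorphism_pow_eq p σA
  have hζval : ∀ h, val (Additive.ofMul ⟨Units.map (algebraMap K F).toMonoidHom
      (Units.mk0 ζ (hζ.ne_zero hp.out.ne_zero)), h⟩) = algebraMap K F ζ := fun _ => rfl
  let zF : Additive (sUnits SF) := Additive.ofMul
    ⟨Units.map (algebraMap K F).toMonoidHom (Units.mk0 ζ (hζ.ne_zero hp.out.ne_zero)),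
      root_mem_sUnits (p := p) D.zeta' SF⟩
  have hC : ∃ c ∈ AddMonoidHom.range Dl, c ≠ 0 ∧ p • c = 0 := by
    refine ⟨zF, ?_, fun h => ?_, hval ?_⟩
    · rw [← hrange]
      refine hval ((hNval _).trans ?_)
      rw [show val zF = algebraMap K F ζ from rfl, Algebra.norm_algebraMap, D.degree,
        hζ.pow_eq_one, map_one]
      rfl
    · have := congrArg val h
      exact D.zeta'.ne_one hp.out.one_lt this
    · show ((algebraMap K F).toMonoidHom ζ) ^ p = 1
      exact D.zeta'.pow_eq_one
  have hBtors : Nat.card (nsmulAddMonoidHom p :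
      AddMonoidHom.ker Dl →+ AddMonoidHom.ker Dl).ker ≤ p := by
    have : NeZero p := ⟨hp.out.ne_zero⟩
    have : Finite (nsmulAddMonoidHom p : Additive (sUnits SF) →+ _).ker := by
      refine Finite.of_injective (β := rootsOfUnity p F)
        (fun a => ⟨((Additive.toMul a.1 : sUnits SF) : Fˣ), ?_⟩) ?_
      · have h : ((Additive.toMul (p • a.1) : sUnits SF) : Fˣ) = 1 := by
          rw [show p • a.1 = 0 from a.2]; rfl
        exact h
      · exact fun a b h =>
          Subtype.ext (Additive.toMul.injective (Subtype.ext (congrArg Subtype.val h :)))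
    refine le_trans (Nat.card_le_card_of_injective (fun a =>
      (⟨a.1.1, congrArg Subtype.val (show p • a.1 = 0 from a.2)⟩ :
        (nsmulAddMonoidHom p : Additive (sUnits SF) →+ _).ker)) ?_) hAtors
    exact fun a b h => Subtype.ext (Subtype.ext (congrArg Subtype.val h :))
  obtain ⟨hne, hineq⟩ := herbrand_bound p Dl Nm Q hrange
    (fun a => (hι_ker ▸ ⟨nm a, (hNι a).symm⟩ : Nm a ∈ AddMonoidHom.ker Dl))
    (fun b hb => hval ((hNval b).trans (by
      obtain ⟨k, rfl⟩ := (hι_ker ▸ hb : b ∈ ι.range)
      rw [show val (ι k) = algebraMap K F (((Additive.toMul k : sUnits _) : Kˣ) : K) from rfl,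
        Algebra.norm_algebraMap, D.degree, map_pow]
      rfl)))
    hQc hpowD
    hBtors hC
  -- compare the index with the number of non-split places
  have hidx : nm.range.index = (AddMonoidHom.range Nm).relIndex (AddMonoidHom.ker Dl) := by
    have h1 : AddMonoidHom.range Nm = nm.range.map ι := by
      rw [AddMonoidHom.map_range]
      ext a
      simp only [AddMonoidHom.mem_range, AddMonoidHom.comp_apply]
      exact exists_congr fun b =>
        ⟨fun h => (hNι b).symm.trans h, fun h => (hNι b).trans h⟩
    rw [h1, hι_ker, AddMonoidHom.range_eq_map ι,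
      AddSubgroup.relIndex_map_map_of_injective _ _ hιinj, AddSubgroup.relIndex_top_right]
  have hle : nm.range ≤ Θ.ker := by
    rintro _ ⟨a, rfl⟩
    refine funext fun v => ?_
    exact D.coord_norm hp2 hwild (Finset.mem_filter.mp v.2).2 _
  have hker : Θ.ker.index = p ^ ns.card := by
    rw [AddSubgroup.index_ker, AddMonoidHom.range_eq_top.mpr hΘsurj]
    simp
  rw [← hidx] at hne hineq
  have hps : p ^ ns.card ≤ nm.range.index :=
    hker ▸ Nat.le_of_dvd (Nat.pos_of_ne_zero hne) (AddSubgroup.index_dvd_of_le hle)
  have hBrank : finrank ℤ (AddMonoidHom.ker Dl) = Units.rank K + S.card := by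
    rw [← finrank_sUnits S, hι_ker]
    exact ((AddMonoidHom.ofInjective hιinj).toIntLinearEquiv.finrank_eq).symm
  rw [hArank, hBrank] at hineq
  -- exponents
  have hrF : Units.rank F + 1 = p * (Units.rank K + 1) := by
    have h1 := rank_of_totallyComplex (K := F)
    rw [← Module.finrank_mul_finrank ℚ K F, D.degree, ← rank_of_totallyComplex (K := K)] at h1
    linarith
  have hnsle : ns.card ≤ S.card := Finset.card_filter_le _ _
  have h2 : (p ^ ns.card) ^ (p - 1) *
      p ^ (Units.rank F + T.card - (Units.rank K + S.card) + 1) ≤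
      p ^ ((p - 1) * (Units.rank K + S.card + 1)) :=
    le_trans (Nat.mul_le_mul_right _ (Nat.pow_le_pow_left hps _)) hineq
  rw [← pow_mul, ← pow_add, Nat.pow_le_pow_iff_right hp.out.one_lt] at h2
  obtain ⟨q, hq⟩ := Nat.exists_eq_add_of_le' hp.out.one_le
  obtain ⟨d, hd⟩ := Nat.exists_eq_add_of_le hnsle
  have hT2 : T.card = ns.card + p * d := by
    rw [hd] at hTcard'
    push_cast at hTcard'
    have : (T.card : ℤ) = ((ns.card + p * d : ℕ) : ℤ) := by push_cast; rw [hTcard']; ring
    exact_mod_cast this
  have hsub : Units.rank F + T.card - (Units.rank K + S.card) = q * (Units.rank K + 1) + q * d := by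
    subst hq
    rw [hT2, hd]
    apply Nat.sub_eq_of_eq_add
    linarith
  rw [hsub, show p - 1 = q by omega, hd] at h2
  linarith

end KummerData

/-- **Product formula existence.** For every non-`p`-th power `x`, unramified-or-tame everywhere,
there is a functional `φ` on places, vanishing where `x` is split, nonzero outside every finite
set, with `∑ φ v * ord v y = 0` for all `y` which are split at the ramified places. -/
theorem exists_productFormula [IsTotallyComplex K] (hp2 : p ≠ 2) (hx : x ∉ powSub K p)
    (hwild : ∀ v, x ∈ unrSub hζ v ∨ v.valuation K (p : K) = 1) :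
    ∃ φ : Place K → ZMod p,
      (∀ v, x ∈ splitSub hζ v → φ v = 0) ∧
      (∀ v, x ∉ unrSub hζ v → φ v = 0) ∧
      (∀ y : Kˣ, (∀ v, x ∉ unrSub hζ v → y ∈ splitSub hζ v) →
        ∑ᶠ v, φ v * (ord v (y : K) : ZMod p) = 0) ∧
      (∀ B : Finset (Place K), ∃ v ∉ B, φ v ≠ 0) := by
  classical
  obtain ⟨F, _, _, _, ⟨D⟩⟩ := exists_kummerData hζ hx
  have hns := D.coords_not_surjective hp2 hwild
  set W : Submodule (ZMod p) ({v : Place K // D.NonSplit v} →₀ ZMod p) :=
    AddSubgroup.toZModSubmodule p D.coords.range with hW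
  have hlt : W < ⊤ := by
    refine lt_top_iff_ne_top.mpr fun h => hns fun t => ?_
    have : t ∈ W := h ▸ Submodule.mem_top
    exact this
  obtain ⟨ψ, hψ0, hψ⟩ := Submodule.exists_le_ker_of_lt_top W hlt
  have hker : ∀ y, ψ (D.coords y) = 0 := fun y => hψ (show D.coords y ∈ W from ⟨y, rfl⟩)
  let φ : Place K → ZMod p := fun v =>
    if h : D.NonSplit v ∧ x ∈ unrSub hζ v then ψ (Finsupp.single ⟨v, h.1⟩ 1) else 0
  refine ⟨φ, fun v hv => dif_neg fun h => D.not_nonSplit_of_mem_splitSub hv h.1,
    fun v hv => dif_neg fun h => hv h.2, fun y hy => ?_, fun B => ?_⟩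
  · rw [← hker (Additive.ofMul y)]
    set f := D.coords (Additive.ofMul y) with hf
    have hfv : ∀ v : {v : Place K // D.NonSplit v}, f v * ψ (Finsupp.single v 1) =
        φ v.1 * (ord v.1 (y : K) : ZMod p) := by
      intro v
      by_cases h : x ∈ unrSub hζ v.1
      · rw [hf, D.coords_apply, coord_of_mem h]
        simp only [φ, dif_pos (And.intro v.2 h)]
        ring
      · rw [hf, D.coords_apply, coord_eq_zero_of_mem_splitSub hwild (hy v.1 h)]
        simp only [φ, dif_neg (fun h' : D.NonSplit v.1 ∧ x ∈ unrSub hζ v.1 => h h'.2)]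
        ring
    have hsum : ψ f = ∑ v ∈ f.support, f v * ψ (Finsupp.single v 1) := by
      conv_lhs => rw [← f.sum_single]
      rw [Finsupp.sum, map_sum]
      refine Finset.sum_congr rfl fun v _ => ?_
      rw [← Finsupp.smul_single_one, map_smul, smul_eq_mul]
    rw [hsum, finsum_eq_sum_of_support_subset _ (s := f.support.map (Function.Embedding.subtype _)),
      Finset.sum_map, Finset.sum_congr rfl fun v _ => hfv v]
    · rfl
    · intro v hv
      simp only [Function.mem_support] at hv
      have hn : D.NonSplit v := by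
        by_contra h
        exact hv (by simp only [φ, dif_neg (fun h' : _ ∧ _ => h h'.1), zero_mul])
      simp only [Finset.coe_map, Set.mem_image, Finset.mem_coe, Finsupp.mem_support_iff,
        Function.Embedding.coe_subtype]
      refine ⟨⟨v, hn⟩, fun h0 => hv ?_, rfl⟩
      have := hfv ⟨v, hn⟩
      rw [h0, zero_mul] at this
      exact this.symm
  · by_contra hcon
    push Not at hcon
    refine hψ0 (Finsupp.lhom_ext' fun v => LinearMap.ext_ring ?_)
    show ψ (Finsupp.single v 1) = 0
    set C : Finset (Place K) := insert v.1 (B ∪ (finite_not_unrSub hζ x).toFinset) with hC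
    have hout : ∀ u : {v : Place K // D.NonSplit v}, u.1 ∉ C → ψ (Finsupp.single u 1) = 0 := by
      intro u hu
      simp only [hC, Finset.mem_insert, Finset.mem_union, Set.Finite.mem_toFinset,
        Set.mem_ofPred_eq, not_or, not_not] at hu
      have := hcon u.1 hu.2.1
      simpa only [φ, dif_pos (And.intro u.2 hu.2.2)] using this
    choose k hk using fun u : Place K => exists_exp_neg_le (thr_pos hζ u)
    obtain ⟨g, hg⟩ := coord_surjective hwild v.1 1
    obtain ⟨y, hy⟩ := exists_units_approx C k
      (fun u => if u = v.1 then Additive.toMul g else 1)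
    have hcoord : ∀ u ∈ C, coord hζ x u (Additive.ofMul y) = if u = v.1 then 1 else 0 := by
      intro u hu
      have h1 : y / (if u = v.1 then Additive.toMul g else 1) ∈ near hζ u :=
        (hy u hu).trans (hk u)
      have h2 := coord_eq_zero_of_mem_splitSub hwild (near_le_splitSub hζ u h1)
      rw [ofMul_div, map_sub, sub_eq_zero] at h2
      rw [h2]
      split_ifs with h
      · subst h; rw [ofMul_toMul]; exact hg
      · exact map_zero _
    have h0 := hker (Additive.ofMul y)
    set f := D.coords (Additive.ofMul y) with hf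
    rw [← f.sum_single, Finsupp.sum, map_sum, Finset.sum_eq_single v] at h0
    · rw [hf, D.coords_apply, hcoord v.1 (Finset.mem_insert_self _ _), if_pos rfl] at h0
      exact h0
    · intro u _ hne
      by_cases hu : u.1 ∈ C
      · rw [hf, D.coords_apply, hcoord u.1 hu, if_neg (fun h => hne (Subtype.ext h)),
          Finsupp.single_zero, map_zero]
      · rw [← Finsupp.smul_single_one, map_smul, hout u hu, smul_zero]
    · intro hnm
      rw [Finsupp.notMem_support_iff.mp hnm, Finsupp.single_zero, map_zero]

end FLTAgent.Ext
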