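/-
S14 helper library: the second inequality in functional form.  For a finite generating set `S`
of places and two `S`-units, the functionals on places satisfying product formulas on elements
split at `S` and vanishing on a suitable auxiliary set `T` form a space of dimension `≤ 2`.
-/
import Fermat.Agent.Ext.ProductFormula

set_option autoImplicit false
set_option linter.unusedSectionVars false

open IsDedekindDomain NumberField Module
open scoped NumberField

namespace FLTAgent.Ext

variable {K : Type} [Field K] [NumberField K] {p : ℕ} [hp : Fact p.Prime] {ζ : K}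
  (hζ : IsPrimitiveRoot ζ p)

/-- `∑ φ v * ord v y` as a homomorphism in `y`. -/
noncomputable def pairing (φ : Place K → ZMod p) : Additive Kˣ →+ ZMod p :=
  AddMonoidHom.mk' (fun y => ∑ᶠ v, φ v * (ordHom v y : ZMod p)) fun a b => by
    have hf : ∀ z : Additive Kˣ,
        (Function.support fun v => φ v * (ordHom v z : ZMod p)).Finite := fun z =>
      (finite_ord_ne_zero ((Additive.toMul z : Kˣ) : K)).subset fun v hv h0 => hv (by
        show φ v * (ord v ((Additive.toMul z : Kˣ) : K) : ZMod p) = 0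
        rw [h0]; simp)
    rw [← finsum_add_distrib (hf a) (hf b)]
    exact finsum_congr fun v => by rw [map_add]; push_cast; ring

lemma pairing_apply (φ : Place K → ZMod p) (y : Kˣ) :
    pairing φ (Additive.ofMul y) = ∑ᶠ v, φ v * (ord v (y : K) : ZMod p) := rfl

lemma pairing_add (φ ψ : Place K → ZMod p) (y : Kˣ) :
    pairing (φ + ψ) (Additive.ofMul y) =
      pairing φ (Additive.ofMul y) + pairing ψ (Additive.ofMul y) := by
  have hf : ∀ χ : Place K → ZMod p,
      (Function.support fun v => χ v * (ord v (y : K) : ZMod p)).Finite := fun χ =>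
    (finite_ord_ne_zero (y : K)).subset fun v hv h0 => hv (by simp [h0])
  simp only [pairing_apply, Pi.add_apply, add_mul]
  exact finsum_add_distrib (hf φ) (hf ψ)

lemma pairing_smul (c : ZMod p) (φ : Place K → ZMod p) (y : Kˣ) :
    pairing (c • φ) (Additive.ofMul y) = c * pairing φ (Additive.ofMul y) := by
  simp only [pairing_apply, Pi.smul_apply, smul_eq_mul, mul_assoc]
  exact (mul_finsum' _ _ ((finite_ord_ne_zero (y : K)).subset fun v hv h0 => hv (by simp [h0]))).symm

lemma pairing_eq_single {φ : Place K → ZMod p} {y : Kˣ} (v : Place K)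
    (h : ∀ u, u ≠ v → φ u = 0 ∨ ord u (y : K) = 0) :
    pairing φ (Additive.ofMul y) = φ v * (ord v (y : K) : ZMod p) := by
  rw [pairing_apply]
  exact finsum_eq_single _ v fun u hu => by rcases h u hu with h | h <;> simp [h]

/-- Elements split at every place of `S`. -/
noncomputable def splitAll (S : Finset (Place K)) : Subgroup Kˣ := ⨅ v ∈ S, splitSub hζ v

lemma mem_splitAll {S : Finset (Place K)} {y : Kˣ} :
    y ∈ splitAll hζ S ↔ ∀ v ∈ S, y ∈ splitSub hζ v := by
  simp [splitAll, Subgroup.mem_iInf]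

lemma index_splitAll_le (S : Finset (Place K))
    (h0 : ∀ v ∈ S, (splitSub hζ v).index ≠ 0) :
    (splitAll hζ S).index ≤ ∏ v ∈ S, (splitSub hζ v).index ∧ (splitAll hζ S).index ≠ 0 := by
  classical
  induction S using Finset.induction_on with
  | empty =>
    rw [show splitAll hζ (∅ : Finset (Place K)) = ⊤ from
      eq_top_iff.mpr fun y _ => (mem_splitAll hζ).mpr (by simp)]
    simp
  | insert v S hv ih =>
    obtain ⟨h1, h2⟩ := ih fun u hu => h0 u (Finset.mem_insert_of_mem hu)
    have heq : splitAll hζ (insert v S) = splitSub hζ v ⊓ splitAll hζ S := by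
      ext y; simp [mem_splitAll]
    rw [heq, Finset.prod_insert hv]
    exact ⟨Subgroup.index_inf_le.trans (Nat.mul_le_mul_left _ h1),
      Subgroup.index_inf_ne_zero (h0 v (Finset.mem_insert_self _ _)) h2⟩

include hζ in
lemma relIndex_powSub_sUnits (S : Finset (Place K)) :
    (powSub K p).relIndex (sUnits (S : Set (Place K))) = p ^ (Units.rank K + S.card + 1) := by
  have : NeZero p := ⟨hp.out.ne_zero⟩
  have hfg : AddGroup.FG (Additive (sUnits (S : Set (Place K)))) :=
    Module.Finite.iff_addGroup_fg.mp inferInstance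
  have hcard : Nat.card (nsmulAddMonoidHom p :
      Additive (sUnits (S : Set (Place K))) →+ _).ker = p := by
    refine le_antisymm (card_torsion_sUnits_le S) ?_
    have hfin : Finite (nsmulAddMonoidHom p :
        Additive (sUnits (S : Set (Place K))) →+ _).ker := by
      refine Finite.of_injective (β := rootsOfUnity p K)
        (fun a => ⟨((Additive.toMul a.1 : sUnits (S : Set (Place K))) : Kˣ), ?_⟩) ?_
      · have h : ((Additive.toMul (p • a.1) : sUnits (S : Set (Place K))) : Kˣ) = 1 := by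
          rw [show p • a.1 = 0 from a.2]; rfl
        exact h
      · exact fun a b h =>
          Subtype.ext (Additive.toMul.injective (Subtype.ext (congrArg Subtype.val h :)))
    let ζu : Kˣ := Units.mk0 ζ (hζ.ne_zero hp.out.ne_zero)
    have hmem : ζu ∈ sUnits (S : Set (Place K)) :=
      root_mem_sUnits (p := p) (ζ := ζu) hζ _
    let c : (nsmulAddMonoidHom p : Additive (sUnits (S : Set (Place K))) →+ _).ker :=
      ⟨Additive.ofMul ⟨ζu, hmem⟩, Additive.toMul.injective (Subtype.ext (Units.ext hζ.pow_eq_one))⟩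
    have hord : addOrderOf c = p := by
      refine addOrderOf_eq_prime (Subtype.ext c.2) fun h => ?_
      exact hζ.ne_one hp.out.one_lt
        (congrArg (fun a => (((Additive.toMul a.1 : sUnits (S : Set (Place K))) : Kˣ) : K)) h :)
    calc p = addOrderOf c := hord.symm
      _ ≤ _ := Nat.le_of_dvd Nat.card_pos (addOrderOf_dvd_natCard c)
  have h := index_nsmul_range (A := Additive (sUnits (S : Set (Place K)))) p
  rw [hcard, finrank_sUnits, ← pow_succ] at h
  rw [← h, Subgroup.relIndex, ← Subgroup.index_toAddSubgroup]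
  congr 1
  ext a
  simp only [AddMonoidHom.mem_range, nsmulAddMonoidHom_apply]
  constructor
  · intro ha
    obtain ⟨y, hy⟩ := mem_powSub.mp (show ((Additive.toMul a : sUnits _) : Kˣ) ∈ powSub K p from ha)
    refine ⟨Additive.ofMul ⟨y, fun v hv => ?_⟩, Additive.toMul.injective (Subtype.ext hy)⟩
    have h1 := (Additive.toMul a : sUnits (S : Set (Place K))).2 v hv
    rw [← hy, Units.val_pow_eq_pow_val, ord_pow, mul_eq_zero] at h1
    exact h1.resolve_left (by exact_mod_cast hp.out.ne_zero)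
  · rintro ⟨b, rfl⟩
    exact mem_powSub.mpr ⟨((Additive.toMul b : sUnits _) : Kˣ), rfl⟩

lemma unr_of_mem_sUnits {S : Set (Place K)} {y : Kˣ} (hy : y ∈ sUnits S) {v : Place K}
    (hv : v ∉ S) (hvp : v.valuation K (p : K) = 1) : y ∈ unrSub hζ v :=
  mem_unrSub_of_dvd_ord hζ hvp (by rw [hy v hv]; exact dvd_zero _)

/-- Choice of the auxiliary set `T`. -/
lemma exists_auxiliary (S : Finset (Place K)) (L : List Kˣ) (hL : ∀ u ∈ L, u ∈ sUnits (S : Set (Place K)))
    (hp' : ∀ v ∉ S, v.valuation K (p : K) = 1) :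
    ∀ (n : ℕ) (W : Subgroup Kˣ), W ≤ sUnits (S : Set (Place K)) →
      Subgroup.closure {u | u ∈ L} ⊔ (powSub K p ⊓ sUnits (S : Set (Place K))) ≤ W →
      (Subgroup.closure {u | u ∈ L} ⊔ (powSub K p ⊓ sUnits (S : Set (Place K)))).relIndex W = n →
      n ≠ 0 →
      ∀ B : Finset (Place K), ∃ T : Finset (Place K), Disjoint T B ∧ Disjoint T S ∧
        (∀ t ∈ T, ∀ u ∈ L, u ∈ splitSub hζ t) ∧ n = p ^ T.card ∧
        ∀ k : Kˣ, (∀ t ∈ T, k ∈ unrSub hζ t) → ∃ c ∈ W, ∀ t ∈ T, k / c ∈ splitSub hζ t := by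
  classical
  set U₀ := Subgroup.closure {u | u ∈ L} ⊔ (powSub K p ⊓ sUnits (S : Set (Place K))) with hU₀
  intro n
  induction n using Nat.strong_induction_on with
  | _ n ih =>
    intro W hW hU hn hn0 B
    by_cases hWU : W ≤ U₀
    · refine ⟨∅, by simp, by simp, by simp, ?_, fun k _ => ⟨1, one_mem _, by simp⟩⟩
      rw [← hn, Subgroup.relIndex_eq_one.mpr hWU]; simp
    obtain ⟨x, hxW, hxU⟩ := SetLike.not_le_iff_exists.mp hWU
    have hx : x ∉ Subgroup.closure {u | u ∈ L} ⊔ powSub K p := by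
      intro h
      obtain ⟨l, hl, q, hq, rfl⟩ := Subgroup.mem_sup.mp h
      refine hxU (Subgroup.mul_mem_sup hl ⟨hq, ?_⟩)
      have hl' : l ∈ sUnits (S : Set (Place K)) :=
        (Subgroup.closure_le (K := sUnits (S : Set (Place K)))).mpr hL hl
      have hlq : l * q ∈ sUnits (S : Set (Place K)) := hW hxW
      have := (sUnits (S : Set (Place K))).mul_mem ((sUnits (S : Set (Place K))).inv_mem hl') hlq
      simpa using this
    obtain ⟨t, ht, htp, htL, htx⟩ := exists_place_prescribed hζ L hx (B ∪ S)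
    simp only [Finset.mem_union, not_or] at ht
    set W' := W ⊓ splitSub hζ t
    have hU' : U₀ ≤ W' := le_inf hU (sup_le ((Subgroup.closure_le _).mpr htL)
      (inf_le_left.trans (powSub_le_splitSub hζ t)))
    have hmul : U₀.relIndex W' * W'.relIndex W = n := by
      rw [← hn]; exact Subgroup.relIndex_mul_relIndex _ _ _ hU' inf_le_left
    have hne : W'.relIndex W ≠ 0 := fun h => hn0 (by rw [← hmul, h, mul_zero])
    have hunr : ∀ y ∈ sUnits (S : Set (Place K)), y ∈ unrSub hζ t := fun y hy =>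
      unr_of_mem_sUnits hζ hy ht.2 htp
    have hp1 : W'.relIndex W = p := by
      have : Finite (W ⧸ W'.subgroupOf W) := Nat.finite_of_card_ne_zero hne
      set q : W ⧸ W'.subgroupOf W := QuotientGroup.mk ⟨x, hxW⟩
      have hord : orderOf q = p := by
        refine orderOf_eq_prime ?_ fun h => htx ((QuotientGroup.eq_one_iff _).mp h).2
        rw [← QuotientGroup.mk_pow, QuotientGroup.eq_one_iff]
        exact ⟨pow_mem hxW p, powSub_le_splitSub hζ t (mem_powSub.mpr ⟨x, rfl⟩)⟩
      have htop : Subgroup.zpowers q = ⊤ := by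
        rw [eq_top_iff]
        rintro z -
        obtain ⟨⟨y, hy⟩, rfl⟩ := QuotientGroup.mk_surjective z
        obtain ⟨i, hi⟩ := exists_pow_mul_mem_splitSub hζ htp (hunr x (hW hxW)) (hunr y (hW hy)) htx
        refine ⟨(i : ℤ), ?_⟩
        show q ^ ((i : ℕ) : ℤ) = _
        rw [zpow_natCast, ← QuotientGroup.mk_pow, QuotientGroup.eq]
        refine ⟨W.mul_mem (W.inv_mem (W.pow_mem hxW i)) hy, ?_⟩
        show (x ^ i)⁻¹ * y ∈ splitSub hζ t
        rwa [inv_mul_eq_div]
      show (W'.subgroupOf W).index = p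
      rw [Subgroup.index, ← hord, ← Nat.card_zpowers, htop, Subgroup.card_top]
    rw [hp1] at hmul
    have hlt : U₀.relIndex W' < n := by
      rw [← hmul]
      have h0 : U₀.relIndex W' ≠ 0 := fun h => hn0 (by rw [← hmul, h, zero_mul])
      exact (Nat.lt_mul_iff_one_lt_right (Nat.pos_of_ne_zero h0)).mpr hp.out.one_lt
    obtain ⟨T, hTB, hTS, hTL, hTn, hTk⟩ := ih _ hlt W' (inf_le_left.trans hW) hU' rfl
      (fun h => hn0 (by rw [← hmul, h, zero_mul])) (insert t B)
    rw [Finset.disjoint_insert_right] at hTB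
    refine ⟨insert t T, Finset.disjoint_insert_left.mpr ⟨ht.1, hTB.2⟩,
      Finset.disjoint_insert_left.mpr ⟨ht.2, hTS⟩,
      Finset.forall_mem_insert .. |>.mpr ⟨htL, hTL⟩,
      by rw [Finset.card_insert_of_notMem hTB.1, pow_succ, ← hTn, hmul], fun k hk => ?_⟩
    obtain ⟨i, hi⟩ := exists_pow_mul_mem_splitSub hζ htp (hunr x (hW hxW))
      (hk t (Finset.mem_insert_self _ _)) htx
    obtain ⟨c, hc, hck⟩ := hTk (k / x ^ i) fun s hs => by
      have hxs : x ∈ unrSub hζ s := unr_of_mem_sUnits hζ (hW hxW)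
        (Finset.disjoint_left.mp hTS hs) (hp' s (Finset.disjoint_left.mp hTS hs))
      exact div_mem (hk s (Finset.mem_insert_of_mem hs)) (pow_mem hxs i)
    refine ⟨x ^ i * c, mul_mem (pow_mem hxW i) hc.1, fun s hs => ?_⟩
    rw [← div_div]
    rcases Finset.mem_insert.mp hs with rfl | hs
    · exact div_mem hi hc.2
    · exact hck s hs

lemma relIndex_closure_pair_le (S : Finset (Place K)) {a b : Kˣ}
    (ha : a ∈ sUnits (S : Set (Place K))) (hb : b ∈ sUnits (S : Set (Place K)))
    (hne : (powSub K p ⊓ sUnits (S : Set (Place K))).relIndex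
      (Subgroup.closure {u | u ∈ [a, b]} ⊔ (powSub K p ⊓ sUnits (S : Set (Place K)))) ≠ 0) :
    (powSub K p ⊓ sUnits (S : Set (Place K))).relIndex
      (Subgroup.closure {u | u ∈ [a, b]} ⊔ (powSub K p ⊓ sUnits (S : Set (Place K)))) ≤
      p ^ 2 := by
  set H := powSub K p ⊓ sUnits (S : Set (Place K))
  have hset : {u | u ∈ [a, b]} = ({a, b} : Set Kˣ) := by ext u; simp
  rw [hset] at hne ⊢
  set C := Subgroup.closure ({a, b} : Set Kˣ)
  have hC : C ≤ sUnits (S : Set (Place K)) :=
    (Subgroup.closure_le _).mpr (Set.insert_subset ha (Set.singleton_subset_iff.mpr hb))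
  have hpow : ∀ z ∈ C, z ^ p ∈ H := fun z hz =>
    ⟨mem_powSub.mpr ⟨z, rfl⟩, pow_mem (hC hz) p⟩
  rw [Subgroup.relIndex_sup_right] at hne ⊢
  have : Finite (C ⧸ H.subgroupOf C) := Nat.finite_of_card_ne_zero hne
  let f : Fin p × Fin p → C ⧸ H.subgroupOf C := fun ij =>
    QuotientGroup.mk (⟨a, Subgroup.subset_closure (Set.mem_insert _ _)⟩ ^ (ij.1 : ℕ) *
      ⟨b, Subgroup.subset_closure (Set.mem_insert_of_mem _ rfl)⟩ ^ (ij.2 : ℕ))
  have hf : Function.Surjective f := by
    intro z
    obtain ⟨⟨y, hy⟩, rfl⟩ := QuotientGroup.mk_surjective z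
    obtain ⟨i, j, hij⟩ := Subgroup.mem_closure_pair.mp hy
    have hp0 : (0 : ℤ) < p := by exact_mod_cast hp.out.pos
    have hi0 := Int.emod_nonneg i hp0.ne'
    have hj0 := Int.emod_nonneg j hp0.ne'
    have hi1 := Int.emod_lt_of_pos i hp0
    have hj1 := Int.emod_lt_of_pos j hp0
    refine ⟨(⟨(i % p).toNat, by omega⟩, ⟨(j % p).toNat, by omega⟩), ?_⟩
    simp only [f, QuotientGroup.eq, Subgroup.mem_subgroupOf, Subgroup.coe_mul, Subgroup.coe_inv,
      SubmonoidClass.coe_pow]
    rw [← hij, ← zpow_natCast a, ← zpow_natCast b, Int.toNat_of_nonneg hi0,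
      Int.toNat_of_nonneg hj0]
    have : (a ^ (i % (p : ℤ)) * b ^ (j % (p : ℤ)))⁻¹ * (a ^ i * b ^ j) =
        (a ^ (i / (p : ℤ)) * b ^ (j / (p : ℤ))) ^ p := by
      rw [← zpow_natCast (_ * _) p, mul_zpow, ← zpow_mul, ← zpow_mul, mul_inv, ← zpow_neg,
        ← zpow_neg, mul_mul_mul_comm, ← zpow_add, ← zpow_add]
      congr 2 <;> (rw [Int.emod_def]; ring)
    rw [this]
    exact hpow _ (C.mul_mem (C.zpow_mem (Subgroup.subset_closure (Set.mem_insert _ _)) _)
      (C.zpow_mem (Subgroup.subset_closure (Set.mem_insert_of_mem _ rfl)) _))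
  show (H.subgroupOf C).index ≤ _
  refine (Nat.card_le_card_of_surjective f hf).trans ?_
  simp [sq]

include hζ in
/-- An element of `K_{S ∪ T}` split at `S` is a `p`-th power. -/
lemma mem_powSub_of_split [IsTotallyComplex K] (hp2 : p ≠ 2) {S T : Finset (Place K)}
    (hgen : Gen (S : Set (Place K))) (hp' : ∀ v ∉ S, v.valuation K (p : K) = 1)
    (hlift : ∀ k : Kˣ, (∀ t ∈ T, k ∈ unrSub hζ t) →
      ∃ c ∈ sUnits (S : Set (Place K)), ∀ t ∈ T, k / c ∈ splitSub hζ t)
    (hTS : Disjoint T S) {x : Kˣ}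
    (hx : x ∈ sUnits ((S : Set (Place K)) ∪ (T : Set (Place K))))
    (hxS : x ∈ splitAll hζ S) : x ∈ powSub K p := by
  classical
  by_contra hnp
  have hwild : ∀ v, x ∈ unrSub hζ v ∨ v.valuation K (p : K) = 1 := fun v => by
    by_cases hv : v ∈ S
    · exact Or.inl (splitSub_le_unrSub hζ v ((mem_splitAll hζ).mp hxS v hv))
    · exact Or.inr (hp' v hv)
  obtain ⟨φ, hφ1, hφ2, hφ3, hφ4⟩ := exists_productFormula (hζ := hζ) hp2 hnp hwild
  obtain ⟨v, hv, hφv⟩ := hφ4 (S ∪ T)
  simp only [Finset.mem_union, not_or] at hv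
  obtain ⟨k, hk1, hk2⟩ := hgen v (by simpa using hv.1)
  have hTk : ∀ t ∈ T, ord t (k : K) = 0 := fun t ht =>
    hk2 t (by simpa using Finset.disjoint_left.mp hTS ht) fun h => hv.2 (h ▸ ht)
  obtain ⟨c, hc, hck⟩ := hlift k fun t ht =>
    mem_unrSub_of_dvd_ord hζ (hp' t (Finset.disjoint_left.mp hTS ht))
      (by rw [hTk t ht]; exact dvd_zero _)
  have hy : ∀ u, x ∉ unrSub hζ u → k / c ∈ splitSub hζ u := by
    intro u hu
    refine hck u ?_
    by_contra huT
    by_cases huS : u ∈ S
    · exact hu (splitSub_le_unrSub hζ u ((mem_splitAll hζ).mp hxS u huS))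
    · exact hu (unr_of_mem_sUnits hζ hx (by simp [huS, huT]) (hp' u huS))
  have hord : ∀ u ∉ S, ord u ((k / c : Kˣ) : K) = ord u (k : K) := fun u hu => by
    rw [Units.val_div_eq_div_val, ord_div u k.ne_zero c.ne_zero, hc u (by simpa using hu), sub_zero]
  have h0 := hφ3 (k / c) hy
  rw [← pairing_apply, pairing_eq_single v ?_, hord v hv.1, hk1, Int.cast_one, mul_one] at h0
  · exact hφv h0
  · intro u hu
    by_cases huS : u ∈ S
    · exact Or.inl (hφ1 u ((mem_splitAll hζ).mp hxS u huS))
    · exact Or.inr (by rw [hord u huS]; exact hk2 u (by simpa using huS) hu)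

/-- The functionals attached to `(S, T)`. -/
noncomputable def functionals (S T : Finset (Place K)) : Submodule (ZMod p) (Place K → ZMod p) where
  carrier := {φ | (∀ v ∈ S, φ v = 0) ∧ (∀ v ∈ T, φ v = 0) ∧
    ∀ y ∈ splitAll hζ S, pairing φ (Additive.ofMul y) = 0}
  zero_mem' := ⟨fun _ _ => rfl, fun _ _ => rfl, fun y _ => by simp [pairing_apply]⟩
  add_mem' := by
    rintro φ ψ ⟨h1, h2, h3⟩ ⟨g1, g2, g3⟩
    exact ⟨fun v hv => by simp [h1 v hv, g1 v hv], fun v hv => by simp [h2 v hv, g2 v hv],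
      fun y hy => by rw [pairing_add, h3 y hy, g3 y hy, add_zero]⟩
  smul_mem' := by
    rintro c φ ⟨h1, h2, h3⟩
    exact ⟨fun v hv => by simp [h1 v hv], fun v hv => by simp [h2 v hv],
      fun y hy => by rw [pairing_smul, h3 y hy, mul_zero]⟩

lemma mem_functionals {S T : Finset (Place K)} {φ : Place K → ZMod p} :
    φ ∈ functionals hζ S T ↔ (∀ v ∈ S, φ v = 0) ∧ (∀ v ∈ T, φ v = 0) ∧
      ∀ y ∈ splitAll hζ S, pairing φ (Additive.ofMul y) = 0 := Iff.rfl

/-- **Second inequality.** -/
theorem exists_finrank_functionals_le [IsTotallyComplex K] (hp2 : p ≠ 2) (S : Finset (Place K))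
    (hgen : Gen (S : Set (Place K))) (hp' : ∀ v ∉ S, v.valuation K (p : K) = 1)
    (hne : ∀ v ∈ S, (splitSub hζ v).index ≠ 0)
    (hidx : ∏ v ∈ S, (splitSub hζ v).index ≤ p ^ (2 * (Units.rank K + S.card + 1)))
    {a b : Kˣ} (ha : a ∈ sUnits (S : Set (Place K))) (hb : b ∈ sUnits (S : Set (Place K))) :
    ∃ T : Finset (Place K), Disjoint T S ∧ (∀ t ∈ T, a ∈ splitSub hζ t ∧ b ∈ splitSub hζ t) ∧
      Module.Finite (ZMod p) (functionals hζ S T) ∧
      finrank (ZMod p) (functionals hζ S T) ≤ 2 := by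
  classical
  have : NeZero p := ⟨hp.out.ne_zero⟩
  set n := Units.rank K + S.card + 1 with hn
  set sU := sUnits (S : Set (Place K))
  set H := powSub K p ⊓ sU
  set U₀ := Subgroup.closure {u | u ∈ [a, b]} ⊔ H
  have hL : ∀ u ∈ [a, b], u ∈ sU := by simp [ha, hb]
  have hU₀ : U₀ ≤ sU := sup_le ((Subgroup.closure_le _).mpr hL) inf_le_right
  have hH : H.relIndex sU = p ^ n := by
    rw [Subgroup.inf_relIndex_right]; exact relIndex_powSub_sUnits hζ S
  have hmul : H.relIndex U₀ * U₀.relIndex sU = p ^ n := by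
    rw [← hH]; exact Subgroup.relIndex_mul_relIndex _ _ _ le_sup_right hU₀
  have hne1 : U₀.relIndex sU ≠ 0 := fun h => by
    rw [h, mul_zero] at hmul; exact pow_ne_zero n hp.out.ne_zero hmul.symm
  have hne2 : H.relIndex U₀ ≠ 0 := fun h => by
    rw [h, zero_mul] at hmul; exact pow_ne_zero n hp.out.ne_zero hmul.symm
  obtain ⟨T, -, hTS, hTL, hTn, hTk⟩ :=
    exists_auxiliary hζ S [a, b] hL hp' _ sU le_rfl hU₀ rfl hne1 ∅
  have hT2 : n ≤ T.card + 2 := by
    have h2 : H.relIndex U₀ ≤ p ^ 2 := relIndex_closure_pair_le S ha hb hne2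
    have : p ^ n ≤ p ^ (T.card + 2) := by
      rw [← hmul, hTn, pow_add, mul_comm (p ^ T.card)]
      exact Nat.mul_le_mul_right _ h2
    exact (Nat.pow_le_pow_iff_right hp.out.one_lt).mp this
  refine ⟨T, hTS, fun t ht => ⟨hTL t ht a (by simp), hTL t ht b (by simp)⟩, ?_⟩
  -- the quotient through which all functionals factor
  set P := splitAll hζ S
  set U' := sUnits ((S : Set (Place K)) ∪ (T : Set (Place K))) with hU'
  set G := P ⊔ U'
  obtain ⟨hPle, hP0⟩ := index_splitAll_le hζ S hne
  have hPU : P.relIndex U' = p ^ (n + T.card) := by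
    have hPpow : P ⊓ U' = powSub K p ⊓ U' := by
      refine le_antisymm (fun y hy => ⟨mem_powSub_of_split hζ hp2 hgen hp'
        (fun k hk => hTk k hk) hTS hy.2 hy.1, hy.2⟩) (inf_le_inf_right _ fun y hy => ?_)
      exact (mem_splitAll hζ).mpr fun v _ => powSub_le_splitSub hζ v hy
    rw [← Subgroup.inf_relIndex_right, hPpow, Subgroup.inf_relIndex_right, hU', ← Finset.coe_union,
      relIndex_powSub_sUnits hζ, Finset.card_union_of_disjoint hTS.symm, hn]
    congr 1
    ring
  have hGmul : p ^ (n + T.card) * G.index = P.index := by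
    rw [← hPU, ← Subgroup.relIndex_sup_right (K := P) (H := U'), sup_comm U' P]
    exact Subgroup.relIndex_mul_index le_sup_left
  have hG0 : G.index ≠ 0 := fun h => hP0 (by rw [← hGmul, h, mul_zero])
  have hG2 : G.index ≤ p ^ 2 := by
    have h1 : p ^ (n + T.card) * G.index ≤ p ^ (n + T.card) * p ^ 2 := by
      rw [hGmul, ← pow_add]
      exact (hPle.trans hidx).trans (Nat.pow_le_pow_right hp.out.pos (by omega))
    exact Nat.le_of_mul_le_mul_left h1 (pow_pos hp.out.pos _)
  -- the dual
  let M := Additive (Kˣ ⧸ G)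
  have hM : ∀ m : M, p • m = 0 := by
    intro m
    obtain ⟨y, hy⟩ := QuotientGroup.mk_surjective (Additive.toMul m)
    refine Additive.toMul.injective ?_
    show Additive.toMul m ^ p = 1
    rw [← hy, ← QuotientGroup.mk_pow, QuotientGroup.eq_one_iff]
    exact Subgroup.mem_sup_left ((mem_splitAll hζ).mpr fun v _ =>
      powSub_le_splitSub hζ v (mem_powSub.mpr ⟨y, rfl⟩))
  letI : Module (ZMod p) M := @AddCommGroup.zmodModule p M _ hM
  have hMfin : Finite M := (Nat.finite_of_card_ne_zero hG0 : Finite (Kˣ ⧸ G))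
  have hMrank : finrank (ZMod p) M ≤ 2 := by
    have h : p ^ finrank (ZMod p) M = G.index := by
      have h1 := Module.natCard_eq_pow_finrank (K := ZMod p) (V := M)
      rw [Nat.card_zmod] at h1
      exact h1.symm
    exact (Nat.pow_le_pow_iff_right hp.out.one_lt).mp (h ▸ hG2)
  have hkill : ∀ φ ∈ functionals hζ S T, G.toAddSubgroup ≤ (pairing φ).ker := by
    rintro φ ⟨h1, h2, h3⟩ y hy
    have hle : G ≤ (AddMonoidHom.toMultiplicativeRight (pairing φ)).ker := by
      refine sup_le (fun z hz => h3 z hz) fun z hz => ?_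
      show pairing φ (Additive.ofMul z) = 0
      rw [pairing_apply]
      refine finsum_eq_zero_of_forall_eq_zero fun v => ?_
      by_cases hS : v ∈ S
      · rw [h1 v hS, zero_mul]
      by_cases hT : v ∈ T
      · rw [h2 v hT, zero_mul]
      · rw [hz v (by simp [hS, hT])]; simp
    exact hle hy
  let ev : functionals hζ S T →ₗ[ZMod p] (M →ₗ[ZMod p] ZMod p) :=
    { toFun := fun φ => ((MonoidHom.toAdditiveLeft (QuotientGroup.lift G
        (AddMonoidHom.toMultiplicativeRight (pairing φ.1)) (hkill φ.1 φ.2)))).toZModLinearMap p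
      map_add' := fun φ ψ => by
        ext m
        obtain ⟨y, hy⟩ := QuotientGroup.mk_surjective (Additive.toMul m)
        have hm : m = Additive.ofMul (QuotientGroup.mk y) := hy ▸ rfl
        subst hm
        exact pairing_add φ.1 ψ.1 y
      map_smul' := fun c φ => by
        ext m
        obtain ⟨y, hy⟩ := QuotientGroup.mk_surjective (Additive.toMul m)
        have hm : m = Additive.ofMul (QuotientGroup.mk y) := hy ▸ rfl
        subst hm
        exact pairing_smul c φ.1 y }
  have hinj : Function.Injective ev := by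
    rw [← LinearMap.ker_eq_bot, Submodule.eq_bot_iff]
    intro φ hφ
    refine Subtype.ext (funext fun v => ?_)
    by_cases hv : v ∈ S
    · exact φ.2.1 v hv
    obtain ⟨k, hk1, hk2⟩ := hgen v (by simpa using hv)
    have h0 : pairing φ.1 (Additive.ofMul k) = 0 :=
      LinearMap.congr_fun (LinearMap.mem_ker.mp hφ) (Additive.ofMul (QuotientGroup.mk k))
    rw [pairing_eq_single v, hk1, Int.cast_one, mul_one] at h0
    · exact h0
    · intro u hu
      by_cases huS : u ∈ S
      · exact Or.inl (φ.2.1 u huS)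
      · exact Or.inr (hk2 u (by simpa using huS) hu)
  have : Module.Finite (ZMod p) M := Module.Finite.of_finite
  refine ⟨Module.Finite.of_injective ev hinj, ?_⟩
  refine (LinearMap.finrank_le_finrank_of_injective hinj).trans ?_
  rw [show finrank (ZMod p) (M →ₗ[ZMod p] ZMod p) = finrank (ZMod p) M from
    Subspace.dual_finrank_eq]
  exact hMrank

end FLTAgent.Ext
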