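/-
S14 helper library: the functional `v ↦ log (N v)` modulo a rational prime `q` kills all elements
split at the places over `q`.
-/
import Fermat.Agent.Ext.GaussRadical
import Fermat.Agent.Ext.SecondInequality

set_option autoImplicit false
set_option linter.unusedSectionVars false

open IsDedekindDomain NumberField WithZero
open scoped NumberField

namespace FLTAgent.Ext

variable {K : Type} [Field K] [NumberField K] {p : ℕ} [hp : Fact p.Prime] {ζ : K}
  {q : ℕ} [hq : Fact q.Prime]

/-- `L (N v)` for a function `L` on `ZMod q`. -/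
noncomputable def logNorm (L : ZMod q → ZMod p) (v : Place K) : ZMod p :=
  L (Ideal.absNorm v.asIdeal : ℕ)

/-- Multiplicativity away from zero. -/
def IsLog (L : ZMod q → ZMod p) : Prop :=
  ∀ x y : ZMod q, x ≠ 0 → y ≠ 0 → L (x * y) = L x + L y

variable {L : ZMod q → ZMod p}

lemma IsLog.map_one (hL : IsLog L) : L 1 = 0 := by
  have h := hL 1 1 one_ne_zero one_ne_zero
  rw [mul_one] at h
  exact left_eq_add.mp h

lemma IsLog.map_neg (hL : IsLog L) (hp2 : p ≠ 2) {x : ZMod q} (hx : x ≠ 0) : L (-x) = L x := by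
  have h : L (-1) + L (-1) = 0 := by
    rw [← hL _ _ (neg_ne_zero.mpr one_ne_zero) (neg_ne_zero.mpr one_ne_zero), neg_one_mul, neg_neg,
      hL.map_one]
  have h2 : (2 : ZMod p) ≠ 0 := by
    rw [show (2 : ZMod p) = ((2 : ℕ) : ZMod p) by norm_num, Ne, ZMod.natCast_eq_zero_iff]
    exact fun h => hp2 ((Nat.prime_dvd_prime_iff_eq hp.out Nat.prime_two).mp h)
  rw [← two_mul, mul_eq_zero] at h
  rw [← neg_one_mul, hL _ _ (neg_ne_zero.mpr one_ne_zero) hx, h.resolve_left h2, zero_add]

lemma IsLog.map_pow (hL : IsLog L) {x : ZMod q} (hx : x ≠ 0) (n : ℕ) : L (x ^ n) = n * L x := by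
  induction n with
  | zero => simp [hL.map_one]
  | succ n ih => rw [pow_succ, hL _ _ (pow_ne_zero _ hx) hx, ih]; push_cast; ring

lemma IsLog.map_prod (hL : IsLog L) {ι : Type*} (s : Finset ι) (f : ι → ZMod q)
    (hf : ∀ i ∈ s, f i ≠ 0) : L (∏ i ∈ s, f i) = ∑ i ∈ s, L (f i) := by
  classical
  induction s using Finset.induction_on with
  | empty => simp [hL.map_one]
  | insert i s hi ih =>
    rw [Finset.prod_insert hi, Finset.sum_insert hi,
      hL _ _ (hf i (Finset.mem_insert_self _ _))
        (Finset.prod_ne_zero_iff.mpr fun j hj => hf j (Finset.mem_insert_of_mem hj)),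
      ih fun j hj => hf j (Finset.mem_insert_of_mem hj)]

lemma finite_overPrime : {u : Place K | OverPrime q u}.Finite :=
  (finite_ord_ne_zero (q : K)).subset fun u hu h => ne_of_lt hu
    ((valuation_eq_one_iff_ord u (Nat.cast_ne_zero.mpr hq.out.ne_zero)).mpr h)

lemma exists_overPrime : ∃ u : Place K, OverPrime q u := by
  have hne : Ideal.span {(q : 𝓞 K)} ≠ ⊤ := by
    intro h
    have h1 := congrArg Ideal.absNorm h
    rw [Ideal.absNorm_span_singleton, Ideal.absNorm_top,
      ← map_natCast (algebraMap ℤ (𝓞 K)), Algebra.norm_algebraMap, Int.natAbs_pow,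
      Int.natAbs_natCast, pow_eq_one_iff] at h1
    rcases h1 with h1 | h1
    · exact hq.out.one_lt.ne' h1
    · exact Module.finrank_pos.ne' h1
  obtain ⟨M, hM, hle⟩ := Ideal.exists_le_maximal _ hne
  have hbot : M ≠ ⊥ := fun h => by
    have h1 : (q : 𝓞 K) ∈ M := hle (Ideal.mem_span_singleton_self _)
    rw [h, Ideal.mem_bot, Nat.cast_eq_zero] at h1
    exact hq.out.ne_zero h1
  refine ⟨⟨M, hM.isPrime, hbot⟩, ?_⟩
  show (⟨M, hM.isPrime, hbot⟩ : Place K).valuation K (q : K) < 1
  rw [← map_natCast (algebraMap (𝓞 K) K), HeightOneSpectrum.valuation_lt_one_iff_mem]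
  exact hle (Ideal.mem_span_singleton_self _)

lemma absNorm_cast_ne_zero {v : Place K} (hv : ¬ OverPrime q v) :
    ((Ideal.absNorm v.asIdeal : ℕ) : ZMod q) ≠ 0 := by
  have := v.isMaximal
  let := Ideal.Quotient.field v.asIdeal
  let k := 𝓞 K ⧸ v.asIdeal
  have hfin : Finite k := Ideal.finiteQuotientOfFreeOfNeBot _ v.ne_bot
  let := Fintype.ofFinite k
  obtain ⟨ℓ, hℓ⟩ := CharP.exists k
  obtain ⟨n, hℓp, hn⟩ := FiniteField.card k ℓ
  have hN : Ideal.absNorm v.asIdeal = ℓ ^ (n : ℕ) := by
    rw [← hn, Fintype.card_eq_nat_card]; rfl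
  rw [hN, Nat.cast_pow]
  refine pow_ne_zero _ fun h => hv ?_
  rw [ZMod.natCast_eq_zero_iff, Nat.prime_dvd_prime_iff_eq hq.out hℓp] at h
  show v.valuation K (q : K) < 1
  rw [← map_natCast (algebraMap (𝓞 K) K), HeightOneSpectrum.valuation_lt_one_iff_mem,
    ← Ideal.Quotient.eq_zero_iff_mem, map_natCast, h]
  exact CharP.cast_eq_zero k ℓ

lemma valuation_prod_sub_one_lt {ι : Type*} (u : Place K) (s : Finset ι) (f : ι → K)
    (hf : ∀ i ∈ s, u.valuation K (f i - 1) < 1) :
    u.valuation K (∏ i ∈ s, f i - 1) < 1 := by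
  classical
  induction s using Finset.induction_on with
  | empty => simp
  | insert i s hi ih =>
    have h1 := hf i (Finset.mem_insert_self _ _)
    have h2 := ih fun j hj => hf j (Finset.mem_insert_of_mem hj)
    rw [Finset.prod_insert hi, show f i * ∏ j ∈ s, f j - 1 =
      f i * (∏ j ∈ s, f j - 1) + (f i - 1) by ring]
    refine Valuation.map_add_lt _ ?_ h1
    have h3 : u.valuation K (f i) = 1 := by
      simpa using Valuation.map_one_add_of_lt (u.valuation K) h1
    rwa [map_mul, h3, one_mul]

lemma natCast_absNorm_span [IsGalois ℚ K] {a : 𝓞 K}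
    (h : ∀ u : Place K, OverPrime q u → u.valuation K ((a : K) - 1) < 1) :
    ((Ideal.absNorm (Ideal.span {a}) : ℕ) : ZMod q) = 1 ∨
      ((Ideal.absNorm (Ideal.span {a}) : ℕ) : ZMod q) = -1 := by
  obtain ⟨u, hu⟩ := exists_overPrime (K := K) (q := q)
  have hconj : ∀ σ : Gal(K/ℚ), u.valuation K (σ (a : K) - 1) < 1 := by
    intro σ
    rw [show σ (a : K) - 1 = σ ((a : K) - 1) by simp, valuation_apply_eq σ u]
    refine h _ ?_
    show (conjPlace σ⁻¹ u).valuation K (q : K) < 1
    rw [← valuation_apply_eq σ u, map_natCast σ]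
    exact hu
  have h1 := valuation_prod_sub_one_lt u Finset.univ (fun σ : Gal(K/ℚ) => σ (a : K))
    fun σ _ => hconj σ
  rw [← Algebra.norm_eq_prod_automorphisms, ← Algebra.coe_norm_int, map_intCast, ← Int.cast_one,
    ← Int.cast_sub, valuation_intCast_lt_one_iff hu, Int.cast_sub, Int.cast_one, sub_eq_zero] at h1
  rw [Ideal.absNorm_span_singleton]
  rcases Int.natAbs_eq (Algebra.norm ℤ a) with h2 | h2
  · left
    rw [h2, Int.cast_natCast] at h1
    exact h1
  · right
    rw [h2, Int.cast_neg, Int.cast_natCast, neg_eq_iff_eq_neg] at h1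
    exact h1

lemma pairing_logNorm_integral [IsGalois ℚ K] (hp2 : p ≠ 2) (hL : IsLog L) {a : 𝓞 K} (ha : a ≠ 0)
    (h : ∀ u : Place K, OverPrime q u → u.valuation K ((a : K) - 1) < 1) :
    pairing (logNorm L) (Additive.ofMul (Units.mk0 (a : K)
      (RingOfIntegers.coe_ne_zero_iff.mpr ha))) = 0 := by
  classical
  set F := (finite_ord_ne_zero (a : K)).toFinset with hF
  set n : Place K → ℕ := fun v => (ord v (a : K)).toNat
  have hmax : ∀ v : Place K, v.maxPowDividing (Ideal.span {a}) = v.asIdeal ^ n v := by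
    intro v
    unfold HeightOneSpectrum.maxPowDividing
    congr 1
    simp only [n, ord, show (a : K) = algebraMap (𝓞 K) K a from rfl,
      HeightOneSpectrum.valuation_of_algebraMap, HeightOneSpectrum.intValuation_if_neg _ ha,
      log_exp, neg_neg, Int.toNat_natCast]
  have hspan : Ideal.span {a} = ∏ v ∈ F, v.asIdeal ^ n v := by
    conv_lhs => rw [← Ideal.finprod_heightOneSpectrum_factorization
      (show Ideal.span {a} ≠ ⊥ by simpa using ha)]
    simp only [hmax]
    refine finprod_eq_prod_of_mulSupport_subset _ fun v hv => ?_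
    rw [hF, Set.Finite.coe_toFinset]
    intro h0
    exact hv (by simp [n, h0])
  have hnz : ∀ v ∈ F, ((Ideal.absNorm v.asIdeal : ℕ) : ZMod q) ≠ 0 := by
    intro v hv
    refine absNorm_cast_ne_zero fun hov => ?_
    rw [hF, Set.Finite.mem_toFinset] at hv
    apply hv
    rw [← valuation_eq_one_iff_ord v (RingOfIntegers.coe_ne_zero_iff.mpr ha)]
    simpa using Valuation.map_one_add_of_lt (v.valuation K) (h v hov)
  have hsum : pairing (logNorm L) (Additive.ofMul (Units.mk0 (a : K)
      (RingOfIntegers.coe_ne_zero_iff.mpr ha))) =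
        L ((Ideal.absNorm (Ideal.span {a}) : ℕ) : ZMod q) := by
    rw [hspan, map_prod, Nat.cast_prod,
      hL.map_prod _ _ fun v hv => by rw [_root_.map_pow, Nat.cast_pow]; exact pow_ne_zero _ (hnz v hv),
      pairing_apply, finsum_eq_sum_of_support_subset]
    · refine Finset.sum_congr rfl fun v hv => ?_
      rw [_root_.map_pow, Nat.cast_pow, hL.map_pow (hnz v hv), mul_comm, Units.val_mk0]
      congr 1
      rw [show ord v (a : K) = (n v : ℤ) from
        (Int.toNat_of_nonneg (ord_algebraMap_nonneg v a)).symm, Int.cast_natCast]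
    · intro v hv
      rw [hF, Set.Finite.coe_toFinset]
      intro h0
      exact hv (by simp [h0])
  rw [hsum]
  rcases natCast_absNorm_span (K := K) h with h1 | h1 <;> rw [h1]
  · exact hL.map_one
  · rw [hL.map_neg hp2 one_ne_zero, hL.map_one]

lemma pairing_logNorm_near [IsGalois ℚ K] (hp2 : p ≠ 2) (hL : IsLog L) {y : Kˣ}
    (h : ∀ u : Place K, OverPrime q u → u.valuation K ((y : K) - 1) < 1) :
    pairing (logNorm L) (Additive.ofMul y) = 0 := by
  classical
  have h1 : ∀ u : Place K, OverPrime q u → u.valuation K (y : K) = 1 := fun u hu => by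
    simpa using Valuation.map_one_add_of_lt (u.valuation K) (h u hu)
  set s := (finite_overPrime (K := K) (q := q)).toFinset ∪ (finite_ord_ne_zero (y : K)).toFinset
  let e : Place K → ℕ := fun v => if OverPrime q v then 1 else (-ord v (y : K)).toNat
  obtain ⟨b, hb⟩ := IsDedekindDomain.exists_forall_sub_mem_ideal (R := 𝓞 K) (s := s)
    (fun v => v.asIdeal) e (fun v _ => v.prime)
    (fun v _ w _ hvw h => hvw (HeightOneSpectrum.ext h))
    (fun v => if OverPrime q v.1 then 1 else 0)
  have hbq : ∀ u : Place K, OverPrime q u → u.valuation K ((b : K) - 1) < 1 := by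
    intro u hu
    have h2 := hb u (Finset.mem_union_left _ ((Set.Finite.mem_toFinset _).mpr hu))
    simp only [e, if_pos hu, pow_one] at h2
    rw [← u.valuation_lt_one_iff_mem (K := K)] at h2
    simpa using h2
  have hb0 : b ≠ 0 := by
    rintro rfl
    obtain ⟨u, hu⟩ := exists_overPrime (K := K) (q := q)
    simpa using hbq u hu
  have hbK : (b : K) ≠ 0 := RingOfIntegers.coe_ne_zero_iff.mpr hb0
  obtain ⟨a, ha⟩ := HeightOneSpectrum.mem_integers_of_valuation_le_one (R := 𝓞 K) K
    ((b : K) * y) fun v => by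
      by_cases hv : OverPrime q v
      · rw [map_mul, h1 v hv, mul_one]; exact valuation_coe_le_one v b
      · rcases le_or_gt 0 (ord v (y : K)) with h2 | h2
        · rw [map_mul]
          exact mul_le_one' (valuation_coe_le_one v b)
            ((valuation_le_one_iff_ord v y.ne_zero).mpr h2)
        · have h3 := hb v (Finset.mem_union_right _ ((Set.Finite.mem_toFinset _).mpr h2.ne))
          simp only [e, if_neg hv, sub_zero] at h3
          rw [← valuation_le_exp_iff_mem] at h3
          rw [map_mul]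
          refine le_trans (mul_le_mul_left h3 _) ?_
          rw [valuation_eq_exp_ord v y.ne_zero, ← exp_add, ← exp_zero, exp_le_exp]
          omega
  have ha' : (a : K) = (b : K) * (y : K) := ha
  have haq : ∀ u : Place K, OverPrime q u → u.valuation K ((a : K) - 1) < 1 := by
    intro u hu
    rw [ha', show (b : K) * (y : K) - 1 = (b : K) * ((y : K) - 1) + ((b : K) - 1) by ring]
    refine Valuation.map_add_lt _ ?_ (hbq u hu)
    rw [map_mul]
    exact (mul_le_of_le_one_left' (valuation_coe_le_one u b)).trans_lt (h u hu)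
  have ha0 : a ≠ 0 := by
    rintro rfl
    simp [hbK] at ha'
  have hy : y = Units.mk0 (a : K) (RingOfIntegers.coe_ne_zero_iff.mpr ha0) / Units.mk0 (b : K) hbK := by
    ext
    rw [Units.val_div_eq_div_val, Units.val_mk0, Units.val_mk0, ha']
    field_simp
  rw [hy, ofMul_div, map_sub, pairing_logNorm_integral hp2 hL ha0 haq,
    pairing_logNorm_integral hp2 hL hb0 hbq, sub_self]

/-- The functional `v ↦ L (N v)` kills the elements split at all places over `q`. -/
theorem pairing_logNorm_eq_zero [IsGalois ℚ K] (hp2 : p ≠ 2) (hqp : q ≠ p)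
    (hζ : IsPrimitiveRoot ζ p) (hL : IsLog L) {y : Kˣ}
    (h : ∀ u : Place K, OverPrime q u → y ∈ splitSub hζ u) :
    pairing (logNorm L) (Additive.ofMul y) = 0 := by
  classical
  have hz : ∀ u : Place K, ∃ z : Kˣ, OverPrime q u → y / z ^ p ∈ near hζ u := fun u => by
    by_cases hu : OverPrime q u
    · obtain ⟨z, hz⟩ := (mem_splitSub hζ).mp (h u hu)
      exact ⟨z, fun _ => hz⟩
    · exact ⟨1, fun h => absurd h hu⟩
  choose z hz using hz
  obtain ⟨w, hw⟩ := exists_units_approx (finite_overPrime (K := K) (q := q)).toFinset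
    (fun _ => 0) z
  have hnear : ∀ u : Place K, OverPrime q u →
      u.valuation K (((y / w ^ p : Kˣ) : K) - 1) < 1 := by
    intro u hu
    have hthr := thr_eq_one hζ (valuation_p_eq_one_of_overPrime (p := p) hu hqp)
    have h1 : w / z u ∈ near hζ u := by
      show _ < thr hζ u
      rw [hthr]
      simpa using hw u ((Set.Finite.mem_toFinset _).mpr hu)
    have h2 : y / w ^ p ∈ near hζ u := by
      have := div_mem (hz u hu) (pow_mem h1 p)
      rwa [div_pow, div_div_div_cancel_right] at this
    have h3 : _ < thr hζ u := h2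
    rwa [hthr] at h3
  have h4 := pairing_logNorm_near hp2 hL hnear
  rw [ofMul_div, map_sub, ofMul_pow, map_nsmul, nsmul_eq_mul, ZMod.natCast_self, zero_mul,
    sub_zero] at h4
  exact h4

end FLTAgent.Ext
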