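/-
S14 helper library: the auxiliary radicals attached to rational primes `q ≡ 1 mod p`, and basic
facts about the Kummer setting.
-/
import Fermat.Agent.Ext.Reciprocity

set_option autoImplicit false
set_option linter.unusedSectionVars false

open IsDedekindDomain NumberField Module WithZero
open scoped NumberField

namespace FLTAgent.Ext

variable {K : Type} [Field K] [NumberField K] {p : ℕ} [hp : Fact p.Prime] {ζ : K}

lemma exists_prime_over (v : Place K) : ∃ ℓ : ℕ, ℓ.Prime ∧ OverPrime ℓ v ∧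
    ∃ f : ℕ, 0 < f ∧ Ideal.absNorm v.asIdeal = ℓ ^ f := by
  have := v.isMaximal
  let := Ideal.Quotient.field v.asIdeal
  let k := 𝓞 K ⧸ v.asIdeal
  have hfin : Finite k := Ideal.finiteQuotientOfFreeOfNeBot _ v.ne_bot
  let := Fintype.ofFinite k
  obtain ⟨ℓ, hℓ⟩ := CharP.exists k
  obtain ⟨n, hℓp, hn⟩ := FiniteField.card k ℓ
  refine ⟨ℓ, hℓp, ?_, n, n.pos, by rw [← hn, Fintype.card_eq_nat_card]; rfl⟩
  show v.valuation K (ℓ : K) < 1
  rw [← map_natCast (algebraMap (𝓞 K) K), HeightOneSpectrum.valuation_lt_one_iff_mem,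
    ← Ideal.Quotient.eq_zero_iff_mem, map_natCast]
  exact CharP.cast_eq_zero k ℓ

lemma eq_of_overPrime {q ℓ : ℕ} [hq : Fact q.Prime] (hℓ : ℓ.Prime) {v : Place K}
    (h1 : OverPrime q v) (h2 : OverPrime ℓ v) : q = ℓ := by
  have h : v.valuation K ((ℓ : ℤ) : K) < 1 := by rw [Int.cast_natCast]; exact h2
  rw [valuation_intCast_lt_one_iff h1, Int.cast_natCast, ZMod.natCast_eq_zero_iff,
    Nat.prime_dvd_prime_iff_eq hq.out hℓ] at h
  exact h

/-- `f * e ≤ [K : ℚ]`. -/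
lemma mul_ord_prime_le {ℓ f : ℕ} (hℓ : ℓ.Prime) {v : Place K}
    (hN : Ideal.absNorm v.asIdeal = ℓ ^ f) :
    f * (ord v (ℓ : K)).toNat ≤ finrank ℚ K := by
  set e := (ord v (ℓ : K)).toNat
  have hmem : (ℓ : 𝓞 K) ∈ v.asIdeal ^ e := by
    rw [← valuation_le_exp_iff_mem, show ((ℓ : 𝓞 K) : K) = (ℓ : K) by norm_num,
      valuation_eq_exp_ord v (Nat.cast_ne_zero.mpr hℓ.ne_zero), exp_le_exp]
    have h1 : 0 ≤ ord v (ℓ : K) :=
      (valuation_le_one_iff_ord v (Nat.cast_ne_zero.mpr hℓ.ne_zero)).mp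
        (valuation_natCast_le_one v ℓ)
    omega
  have hdvd := Ideal.absNorm_dvd_norm_of_mem hmem
  rw [map_pow, hN, ← pow_mul, ← map_natCast (algebraMap ℤ (𝓞 K)), Algebra.norm_algebraMap] at hdvd
  have hdvd' : ℓ ^ (f * e) ∣ ℓ ^ finrank ℤ (𝓞 K) := by
    rw [← Int.natCast_dvd_natCast]; push_cast; exact hdvd
  rw [Nat.pow_dvd_pow_iff_le_right hℓ.one_lt, RingOfIntegers.rank] at hdvd'
  exact hdvd'

lemma ord_prime_pos {ℓ : ℕ} (hℓ : ℓ.Prime) {v : Place K} (h : OverPrime ℓ v) :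
    0 < ord v (ℓ : K) :=
  (valuation_lt_one_iff_ord v (Nat.cast_ne_zero.mpr hℓ.ne_zero)).mp h

variable (hζ : IsPrimitiveRoot ζ p)

/-- The Kummer setting: `K` has a single place over `p`, and `x` is an everywhere unramified
nontrivial radical. -/
structure Setting (v₀ : Place K) (x : Kˣ) : Prop where
  two : p ≠ 2
  val_p : ∀ v, v ≠ v₀ → v.valuation K (p : K) = 1
  above : v₀.valuation K (p : K) < 1
  norm₀ : Ideal.absNorm v₀.asIdeal = p
  val₀ : v₀.valuation K (ζ - 1) = exp (-1 : ℤ)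
  deg : finrank ℚ K = p - 1
  notPow : x ∉ powSub K p
  dvd_ord : ∀ v, v ≠ v₀ → (p : ℤ) ∣ ord v (x : K)
  unr₀ : x ∈ unrSub hζ v₀

/-- The data attached to an auxiliary prime `q`. -/
structure Aux (v₀ : Place K) (q : ℕ) [Fact q.Prime] where
  b : Kˣ
  log : ZMod q → ZMod p
  isLog : IsLog log
  ne_p : q ≠ p
  ord_b : ∀ v, ¬ OverPrime q v → ord v (b : K) = 0
  ord_b_ne : ∃ u, OverPrime q u ∧ ¬ (p : ℤ) ∣ ord u (b : K)
  unr_b : b ∈ unrSub hζ v₀
  sym_b : ∀ v, ¬ OverPrime q v → v ≠ v₀ →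
    sym hζ v (Additive.ofMul b) = -logNorm log v

variable {hζ} {v₀ : Place K} {x : Kˣ}

lemma Setting.natNorm_notMem_powSub (hs : Setting hζ v₀ x) {ℓ f : ℕ} (hℓ : ℓ.Prime) (hf : 0 < f)
    {v : Place K} (hv : OverPrime ℓ v) (hN : Ideal.absNorm v.asIdeal = ℓ ^ f) :
    Units.mk0 ((ℓ ^ f : ℕ) : K) (Nat.cast_ne_zero.mpr (pow_ne_zero _ hℓ.ne_zero)) ∉ powSub K p := by
  intro h
  obtain ⟨y, hy⟩ := mem_powSub.mp h
  have h1 := congrArg (fun z : Kˣ => ord v (z : K)) hy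
  simp only [Units.val_pow_eq_pow_val, ord_pow, Units.val_mk0, Nat.cast_pow] at h1
  have h2 : (p : ℤ) ∣ ((f * (ord v (ℓ : K)).toNat : ℕ) : ℤ) := by
    refine ⟨ord v (y : K), ?_⟩
    rw [h1]; push_cast [Int.toNat_of_nonneg (ord_prime_pos hℓ hv).le]; rfl
  rw [Int.natCast_dvd_natCast] at h2
  have h3 := mul_ord_prime_le hℓ hN
  have h4 : 0 < f * (ord v (ℓ : K)).toNat :=
    Nat.mul_pos hf (by have := ord_prime_pos hℓ hv; omega)
  have := Nat.le_of_dvd h4 h2
  have := hs.deg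
  have := hp.out.pos
  omega

/-- An auxiliary prime whose radical is inert at `v`. -/
theorem Setting.exists_aux (hs : Setting hζ v₀ x) {v : Place K} (hv : v ≠ v₀) {q₁ : ℕ}
    (hq₁ : q₁ ≠ 0) : ∃ (q : ℕ) (hq : Fact q.Prime), q ≠ q₁ ∧ ∃ A : @Aux K _ _ p hp ζ hζ v₀ q hq,
      ¬ OverPrime q v ∧ sym hζ v (Additive.ofMul A.b) ≠ 0 := by
  classical
  have : NeZero p := ⟨hp.out.ne_zero⟩
  obtain ⟨ℓ, hℓ, hℓv, f, hf, hN⟩ := exists_prime_over v
  set Nu := Units.mk0 ((ℓ ^ f : ℕ) : K) (Nat.cast_ne_zero.mpr (pow_ne_zero _ hℓ.ne_zero))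
  obtain ⟨u, huB, hup, husplit⟩ := exists_place_notMem_splitSub hζ
    (hs.natNorm_notMem_powSub hℓ hf hℓv hN)
    ((finite_ord_ne_zero (ℓ : K)).toFinset ∪ (finite_ord_ne_zero (q₁ : K)).toFinset)
  simp only [Finset.mem_union, Set.Finite.mem_toFinset, Set.mem_ofPred_eq, not_or, not_not] at huB
  obtain ⟨q, hq', hqu, -⟩ := exists_prime_over u
  have hq : Fact q.Prime := ⟨hq'⟩
  have hqp : q ≠ p := by
    rintro rfl
    exact absurd hup (ne_of_lt hqu)
  have hqℓ : q ≠ ℓ := by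
    rintro rfl
    exact (ord_prime_pos hℓ hqu).ne' huB.1
  have hqq₁ : q ≠ q₁ := by
    rintro rfl
    exact (ord_prime_pos hq' hqu).ne' huB.2
  have hN0 : ((ℓ ^ f : ℕ) : ZMod q) ≠ 0 := by
    rw [Nat.cast_pow]
    refine pow_ne_zero _ fun h => hqℓ ?_
    rwa [ZMod.natCast_eq_zero_iff, Nat.prime_dvd_prime_iff_eq hq' hℓ] at h
  have hnpow : ¬ ∃ z : ZMod q, z ^ p = ((ℓ ^ f : ℕ) : ZMod q) := by
    rintro ⟨z, hz⟩
    have hz0 : z ≠ 0 := by
      rintro rfl
      rw [zero_pow hp.out.ne_zero] at hz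
      exact hN0 hz.symm
    have hzK : ((z.val : ℕ) : K) ≠ 0 := by
      rw [Nat.cast_ne_zero]
      exact fun h => hz0 ((ZMod.val_eq_zero z).mp h)
    refine husplit ((mem_splitSub hζ).mpr ⟨Units.mk0 _ hzK, ?_⟩)
    show _ < thr hζ u
    rw [thr_eq_one hζ hup]
    have h1 : u.valuation K (((z.val : ℤ)) : K) = 1 := by
      rw [valuation_intCast_eq_one_iff hqu, Int.cast_natCast, ZMod.natCast_zmod_val]
      exact hz0
    rw [Int.cast_natCast] at h1
    rw [Units.val_div_eq_div_val, Units.val_pow_eq_pow_val, Units.val_mk0, Units.val_mk0,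
      div_sub_one (pow_ne_zero _ hzK), map_div₀, map_pow, h1, one_pow, div_one,
      show ((ℓ ^ f : ℕ) : K) - ((z.val : ℕ) : K) ^ p =
        (((ℓ ^ f : ℕ) : ℤ) - (z.val : ℤ) ^ p : ℤ) by push_cast; rfl,
      valuation_intCast_lt_one_iff hqu]
    push_cast
    rw [ZMod.natCast_zmod_val, hz, Nat.cast_pow, sub_self]
  have hdvd : p ∣ q - 1 := by
    by_contra h
    have hcop : (Nat.card (ZMod q)ˣ).Coprime p := by
      rw [Nat.card_units, Nat.card_zmod]
      exact ((Nat.Prime.coprime_iff_not_dvd hp.out).mpr h).symm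
    obtain ⟨z, hz⟩ := (powCoprime hcop).surjective (Units.mk0 _ hN0)
    exact hnpow ⟨z, by simpa using congrArg Units.val hz⟩
  obtain ⟨m, hqm⟩ := hdvd
  have hm : 0 < m := Nat.pos_of_ne_zero fun h => by
    rw [h, mul_zero] at hqm; have := hq'.two_le; omega
  obtain ⟨C⟩ := exists_residueChar (hζ := hζ) hqu hqp (A := (p - 1) * m)
    (Nat.mul_pos (by have := hp.out.two_le; omega) hm)
    ⟨p - 1, by rw [hqm]; ring⟩
  have hrad0 : (C.radical : K) ≠ 0 := by
    intro h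
    have h1 := C.valuation_radical_over hqu hqm hqp
    rw [h, map_zero, eq_comm, map_eq_zero, Nat.cast_eq_zero] at h1
    exact hq'.ne_zero h1
  set b := Units.mk0 (C.radical : K) hrad0
  have hval : ∀ w, ¬ OverPrime q w → w.valuation K (q : K) = 1 := fun w hw =>
    le_antisymm (valuation_natCast_le_one w q) (not_lt.mp hw)
  have hordb : ∀ w, ¬ OverPrime q w → ord w (b : K) = 0 := fun w hw =>
    (valuation_eq_one_iff_ord w b.ne_zero).mp (C.valuation_radical hqu hqm (hval w hw))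
  have hsym : ∀ w, ¬ OverPrime q w → w ≠ v₀ →
      sym hζ w (Additive.ofMul b) = -logNorm C.log w := fun w hw hw₀ =>
    C.sym_radical hqu hqm (hs.val_p w hw₀) (hval w hw) rfl
      (C.valuation_radical hqu hqm (hval w hw))
  have hvq : ¬ OverPrime q v := fun h => hqℓ (eq_of_overPrime hℓ h hℓv)
  refine ⟨q, hq, hqq₁, ⟨b, C.log, C.log_mul, hqp, hordb, ⟨u, hqu, ?_⟩,
    C.radical_mem_unrSub hqu hqm hqp hs.two rfl hs.above, hsym⟩, hvq, ?_⟩
  · have h1 := C.valuation_radical_over hqu hqm hqp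
    rw [show ord u (b : K) = ord u (q : K) by simp only [ord]; rw [Units.val_mk0, h1]]
    obtain ⟨ℓ', hℓ', hℓu, f', hf', hN'⟩ := exists_prime_over u
    obtain rfl := eq_of_overPrime hℓ' hqu hℓu
    have h2 := mul_ord_prime_le hq' hN'
    have h3 := ord_prime_pos hq' hqu
    have h4 : (ord u (q : K)).toNat ≤ finrank ℚ K :=
      (Nat.le_mul_of_pos_left _ hf').trans h2
    intro h
    have h5 := Int.le_of_dvd h3 h
    have := hs.deg
    have := hp.out.pos
    omega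
  · rw [hsym v hvq hv, neg_ne_zero, logNorm, hN]
    exact C.log_ne_zero_of_not_pow hqu hqm hN0 hnpow

/-- The functional of an auxiliary radical kills elements split over `q` and at `v₀`. -/
theorem Aux.pairing_eq_zero [IsGalois ℚ K] (hp2 : p ≠ 2) {q : ℕ} [Fact q.Prime]
    (A : Aux hζ v₀ q) {y : Kˣ}
    (hy : ∀ u, OverPrime q u ∨ u = v₀ → y ∈ splitSub hζ u) :
    pairing (fun v => sym hζ v (Additive.ofMul A.b)) (Additive.ofMul y) = 0 := by
  have h := pairing_logNorm_eq_zero hp2 A.ne_p hζ A.isLog fun u hu => hy u (Or.inl hu)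
  have heq : ∀ v, sym hζ v (Additive.ofMul A.b) * (ord v (y : K) : ZMod p) =
      (-1 : ZMod p) * (logNorm A.log v * (ord v (y : K) : ZMod p)) := by
    intro v
    by_cases hv : OverPrime q v ∨ v = v₀
    · rw [(ZMod.intCast_zmod_eq_zero_iff_dvd _ _).mpr (dvd_ord_of_mem_splitSub hζ (hy v hv))]
      simp
    · rw [not_or] at hv
      rw [A.sym_b v hv.1 hv.2]; ring
  rw [pairing_apply, finsum_congr heq, ← mul_finsum' _ _ ?_, ← pairing_apply, h, mul_zero]
  exact (finite_ord_ne_zero (y : K)).subset fun v hv h0 => hv (by simp [h0])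

end FLTAgent.Ext
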