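/-
S14 helper library: the cocycle of an admissible extension.
-/
import Fermat.Prelude.Def_ExtCitation_AdmissibleExtension_v2

set_option autoImplicit false
set_option linter.unusedSectionVars false

namespace FLTAgent.Ext

/-- The algebraic closure of `ℚ`. -/
abbrev Qb : Type := AlgebraicClosure ℚ

/-- The absolute Galois group. -/
abbrev Gb : Type := Qb ≃ₐ[ℚ] Qb

lemma isGalois_qb : IsGalois ℚ Qb :=
  have : Algebra.IsAlgebraic ℚ Qb := AlgebraicClosure.isAlgebraic ℚ
  have : IsAlgClosure ℚ Qb := ⟨inferInstance, inferInstance⟩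
  { to_normal := IsAlgClosure.normal ℚ Qb }

variable (p : ℕ) [hp : Fact p.Prime]

/-- The mod `p` cyclotomic character with values in `ZMod p`. -/
noncomputable def chiMod (σ : Gb) : ZMod p := (ExtCitation.cycloExp p σ : ZMod p)

lemma chiMod_eq (σ : Gb) : haveI : NeZero p := ⟨hp.out.ne_zero⟩
    chiMod p σ = ((modularCyclotomicCharacter Qb (ExtCitation.card_rootsOfUnity_eq_self p)
      (σ : Qb ≃+* Qb) : (ZMod p)ˣ) : ZMod p) := by
  have : NeZero p := ⟨hp.out.ne_zero⟩
  rw [chiMod, ExtCitation.cycloExp, ZMod.natCast_zmod_val]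

lemma chiMod_mul (σ τ : Gb) : chiMod p (σ * τ) = chiMod p σ * chiMod p τ := by
  have : NeZero p := ⟨hp.out.ne_zero⟩
  rw [chiMod_eq, chiMod_eq, chiMod_eq, ← Units.val_mul, ← map_mul]
  rfl

lemma chiMod_ne_zero (σ : Gb) : chiMod p σ ≠ 0 := by
  have : NeZero p := ⟨hp.out.ne_zero⟩
  rw [chiMod_eq]
  exact Units.ne_zero _

lemma chiMod_one : chiMod p (1 : Gb) = 1 := by
  have h := chiMod_mul p (1 : Gb) 1
  rw [one_mul] at h
  exact (mul_eq_left₀ (chiMod_ne_zero p _)).mp h.symm

/-- The data carried by a nonsplit admissible extension. -/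
structure ExtCocycle where
  f : Gb → ZMod p
  map_mul : ∀ σ τ : Gb, f (σ * τ) = chiMod p τ * f σ + f τ
  unramified : ∀ ℓ : ℕ, ℓ.Prime → ℓ ≠ p → ∀ A : ValuationSubring Qb, A.LiesOverPrime ℓ →
    ∀ σ ∈ A.inertiaSubgroupIn ℚ, f σ = 0
  split : ∀ A : ValuationSubring Qb, A.LiesOverPrime p →
    ∀ σ ∈ A.decompositionSubgroup ℚ, chiMod p σ = 1 → f σ = 0
  finite_level : ∃ E : IntermediateField ℚ Qb, FiniteDimensional ℚ E ∧
    ∀ σ ∈ E.fixingSubgroup, f σ = 0
  nontrivial : ∃ h : Gb, chiMod p h = 1 ∧ f h ≠ 0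

variable {p}
variable {V : Type} [AddCommGroup V] [Module (ZMod p) V] [DistribMulAction Gb V]
  [SMulCommClass Gb (ZMod p) V] {C : Submodule (ZMod p) V}

/-- A nonsplit admissible extension yields a nontrivial cocycle. -/
theorem exists_extCocycle (h3 : 3 ≤ p)
    (hadm : ExtCitation.IsAdmissibleExtensionCts p V C) (hns : ¬ ExtCitation.SplitsGlobally C) :
    Nonempty (ExtCocycle p) := by
  classical
  have : NeZero p := ⟨hp.out.ne_zero⟩
  have hVfin : Finite V := Nat.finite_of_card_ne_zero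
    (by rw [hadm.card_total]; exact pow_ne_zero _ hp.out.ne_zero)
  -- a basis
  obtain ⟨c₀, hc₀C, hc₀⟩ : ∃ c ∈ C, c ≠ (0 : V) := by
    by_contra hcon
    push Not at hcon
    have : Subsingleton C := ⟨fun a b => Subtype.ext (by rw [hcon _ a.2, hcon _ b.2])⟩
    have h1 : Nat.card C = 1 := Nat.card_of_subsingleton (⟨0, C.zero_mem⟩ : C)
    rw [hadm.card_sub] at h1
    exact hp.out.ne_one h1
  have hspan : ∀ c ∈ C, ∃ a : ZMod p, a • c₀ = c := by
    intro c hc
    let φ : ZMod p → C := fun a => ⟨a • c₀, C.smul_mem a hc₀C⟩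
    have hinj : Function.Injective φ := fun a b hab =>
      smul_left_injective (ZMod p) hc₀ (congrArg Subtype.val hab)
    obtain ⟨a, ha⟩ := (hinj.bijective_of_nat_card_le (by rw [hadm.card_sub, Nat.card_zmod])).2
      ⟨c, hc⟩
    exact ⟨a, congrArg Subtype.val ha⟩
  obtain ⟨v₀, hv₀⟩ : ∃ v : V, v ∉ C := by
    by_contra hcon
    push Not at hcon
    have h : Nat.card C = Nat.card V :=
      Nat.card_congr ⟨Subtype.val, fun v => ⟨v, hcon v⟩, fun _ => rfl, fun _ => rfl⟩
    rw [hadm.card_sub, hadm.card_total] at h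
    exact absurd h (by nlinarith [hp.out.two_le])
  choose f hf using fun σ : Gb => hspan _ (hadm.cyclo_quot σ v₀)
  have hσ : ∀ σ : Gb, σ • v₀ = chiMod p σ • v₀ + f σ • c₀ := fun σ => by
    rw [hf σ, chiMod]; abel
  have hmul : ∀ σ τ : Gb, f (σ * τ) = chiMod p τ * f σ + f τ := by
    intro σ τ
    apply smul_left_injective (ZMod p) hc₀
    have h1 : σ • τ • v₀ = (chiMod p σ * chiMod p τ) • v₀ + (chiMod p τ * f σ + f τ) • c₀ := by
      rw [hσ τ, smul_add, smul_comm σ, smul_comm σ (f τ), hadm.fixed_sub σ c₀ hc₀C, hσ σ, smul_add,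
        smul_smul, smul_smul, add_smul, mul_comm (chiMod p τ) (chiMod p σ)]
      abel
    have h2 := hσ (σ * τ)
    rw [mul_smul, h1, chiMod_mul] at h2
    exact (add_left_cancel h2).symm
  -- fixed vectors
  have hfix : ∀ σ : Gb, σ • v₀ = v₀ → chiMod p σ = 1 ∧ f σ = 0 := by
    intro σ h
    rw [hσ] at h
    have h1 : (1 - chiMod p σ) • v₀ = f σ • c₀ := by
      rw [sub_smul, one_smul]
      nth_rw 1 [← h]
      abel
    have hχ : chiMod p σ = 1 := by
      by_contra hne
      have hne' : 1 - chiMod p σ ≠ 0 := sub_ne_zero.mpr fun h => hne h.symm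
      refine hv₀ ?_
      rw [← one_smul (ZMod p) v₀, ← inv_mul_cancel₀ hne', ← smul_smul, h1]
      exact C.smul_mem _ (C.smul_mem _ hc₀C)
    rw [hχ, sub_self, zero_smul, eq_comm] at h1
    exact ⟨hχ, (smul_eq_zero.mp h1).resolve_right hc₀⟩
  -- complements give coboundaries
  have hsplit : ∀ (C' : Submodule (ZMod p) V) (D : Set Gb),
      (∀ σ ∈ D, ∀ x ∈ C', σ • x ∈ C') → IsCompl C C' →
      ∃ k : ZMod p, ∀ σ ∈ D, f σ = k * (chiMod p σ - 1) := by
    intro C' D hD hC'
    have hv : v₀ ∈ C ⊔ C' := by rw [hC'.sup_eq_top]; exact Submodule.mem_top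
    obtain ⟨c, hc, v', hv', hsum⟩ := Submodule.mem_sup.mp hv
    obtain ⟨a, rfl⟩ := hspan c hc
    refine ⟨-a, fun σ hσD => ?_⟩
    have hv'eq : v' = v₀ - a • c₀ := by rw [← hsum]; abel
    have hmem : σ • v' - chiMod p σ • v' ∈ C' := C'.sub_mem (hD σ hσD v' hv') (C'.smul_mem _ hv')
    have heq : σ • v' - chiMod p σ • v' = (f σ - a + chiMod p σ * a) • c₀ := by
      rw [hv'eq, smul_sub, smul_comm σ a, hadm.fixed_sub σ c₀ hc₀C, hσ, smul_sub, smul_smul,
        add_smul, sub_smul]
      abel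
    rw [heq] at hmem
    have h0 : (f σ - a + chiMod p σ * a) • c₀ = 0 :=
      Submodule.disjoint_def.mp hC'.disjoint _ (C.smul_mem _ hc₀C) hmem
    have h1 := (smul_eq_zero.mp h0).resolve_right hc₀
    linear_combination h1
  refine ⟨⟨f, hmul, fun ℓ hℓ hne A hA σ hσA =>
    (hfix σ (hadm.unramified_outside ℓ hℓ hne A hA σ hσA v₀)).2, fun A hA σ hσA hχ => ?_, ?_, ?_⟩⟩
  · obtain ⟨C', hstab, hC'⟩ := hadm.locally_split A hA
    obtain ⟨k, hk⟩ := hsplit C' (A.decompositionSubgroup ℚ) (fun τ hτ => hstab τ hτ) hC'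
    rw [hk σ hσA, hχ, sub_self, mul_zero]
  · obtain ⟨E, hE, hsub⟩ := (krullTopology_mem_nhds_one_iff ℚ Qb _).mp
      (hadm.open_kernel.mem_nhds (show (1 : Gb) ∈ _ from fun v => one_smul Gb v))
    exact ⟨E, hE, fun σ hσE => (hfix σ (hsub hσE v₀)).2⟩
  · by_contra hcon
    push Not at hcon
    -- `f` factors through the character, hence is a coboundary
    obtain ⟨τ, hτ⟩ : ∃ τ : Gb, chiMod p τ ≠ 1 := by
      obtain ⟨μ, hμ⟩ := HasEnoughRootsOfUnity.exists_primitiveRoot Qb p
      by_contra hall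
      push Not at hall
      have hfixμ : ∀ τ : Gb, τ μ = μ := fun τ => by
        have h := modularCyclotomicCharacter.spec Qb (ExtCitation.card_rootsOfUnity_eq_self p)
          (τ : Qb ≃+* Qb) (t := (hμ.isUnit hp.out.ne_zero).unit)
          (by rw [mem_rootsOfUnity]; ext; simpa using hμ.pow_eq_one)
        rw [← chiMod_eq, hall τ, ZMod.val_one, pow_one] at h
        simpa using h
      have hrat : μ ∈ (⊥ : IntermediateField ℚ Qb) := by
        rw [IntermediateField.mem_bot]
        have := isGalois_qb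
        exact IntermediateField.mem_bot.mp ((InfiniteGalois.mem_bot_iff_fixed μ).mpr hfixμ)
      obtain ⟨r, hr⟩ := IntermediateField.mem_bot.mp hrat
      have h1 : r ^ p = 1 := (algebraMap ℚ Qb).injective (by rw [map_pow, hr, map_one, hμ.pow_eq_one])
      have h2 : r = 1 := by
        have hodd : Odd p := hp.out.odd_of_ne_two (by omega)
        exact hodd.pow_inj.mp (h1.trans (one_pow p).symm)
      exact hμ.ne_one hp.out.one_lt (by rw [← hr, h2, map_one])
    set k := f τ * (chiMod p τ - 1)⁻¹ with hk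
    have hτ' : chiMod p τ - 1 ≠ 0 := sub_ne_zero.mpr hτ
    have hcob : ∀ σ, f σ = k * (chiMod p σ - 1) := by
      intro σ
      have hcomm : f (σ * τ) = f (τ * σ) := by
        set g := τ * σ
        have hmem : chiMod p (σ * τ * g⁻¹) = 1 := by
          rw [chiMod_mul, chiMod_mul p σ τ, mul_comm (chiMod p σ), ← chiMod_mul p τ σ,
            ← chiMod_mul p g g⁻¹, mul_inv_cancel, chiMod_one]
        have := hmul (σ * τ * g⁻¹) g
        rw [inv_mul_cancel_right, hcon _ hmem, mul_zero, zero_add] at this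
        exact this
      rw [hmul, hmul] at hcomm
      rw [hk, mul_right_comm, eq_mul_inv_iff_mul_eq₀ hτ']
      linear_combination hcomm
    refine hns ⟨Submodule.span (ZMod p) {v₀ + k • c₀}, fun σ x hx => ?_, ?_⟩
    · obtain ⟨a, rfl⟩ := Submodule.mem_span_singleton.mp hx
      refine Submodule.mem_span_singleton.mpr ⟨a * chiMod p σ, ?_⟩
      have hv : σ • (v₀ + k • c₀) = chiMod p σ • (v₀ + k • c₀) := by
        rw [smul_add σ, smul_comm σ k, hadm.fixed_sub σ c₀ hc₀C, hσ, hcob σ, smul_add, smul_smul,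
          mul_sub, mul_one, sub_smul, mul_comm k]
        abel
      rw [smul_comm σ a, hv, smul_smul]
    · refine ⟨Submodule.disjoint_def.mpr fun y hy hy' => ?_, codisjoint_iff.mpr ?_⟩
      · obtain ⟨a, rfl⟩ := Submodule.mem_span_singleton.mp hy'
        by_contra h0
        have ha : a ≠ 0 := fun ha => h0 (by rw [ha, zero_smul])
        refine hv₀ ?_
        rw [← add_sub_cancel_right v₀ (k • c₀)]
        exact C.sub_mem (by simpa [ha] using C.smul_mem a⁻¹ hy) (C.smul_mem k hc₀C)
      · rw [eq_top_iff]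
        intro y _
        let φ : C × ZMod p → V := fun q => (q.1 : V) + q.2 • (v₀ + k • c₀)
        have hinj : Function.Injective φ := by
          rintro ⟨c, a⟩ ⟨c', a'⟩ h
          have hd : (a - a') • v₀ = (c' : V) - c + (a' - a) • k • c₀ := by
            simp only [φ, smul_add] at h
            rw [sub_smul, sub_smul, ← sub_eq_zero]
            rw [← sub_eq_zero] at h
            rw [← h]
            abel
          have haa : a = a' := by
            by_contra hne
            refine hv₀ ?_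
            rw [← one_smul (ZMod p) v₀, ← inv_mul_cancel₀ (sub_ne_zero.mpr hne), ← smul_smul, hd]
            exact C.smul_mem _ (C.add_mem (C.sub_mem c'.2 c.2)
              (C.smul_mem _ (C.smul_mem _ hc₀C)))
          subst haa
          simp only [φ, add_left_inj, SetLike.coe_eq_coe] at h
          rw [h]
        obtain ⟨⟨c, a⟩, rfl⟩ := (hinj.bijective_of_nat_card_le
          (by rw [Nat.card_prod, hadm.card_sub, hadm.card_total, Nat.card_zmod, sq])).2 y
        exact Submodule.add_mem_sup c.2 (Submodule.smul_mem _ a (Submodule.mem_span_singleton_self _))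

end FLTAgent.Ext
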