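/-
S14 helper library: crossing argument.  The residue symbol of an everywhere unramified radical
satisfies the product formula.
-/
import Fermat.Agent.Ext.Auxiliary

set_option autoImplicit false
set_option linter.unusedSectionVars false

open IsDedekindDomain NumberField Module
open scoped NumberField

namespace FLTAgent.Ext

variable {K : Type} [Field K] [NumberField K] {p : ℕ} [hp : Fact p.Prime] {ζ : K}
  {hζ : IsPrimitiveRoot ζ p} {v₀ : Place K} {x : Kˣ}

lemma mem_powSub_of_zpow_mem {a : Kˣ} {n : ℤ} (hn : ¬ (p : ℤ) ∣ n) (h : a ^ n ∈ powSub K p) :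
    a ∈ powSub K p := by
  obtain ⟨s, t, hst⟩ :=
    ((Nat.prime_iff_prime_int.mp hp.out).irreducible.coprime_iff_not_dvd).mpr hn
  have h1 : a ^ ((p : ℕ) : ℤ) ∈ powSub K p := by
    rw [zpow_natCast]; exact mem_powSub.mpr ⟨a, rfl⟩
  rw [← zpow_one a, ← hst, zpow_add, mul_comm s, mul_comm t, zpow_mul, zpow_mul]
  exact mul_mem (Subgroup.zpow_mem _ h1 _) (Subgroup.zpow_mem _ h _)

lemma exists_div_mem_powSub {l₁ l₂ z : Kˣ}
    (h : z ∈ Subgroup.closure {u | u ∈ [l₁, l₂]} ⊔ powSub K p) :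
    ∃ i j : ℤ, z / (l₁ ^ i * l₂ ^ j) ∈ powSub K p := by
  rw [show {u | u ∈ [l₁, l₂]} = ({l₁, l₂} : Set Kˣ) from Set.ext fun u => by simp] at h
  obtain ⟨c, hc, d, hd, rfl⟩ := Subgroup.mem_sup.mp h
  obtain ⟨i, j, hij⟩ := Subgroup.mem_closure_pair.mp hc
  exact ⟨i, j, by rw [hij, mul_div_cancel_left]; exact hd⟩

lemma hom_eq_zero_of_mem_powSub (χ : Additive Kˣ →+ ZMod p) {z : Kˣ} (hz : z ∈ powSub K p) :
    χ (Additive.ofMul z) = 0 := by
  obtain ⟨y, rfl⟩ := mem_powSub.mp hz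
  simp [nsmul_eq_mul]

/-- `a ^ s * b ^ t` for residues `s`, `t`. -/
noncomputable def combo (a b : Kˣ) (s t : ZMod p) : Kˣ := a ^ s.val * b ^ t.val

lemma hom_combo (χ : Additive Kˣ →+ ZMod p) (a b : Kˣ) (s t : ZMod p) :
    χ (Additive.ofMul (combo a b s t)) = s * χ (Additive.ofMul a) + t * χ (Additive.ofMul b) := by
  have : NeZero p := ⟨hp.out.ne_zero⟩
  simp [combo, nsmul_eq_mul]

/-- `ord` modulo `p`. -/
noncomputable def ordMod (p : ℕ) (v : Place K) : Additive Kˣ →+ ZMod p :=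
  (Int.castAddHom (ZMod p)).comp (ordHom v)

lemma ordMod_eq_zero_iff (v : Place K) (z : Kˣ) :
    ordMod p v (Additive.ofMul z) = 0 ↔ (p : ℤ) ∣ ord v (z : K) :=
  ZMod.intCast_zmod_eq_zero_iff_dvd _ _

/-- Truncation away from `S`. -/
noncomputable def offSet [DecidableEq (Place K)] (S : Finset (Place K)) (ψ : Place K → ZMod p) :
    Place K → ZMod p := fun w => if w ∈ S then 0 else ψ w

lemma pairing_offSet [DecidableEq (Place K)] {S : Finset (Place K)} (ψ : Place K → ZMod p) {y : Kˣ}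
    (hy : y ∈ splitAll hζ S) :
    pairing (offSet S ψ) (Additive.ofMul y) = pairing ψ (Additive.ofMul y) := by
  rw [pairing_apply, pairing_apply]
  refine finsum_congr fun w => ?_
  by_cases hw : w ∈ S
  · rw [(ZMod.intCast_zmod_eq_zero_iff_dvd _ _).mpr
      (dvd_ord_of_mem_splitSub hζ ((mem_splitAll hζ).mp hy w hw)), mul_zero, mul_zero]
  · simp [offSet, hw]

lemma index_bound (hs : Setting hζ v₀ x) [IsTotallyComplex K] {S : Finset (Place K)} (h₀ : v₀ ∈ S) :
    (∀ v ∈ S, (splitSub hζ v).index ≠ 0) ∧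
    ∏ v ∈ S, (splitSub hζ v).index ≤ p ^ (2 * (Units.rank K + S.card + 1)) := by
  classical
  have hb₀ := index_splitSub_le_of_norm_eq hζ hs.norm₀ hs.val₀
  refine ⟨fun v hv => ?_, ?_⟩
  · rcases eq_or_ne v v₀ with rfl | hne
    · exact hb₀.2
    · exact (index_splitSub_le hζ (hs.val_p v hne)).2
  · have hle : ∏ v ∈ S.erase v₀, (splitSub hζ v).index ≤ (p ^ 2) ^ (S.erase v₀).card :=
      Finset.prod_le_pow_card _ _ _ fun v hv =>
        (index_splitSub_le hζ (hs.val_p v (Finset.ne_of_mem_erase hv))).1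
    rw [← Finset.mul_prod_erase S _ h₀]
    refine (Nat.mul_le_mul hb₀.1 hle).trans ?_
    rw [← pow_mul, ← pow_add]
    refine Nat.pow_le_pow_right hp.out.pos ?_
    have h1 := rank_of_totallyComplex (K := K)
    rw [hs.deg] at h1
    have h2 := Finset.card_erase_add_one h₀
    omega

/-- The key proportionality between the product formula and the residue symbols. -/
theorem exists_bad_set [IsTotallyComplex K] [IsGalois ℚ K] (hs : Setting hζ v₀ x)
    {φ : Place K → ZMod p} (hφ1 : ∀ w, x ∈ splitSub hζ w → φ w = 0)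
    (hφ2 : ∀ y : Kˣ, pairing φ (Additive.ofMul y) = 0)
    (hφ3 : ∀ B : Finset (Place K), ∃ w ∉ B, φ w ≠ 0)
    {q : ℕ} [hq : Fact q.Prime] (A : Aux hζ v₀ q) {v : Place K} (hvq : ¬ OverPrime q v)
    (hv₀ : v ≠ v₀) (hg : sym hζ v (Additive.ofMul x) ≠ 0)
    (he : sym hζ v (Additive.ofMul A.b) ≠ 0) :
    ∃ B : Finset (Place K), ∀ u ∉ B, ∀ κ : ZMod p,
      sym hζ u (Additive.ofMul x) = κ * sym hζ v (Additive.ofMul x) →
      sym hζ u (Additive.ofMul A.b) = κ * sym hζ v (Additive.ofMul A.b) → φ u = κ * φ v := by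
  classical
  have hp2 := hs.two
  obtain ⟨S₁, hS₁v, hgen⟩ := exists_gen_disjoint ({v} : Finset (Place K))
  obtain ⟨k, hk⟩ := hgen.exists_ord_eq (fun w => ord w (x : K) / p)
    ((finite_ord_ne_zero (x : K)).subset fun w hw h0 => hw.2 (by simp [h0]))
  set x' : Kˣ := x / k ^ p with hx'
  have hxx' : x' / x ∈ powSub K p := mem_powSub.mpr ⟨k⁻¹, by
    rw [hx', div_eq_mul_inv, div_eq_mul_inv, inv_pow, mul_comm x, mul_inv_cancel_right]⟩
  have hsplit' : ∀ w, x' ∈ splitSub hζ w ↔ x ∈ splitSub hζ w := by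
    intro w
    have := powSub_le_splitSub hζ w hxx'
    constructor
    · intro h
      simpa using div_mem h this
    · intro h
      simpa using mul_mem this h
  have hsym' : ∀ w, sym hζ w (Additive.ofMul x') = sym hζ w (Additive.ofMul x) := by
    intro w
    have h := hom_eq_zero_of_mem_powSub (sym hζ w) hxx'
    rwa [ofMul_div, map_sub, sub_eq_zero] at h
  set Q := (finite_overPrime (K := K) (q := q)).toFinset with hQ
  set S := insert v₀ (S₁ ∪ Q) with hS
  have hmemS : ∀ {w}, w ∉ S → w ≠ v₀ ∧ w ∉ S₁ ∧ ¬ OverPrime q w := by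
    intro w hw
    simpa [hS, hQ, not_or] using hw
  have hS1 : (S₁ : Set (Place K)) ⊆ S := fun w hw => by
    simp only [hS, Finset.coe_insert, Finset.coe_union]
    exact Or.inr (Or.inl hw)
  have hp' : ∀ w ∉ S, w.valuation K (p : K) = 1 := fun w hw => hs.val_p w (hmemS hw).1
  have hx'S : x' ∈ sUnits (S : Set (Place K)) := by
    intro w hw
    obtain ⟨hw₀, hw₁, -⟩ := hmemS (Finset.mem_coe.not.mp hw)
    rw [hx', Units.val_div_eq_div_val, ord_div w x.ne_zero (Units.ne_zero _),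
      Units.val_pow_eq_pow_val, ord_pow, hk w (by simpa using hw₁),
      Int.mul_ediv_cancel' (hs.dvd_ord w hw₀), sub_self]
  have hbS : A.b ∈ sUnits (S : Set (Place K)) := fun w hw =>
    A.ord_b w (hmemS (Finset.mem_coe.not.mp hw)).2.2
  have hvS : v ∉ S := by
    simp only [hS, hQ, Finset.mem_insert, Finset.mem_union, Set.Finite.mem_toFinset, not_or]
    exact ⟨hv₀, fun h => (Finset.disjoint_left.mp hS₁v h) (Finset.mem_singleton_self v), hvq⟩
  obtain ⟨hne, hidx⟩ := index_bound hs (S := S) (Finset.mem_insert_self _ _)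
  -- ord information at a place over `q`
  obtain ⟨u₀, hu₀q, hu₀⟩ := A.ord_b_ne
  have hu₀₀ : u₀ ≠ v₀ := by
    rintro rfl
    exact (valuation_p_eq_one_of_overPrime (p := p) hu₀q A.ne_p).not_lt hs.above
  have hox : ordMod p u₀ (Additive.ofMul x') = 0 := by
    have h := hom_eq_zero_of_mem_powSub (ordMod p u₀) hxx'
    rw [ofMul_div, map_sub, sub_eq_zero] at h
    rw [h, ordMod_eq_zero_iff]
    exact hs.dvd_ord u₀ hu₀₀
  have hob : ordMod p u₀ (Additive.ofMul A.b) ≠ 0 := fun h => hu₀ ((ordMod_eq_zero_iff _ _).mp h)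
  have hx'np : x' ∉ powSub K p := fun h => hs.notPow (by simpa using div_mem h hxx')
  refine ⟨S, fun u hu κ hgu heu => ?_⟩
  obtain ⟨T, hTS, hTL, hfin, hrank⟩ :=
    exists_finrank_functionals_le hζ hp2 S (hgen.mono hS1) hp' hne hidx hx'S hbS
  -- members
  set e : Place K → ZMod p := fun w => sym hζ w (Additive.ofMul A.b)
  have hφmem : offSet S φ ∈ functionals hζ S T := by
    refine (mem_functionals hζ).mpr ⟨fun w hw => if_pos hw, fun w hw => ?_, fun y hy => ?_⟩
    · simp only [offSet]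
      split_ifs
      · rfl
      · exact hφ1 w ((hsplit' w).mp (hTL w hw).1)
    · rw [pairing_offSet φ hy, hφ2]
  have hemem : offSet S e ∈ functionals hζ S T := by
    refine (mem_functionals hζ).mpr ⟨fun w hw => if_pos hw, fun w hw => ?_, fun y hy => ?_⟩
    · have hwS := Finset.disjoint_left.mp hTS hw
      simp only [offSet, if_neg hwS]
      exact ((mem_splitSub_iff hζ (hp' w hwS) A.b).mp (hTL w hw).2).2
    · rw [pairing_offSet e hy]
      refine A.pairing_eq_zero hp2 fun w hw => (mem_splitAll hζ).mp hy w ?_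
      simp only [hS, hQ, Finset.mem_insert, Finset.mem_union, Set.Finite.mem_toFinset]
      tauto
  set E : ZMod p := e v
  set G : ZMod p := -sym hζ v (Additive.ofMul x) with hG
  have hG0 : G ≠ 0 := neg_ne_zero.mpr hg
  set xF := combo x' A.b E G with hxF
  have hxFnp : xF ∉ powSub K p := fun h => by
    have h1 := hom_eq_zero_of_mem_powSub (ordMod p u₀) h
    rw [hxF, hom_combo, hox, mul_zero, zero_add, mul_eq_zero] at h1
    exact h1.elim hG0 hob
  have hxFS : xF ∈ sUnits (S : Set (Place K)) := mul_mem (pow_mem hx'S _) (pow_mem hbS _)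
  have hxF₀ : xF ∈ unrSub hζ v₀ := by
    refine mul_mem (pow_mem ?_ _) (pow_mem A.unr_b _)
    simpa using mul_mem (powSub_le_unrSub hζ v₀ hxx') hs.unr₀
  obtain ⟨φF, hF1, hF2, hF3, hF4⟩ := exists_productFormula (hζ := hζ) hp2 hxFnp fun w => by
    rcases eq_or_ne w v₀ with rfl | hw
    · exact Or.inl hxF₀
    · exact Or.inr (hs.val_p w hw)
  have hFmem : offSet S φF ∈ functionals hζ S T := by
    refine (mem_functionals hζ).mpr ⟨fun w hw => if_pos hw, fun w hw => ?_, fun y hy => ?_⟩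
    · simp only [offSet]
      split_ifs
      · rfl
      · exact hF1 w (mul_mem (pow_mem (hTL w hw).1 _) (pow_mem (hTL w hw).2 _))
    · rw [pairing_offSet φF hy, pairing_apply]
      refine hF3 y fun w hw => (mem_splitAll hζ).mp hy w ?_
      by_contra hwS
      exact hw (unr_of_mem_sUnits hζ hxFS (by simpa using hwS) (hp' w hwS))
  -- independence
  obtain ⟨w', hw'S, hφw'⟩ := hφ3 S
  have hbnot : A.b ∉ Subgroup.closure {z | z ∈ [x', x']} ⊔ powSub K p := fun h => by
    obtain ⟨i, j, hij⟩ := exists_div_mem_powSub h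
    have h1 := hom_eq_zero_of_mem_powSub (ordMod p u₀) hij
    rw [ofMul_div, ofMul_mul, ofMul_zpow, ofMul_zpow, map_sub, map_add, map_zsmul, map_zsmul, hox,
      smul_zero, smul_zero, add_zero, sub_zero] at h1
    exact hob h1
  obtain ⟨w, hwS, hwp, hwL, hwb⟩ := exists_place_prescribed hζ [x', x'] hbnot S
  have hφw : φ w = 0 := hφ1 w ((hsplit' w).mp (hwL x' (by simp)))
  have hew : e w ≠ 0 := fun h => hwb ((mem_splitSub_iff hζ hwp _).mpr
    ⟨by rw [A.ord_b w (hmemS hwS).2.2]; exact dvd_zero _, h⟩)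
  let ev : functionals hζ S T →ₗ[ZMod p] ZMod p × ZMod p :=
    { toFun := fun f => (f.1 w, f.1 w')
      map_add' := fun f g => rfl
      map_smul' := fun c f => rfl }
  have hsurj : Function.Surjective ev := by
    rintro ⟨c₁, c₂⟩
    refine ⟨(c₁ / e w) • (⟨_, hemem⟩ : functionals hζ S T) +
      ((c₂ - c₁ / e w * e w') / φ w') • (⟨_, hφmem⟩ : functionals hζ S T), ?_⟩
    show (_, _) = _
    simp only [Submodule.coe_add, Submodule.coe_smul, Pi.add_apply, Pi.smul_apply, offSet,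
      if_neg hwS, if_neg hw'S, smul_eq_mul, hφw, mul_zero, add_zero]
    rw [div_mul_cancel₀ _ hew, div_mul_cancel₀ _ hφw', add_sub_cancel]
  have hrank2 : finrank (ZMod p) (functionals hζ S T) = finrank (ZMod p) (ZMod p × ZMod p) := by
    refine le_antisymm (hrank.trans_eq (by simp)) ?_
    exact LinearMap.finrank_le_finrank_of_surjective hsurj
  have hinj := (LinearMap.injective_iff_surjective_of_finrank_eq_finrank hrank2).mpr hsurj
  obtain ⟨α, β, hrel⟩ : ∃ α β : ZMod p, ∀ z ∉ S, φF z = α * e z + β * φ z := by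
    refine ⟨φF w / e w, (φF w' - φF w / e w * e w') / φ w', fun z hz => ?_⟩
    have h : (⟨_, hFmem⟩ : functionals hζ S T) =
        (φF w / e w) • ⟨_, hemem⟩ + ((φF w' - φF w / e w * e w') / φ w') • ⟨_, hφmem⟩ := by
      apply hinj
      show (_, _) = (_, _)
      simp only [Submodule.coe_add, Submodule.coe_smul, Pi.add_apply, Pi.smul_apply, offSet,
        if_neg hwS, if_neg hw'S, smul_eq_mul, hφw, mul_zero, add_zero]
      rw [div_mul_cancel₀ _ hew, div_mul_cancel₀ _ hφw', add_sub_cancel]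
    have h2 := congrArg (fun f : functionals hζ S T => f.1 z) h
    simpa [offSet, hz] using h2
  -- `β ≠ 0`
  have hβ : β ≠ 0 := by
    intro hβ
    obtain ⟨z, hzS, hz⟩ := hF4 S
    have hα : α ≠ 0 := fun hα => hz (by rw [hrel z hzS, hα, hβ, zero_mul, zero_mul, add_zero])
    have hbnot' : A.b ∉ Subgroup.closure {z | z ∈ [xF, xF]} ⊔ powSub K p := fun h => by
      obtain ⟨i, j, hij⟩ := exists_div_mem_powSub h
      rw [← zpow_add] at hij
      have h1 := hom_eq_zero_of_mem_powSub (ordMod p u₀) hij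
      rw [ofMul_div, ofMul_zpow, map_sub, map_zsmul, hxF, hom_combo, hox, mul_zero, zero_add,
        zsmul_eq_mul, sub_eq_zero, ← mul_assoc, right_eq_mul₀ hob] at h1
      -- hence `(x' ^ E) ^ (i + j)` is a `p`-th power
      have h2 : ¬ (p : ℤ) ∣ (i + j) := fun hd => by
        rw [(ZMod.intCast_zmod_eq_zero_iff_dvd _ _).mpr hd, zero_mul] at h1
        exact zero_ne_one h1
      have h3 : (x' ^ E.val) ^ (i + j) ∈ powSub K p := by
        have hpow : A.b / A.b ^ ((G.val : ℤ) * (i + j)) ∈ powSub K p := by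
          have hd : (p : ℤ) ∣ 1 - (G.val : ℤ) * (i + j) := by
            rw [← ZMod.intCast_zmod_eq_zero_iff_dvd]
            have : NeZero p := ⟨hp.out.ne_zero⟩
            push_cast
            rw [ZMod.natCast_zmod_val, mul_comm, ← Int.cast_add, h1, sub_self]
          obtain ⟨c, hc⟩ := hd
          refine mem_powSub.mpr ⟨A.b ^ c, ?_⟩
          rw [← zpow_natCast, ← zpow_mul, mul_comm c, ← hc, zpow_sub, zpow_one, ← div_eq_mul_inv]
        have h4 := div_mem hpow hij
        rwa [hxF, combo, mul_zpow, div_div_div_cancel_left, zpow_mul, zpow_natCast,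
          mul_div_cancel_right] at h4
      have h5 := mem_powSub_of_zpow_mem h2 h3
      have h6 : ¬ (p : ℤ) ∣ (E.val : ℤ) := by
        rw [← ZMod.intCast_zmod_eq_zero_iff_dvd, Int.cast_natCast]
        have : NeZero p := ⟨hp.out.ne_zero⟩
        rw [ZMod.natCast_zmod_val]
        exact he
      exact hx'np (mem_powSub_of_zpow_mem h6 (by rw [zpow_natCast]; exact h5))
    obtain ⟨z', hz'S, hz'p, hz'L, hz'b⟩ := exists_place_prescribed hζ [xF, xF] hbnot' S
    have h0 := hrel z' hz'S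
    rw [hF1 z' (hz'L xF (by simp)), hβ, zero_mul, add_zero, eq_comm, mul_eq_zero] at h0
    exact hz'b ((mem_splitSub_iff hζ hz'p _).mpr
      ⟨by rw [A.ord_b z' (hmemS hz'S).2.2]; exact dvd_zero _, h0.resolve_left hα⟩)
  -- conclusion
  have hzero : ∀ z ∉ S, ∀ μ : ZMod p,
      sym hζ z (Additive.ofMul x) = μ * sym hζ v (Additive.ofMul x) → e z = μ * e v → φF z = 0 := by
    intro z hz μ h1 h2
    refine hF1 z ((mem_splitSub_iff hζ (hp' z hz) _).mpr
      ⟨by rw [hxFS z (by simpa using hz)]; exact dvd_zero _, ?_⟩)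
    rw [hxF, hom_combo, hsym', h1, show sym hζ z (Additive.ofMul A.b) = μ * E from h2, hG]
    ring
  have hv1 := hrel v hvS
  rw [hzero v hvS 1 (one_mul _).symm (one_mul _).symm] at hv1
  have hu1 := hrel u hu
  rw [hzero u hu κ hgu heu, show e u = κ * e v from heu] at hu1
  have : β * (φ u - κ * φ v) = 0 := by linear_combination κ * hv1 - hu1
  exact sub_eq_zero.mp ((mul_eq_zero.mp this).resolve_left hβ)

/-- **Product formula for the residue symbol** of an everywhere unramified radical. -/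
theorem pairing_sym_eq_zero [IsTotallyComplex K] [IsGalois ℚ K] (hs : Setting hζ v₀ x) {y : Kˣ}
    (hy : (p : ℤ) ∣ ord v₀ (y : K)) :
    pairing (fun w => sym hζ w (Additive.ofMul x)) (Additive.ofMul y) = 0 := by
  classical
  have hunr : ∀ w, x ∈ unrSub hζ w := fun w => by
    rcases eq_or_ne w v₀ with rfl | hw
    · exact hs.unr₀
    · exact mem_unrSub_of_dvd_ord hζ (hs.val_p w hw) (hs.dvd_ord w hw)
  obtain ⟨φ, hφ1, -, hφ2', hφ3⟩ := exists_productFormula (hζ := hζ) hs.two hs.notPow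
    fun w => Or.inl (hunr w)
  have hφ2 : ∀ z : Kˣ, pairing φ (Additive.ofMul z) = 0 := fun z => by
    rw [pairing_apply]; exact hφ2' z fun w hw => absurd (hunr w) hw
  set g : Place K → ZMod p := fun w => sym hζ w (Additive.ofMul x)
  have hzero : ∀ w, w ≠ v₀ → g w = 0 → φ w = 0 := fun w hw h =>
    hφ1 w ((mem_splitSub_iff hζ (hs.val_p w hw) x).mpr ⟨hs.dvd_ord w hw, h⟩)
  have hratio : ∀ v₁ v₂, v₁ ≠ v₀ → v₂ ≠ v₀ → g v₁ ≠ 0 → g v₂ ≠ 0 →
      φ v₁ * g v₂ = φ v₂ * g v₁ := by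
    intro v₁ v₂ h1 h2 hg1 hg2
    obtain ⟨q₁, hq₁, -, A₁, hv1q, he1⟩ := hs.exists_aux h1 (q₁ := p) hp.out.ne_zero
    obtain ⟨q₂, hq₂, hne, A₂, hv2q, he2⟩ := hs.exists_aux h2 (q₁ := q₁) hq₁.out.ne_zero
    obtain ⟨B₁, hB₁⟩ := exists_bad_set hs hφ1 hφ2 hφ3 A₁ hv1q h1 hg1 he1
    obtain ⟨B₂, hB₂⟩ := exists_bad_set hs hφ1 hφ2 hφ3 A₂ hv2q h2 hg2 he2
    set E₁ := sym hζ v₁ (Additive.ofMul A₁.b)
    set E₂ := sym hζ v₂ (Additive.ofMul A₂.b) * g v₁ / g v₂ with hE₂
    set G := -g v₁ with hG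
    have hG0 : G ≠ 0 := neg_ne_zero.mpr hg1
    set l₁ := combo x A₁.b E₁ G with hl₁
    set l₂ := combo x A₂.b E₂ G with hl₂
    have hxnot : x ∉ Subgroup.closure {z | z ∈ [l₁, l₂]} ⊔ powSub K p := fun h => by
      obtain ⟨i, j, hij⟩ := exists_div_mem_powSub h
      have coeff : ∀ {q : ℕ} [Fact q.Prime] (u : Place K), OverPrime q u → u ≠ v₀ →
          ∀ (b b' : Kˣ) (s t : ZMod p) (i j : ℤ),
            x / (combo x b s G ^ i * combo x b' t G ^ j) ∈ powSub K p →
            ¬ (p : ℤ) ∣ ord u (b : K) → ord u (b' : K) = 0 → (p : ℤ) ∣ i := by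
        intro q _ u _ hu b b' s t i j h hb hb'
        have h1 := hom_eq_zero_of_mem_powSub (ordMod p u) h
        rw [ofMul_div, ofMul_mul, ofMul_zpow, ofMul_zpow, map_sub, map_add, map_zsmul, map_zsmul,
          hom_combo, hom_combo, (ordMod_eq_zero_iff u x).mpr (hs.dvd_ord u hu),
          (ordMod_eq_zero_iff u b').mpr (by rw [hb']; exact dvd_zero _), zero_sub, neg_eq_zero,
          mul_zero, mul_zero, mul_zero, zero_add, add_zero, smul_zero, add_zero, zsmul_eq_mul,
          mul_eq_zero, mul_eq_zero] at h1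
        rw [← ZMod.intCast_zmod_eq_zero_iff_dvd]
        exact h1.resolve_right fun h' => h'.elim hG0 fun h'' => hb ((ordMod_eq_zero_iff _ _).mp h'')
      obtain ⟨u₁, hu₁, hb₁⟩ := A₁.ord_b_ne
      obtain ⟨u₂, hu₂, hb₂⟩ := A₂.ord_b_ne
      have hu₁₀ : u₁ ≠ v₀ := by
        rintro rfl
        exact (valuation_p_eq_one_of_overPrime (p := p) hu₁ A₁.ne_p).not_lt hs.above
      have hu₂₀ : u₂ ≠ v₀ := by
        rintro rfl
        exact (valuation_p_eq_one_of_overPrime (p := p) hu₂ A₂.ne_p).not_lt hs.above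
      have hi := coeff u₁ hu₁ hu₁₀ A₁.b A₂.b E₁ E₂ i j hij hb₁
        (A₂.ord_b u₁ fun h => hne (eq_of_overPrime hq₁.out h hu₁))
      have hj := coeff u₂ hu₂ hu₂₀ A₂.b A₁.b E₂ E₁ j i (by rwa [mul_comm] at hij) hb₂
        (A₁.ord_b u₂ fun h => hne (eq_of_overPrime hq₂.out h hu₂).symm)
      obtain ⟨i', rfl⟩ := hi
      obtain ⟨j', rfl⟩ := hj
      refine hs.notPow ?_
      have h2 : l₁ ^ ((p : ℤ) * i') * l₂ ^ ((p : ℤ) * j') ∈ powSub K p :=
        mem_powSub.mpr ⟨l₁ ^ i' * l₂ ^ j', by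
          rw [← zpow_natCast, mul_zpow, ← zpow_mul, ← zpow_mul, mul_comm i', mul_comm j']⟩
      simpa using mul_mem hij h2
    obtain ⟨u, huB, hup, huL, hux⟩ := exists_place_prescribed hζ [l₁, l₂] hxnot
      (insert v₀ (B₁ ∪ B₂))
    simp only [Finset.mem_insert, Finset.mem_union, not_or] at huB
    have hgu : g u ≠ 0 := fun h => hux ((mem_splitSub_iff hζ hup x).mpr ⟨hs.dvd_ord u huB.1, h⟩)
    have e1 := ((mem_splitSub_iff hζ hup _).mp (huL l₁ (by simp))).2
    have e2 := ((mem_splitSub_iff hζ hup _).mp (huL l₂ (by simp))).2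
    rw [hl₁, hom_combo, hG] at e1
    rw [hl₂, hom_combo, hG, hE₂] at e2
    have f1 := hB₁ u huB.2.1 (g u / g v₁) (div_mul_cancel₀ _ hg1).symm (by
      show sym hζ u (Additive.ofMul A₁.b) = g u / g v₁ * E₁
      field_simp
      linear_combination -e1)
    have f2 := hB₂ u huB.2.2 (g u / g v₂) (div_mul_cancel₀ _ hg2).symm (by
      show sym hζ u (Additive.ofMul A₂.b) = g u / g v₂ * sym hζ v₂ (Additive.ofMul A₂.b)
      have e2' : sym hζ v₂ (Additive.ofMul A₂.b) * g v₁ / g v₂ * g u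
          + -g v₁ * sym hζ u (Additive.ofMul A₂.b) = 0 := e2
      field_simp at e2' ⊢
      apply mul_left_cancel₀ hg1
      linear_combination -e2')
    have f3 : g u / g v₁ * φ v₁ = g u / g v₂ * φ v₂ := f1.symm.trans f2
    field_simp at f3
    linear_combination f3
  obtain ⟨w, hw, hφw⟩ := hφ3 {v₀}
  rw [Finset.mem_singleton] at hw
  have hgw : g w ≠ 0 := fun h => hφw (hzero w hw h)
  have hprop : ∀ v, φ v * (ord v (y : K) : ZMod p) =
      φ w / g w * (g v * (ord v (y : K) : ZMod p)) := by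
    intro v
    rcases eq_or_ne v v₀ with rfl | hv
    · rw [(ZMod.intCast_zmod_eq_zero_iff_dvd _ _).mpr hy]; simp
    · by_cases hgv : g v = 0
      · rw [hgv, hzero v hv hgv]; simp
      · have := hratio v w hv hw hgv hgw
        rw [← mul_assoc, div_mul_eq_mul_div, ← this, mul_div_cancel_right₀ _ hgw]
  have h := hφ2 y
  rw [pairing_apply, finsum_congr hprop, ← mul_finsum' _ _ ?_, mul_eq_zero] at h
  · exact h.resolve_left (div_ne_zero hφw hgw)
  · exact (finite_ord_ne_zero (y : K)).subset fun v hv h0 => hv (by simp [h0])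

end FLTAgent.Ext
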