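/-
S14 helper library: the place over `p` of the `p`-th cyclotomic field.
-/
import Fermat.Agent.Ext.Crossing

set_option autoImplicit false
set_option linter.unusedSectionVars false

open IsDedekindDomain NumberField Module WithZero
open scoped NumberField

namespace FLTAgent.Ext

variable {K : Type} [Field K] [NumberField K] {p : ℕ} [hp : Fact p.Prime] {ζ : K}
  (hζ : IsPrimitiveRoot ζ p) [IsCyclotomicExtension {p} ℚ K]

include hζ in
lemma finrank_cyclotomic : finrank ℚ K = p - 1 := by
  have : NeZero p := ⟨hp.out.ne_zero⟩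
  rw [IsCyclotomicExtension.finrank (n := p) K
    (Polynomial.cyclotomic.irreducible_rat hp.out.pos), Nat.totient_prime hp.out]

lemma isGalois_cyclotomic (p : ℕ) [Fact p.Prime] (K : Type) [Field K] [NumberField K]
    [IsCyclotomicExtension {p} ℚ K] : IsGalois ℚ K :=
  IsCyclotomicExtension.isGalois {p} ℚ K

lemma isTotallyComplex_cyclotomic (p : ℕ) [Fact p.Prime] (h3 : 3 ≤ p) (K : Type) [Field K]
    [NumberField K] [IsCyclotomicExtension {p} ℚ K] : IsTotallyComplex K :=
  IsCyclotomicExtension.Rat.isTotallyComplex (n := p) K (by omega)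

/-- The place `(ζ - 1)`. -/
noncomputable def lambdaPlace : Place K :=
  haveI : NeZero p := ⟨hp.out.ne_zero⟩
  { asIdeal := Ideal.span {hζ.toInteger - 1}
    isPrime := (Ideal.span_singleton_prime hζ.zeta_sub_one_prime'.ne_zero).mpr
      hζ.zeta_sub_one_prime'
    ne_bot := by simpa using hζ.zeta_sub_one_prime'.ne_zero }

lemma valuation_lambdaPlace : (lambdaPlace hζ).valuation K (ζ - 1) = exp (-1 : ℤ) := by
  have : NeZero p := ⟨hp.out.ne_zero⟩
  rw [show ζ - 1 = algebraMap (𝓞 K) K (hζ.toInteger - 1) by rw [map_sub, map_one]; rfl,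
    HeightOneSpectrum.valuation_of_algebraMap]
  exact HeightOneSpectrum.intValuation_singleton _ hζ.zeta_sub_one_prime'.ne_zero rfl

lemma absNorm_lambdaPlace : Ideal.absNorm (lambdaPlace hζ).asIdeal = p := by
  have : NeZero p := ⟨hp.out.ne_zero⟩
  have : IsCyclotomicExtension {p ^ (0 + 1)} ℚ K := by simpa
  exact IsCyclotomicExtension.Rat.absNorm_span_zeta_sub_one p 0
    (show IsPrimitiveRoot ζ (p ^ (0 + 1)) by simpa using hζ)

lemma valuation_lambdaPlace_lt : (lambdaPlace hζ).valuation K (p : K) < 1 := by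
  rw [valuation_natCast_eq hζ, valuation_lambdaPlace hζ]
  refine pow_lt_one₀ zero_le ?_ (Nat.sub_ne_zero_of_lt hp.out.one_lt)
  rw [← exp_zero, exp_lt_exp]; norm_num

lemma valuation_p_of_ne {v : Place K} (hv : v ≠ lambdaPlace hζ) : v.valuation K (p : K) = 1 := by
  have : NeZero p := ⟨hp.out.ne_zero⟩
  rw [valuation_natCast_eq hζ,
    show ζ - 1 = algebraMap (𝓞 K) K (hζ.toInteger - 1) by rw [map_sub, map_one]; rfl]
  rw [v.valuation_eq_one_iff_notMem.mpr fun hmem => hv (HeightOneSpectrum.ext ?_), one_pow]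
  exact ((lambdaPlace hζ).isMaximal.eq_of_le v.isPrime.ne_top
    ((Ideal.span_singleton_le_iff_mem _).mpr hmem)).symm

lemma eq_lambdaPlace_of_lt {v : Place K} (hv : v.valuation K (p : K) < 1) : v = lambdaPlace hζ := by
  by_contra h
  exact hv.ne (valuation_p_of_ne hζ h)

/-- An everywhere unramified nontrivial radical gives a Kummer setting. -/
lemma setting_of_radical (h3 : 3 ≤ p) {x : Kˣ} (hx : x ∉ powSub K p)
    (hord : ∀ v : Place K, v.valuation K (p : K) = 1 → (p : ℤ) ∣ ord v (x : K))
    (hunr : ∀ v : Place K, v.valuation K (p : K) < 1 → x ∈ unrSub hζ v) :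
    Setting hζ (lambdaPlace hζ) x where
  two := by omega
  val_p v hv := valuation_p_of_ne hζ hv
  above := valuation_lambdaPlace_lt hζ
  norm₀ := absNorm_lambdaPlace hζ
  val₀ := valuation_lambdaPlace hζ
  deg := finrank_cyclotomic hζ
  notPow := hx
  dvd_ord v hv := hord v (valuation_p_of_ne hζ hv)
  unr₀ := hunr _ (valuation_lambdaPlace_lt hζ)

end FLTAgent.Ext
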