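/-
S14 helper library: Lagrange resolvent of a cocycle.
-/
import Fermat.Agent.Ext.Cocycle

set_option autoImplicit false
set_option linter.unusedSectionVars false

open IntermediateField

namespace FLTAgent.Ext

variable {p : ℕ} [hp : Fact p.Prime] {μ : Qb}

lemma apply_root (hμ : IsPrimitiveRoot μ p) (σ : Gb) : σ μ = μ ^ (chiMod p σ).val := by
  have : NeZero p := ⟨hp.out.ne_zero⟩
  have h := modularCyclotomicCharacter.spec Qb (ExtCitation.card_rootsOfUnity_eq_self p)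
    (σ : Qb ≃+* Qb) (t := (hμ.isUnit hp.out.ne_zero).unit)
    (by rw [mem_rootsOfUnity]; ext; simpa using hμ.pow_eq_one)
  rw [← chiMod_eq] at h
  simpa using h

/-- `μ ^ a` for `a : ZMod p`. -/
noncomputable def rootPow (μ : Qb) (a : ZMod p) : Qb := μ ^ a.val

lemma pow_eq_rootPow (hμ : IsPrimitiveRoot μ p) (n : ℕ) : μ ^ n = rootPow μ (n : ZMod p) := by
  rw [rootPow, ZMod.val_natCast, ← pow_eq_pow_mod n hμ.pow_eq_one]

lemma rootPow_add (hμ : IsPrimitiveRoot μ p) (a b : ZMod p) :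
    rootPow μ (a + b) = rootPow μ a * rootPow μ b := by
  have : NeZero p := ⟨hp.out.ne_zero⟩
  rw [rootPow, rootPow, rootPow, ← pow_add, ZMod.val_add, ← pow_eq_pow_mod _ hμ.pow_eq_one]

lemma rootPow_pow (hμ : IsPrimitiveRoot μ p) (a : ZMod p) (n : ℕ) :
    rootPow μ a ^ n = rootPow μ ((n : ZMod p) * a) := by
  have : NeZero p := ⟨hp.out.ne_zero⟩
  rw [rootPow, ← pow_mul, pow_eq_rootPow hμ, Nat.cast_mul, ZMod.natCast_zmod_val, mul_comm]

lemma rootPow_eq_iff (hμ : IsPrimitiveRoot μ p) {a b : ZMod p} :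
    rootPow μ a = rootPow μ b ↔ a = b := by
  have : NeZero p := ⟨hp.out.ne_zero⟩
  exact ⟨fun h => ZMod.val_injective p (hμ.pow_inj (ZMod.val_lt a) (ZMod.val_lt b) h),
    fun h => h ▸ rfl⟩

lemma rootPow_one (hμ : IsPrimitiveRoot μ p) : rootPow μ (1 : ZMod p) = μ := by
  rw [← Nat.cast_one, ← pow_eq_rootPow hμ, pow_one]

lemma apply_rootPow (hμ : IsPrimitiveRoot μ p) (σ : Gb) (a : ZMod p) :
    σ (rootPow μ a) = rootPow μ (chiMod p σ * a) := by
  have : NeZero p := ⟨hp.out.ne_zero⟩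
  show σ (μ ^ a.val) = _
  rw [map_pow, apply_root hμ, ← pow_mul, pow_eq_rootPow hμ, Nat.cast_mul, ZMod.natCast_zmod_val,
    ZMod.natCast_zmod_val]

lemma chiMod_eq_one_iff (hμ : IsPrimitiveRoot μ p) (σ : Gb) : chiMod p σ = 1 ↔ σ μ = μ := by
  rw [← rootPow_eq_iff hμ, rootPow_one hμ, rootPow, ← apply_root hμ]

namespace ExtCocycle

variable (Φ : ExtCocycle p)

lemma f_one : Φ.f 1 = 0 := by
  have h := Φ.map_mul 1 1
  rw [one_mul, chiMod_one, one_mul] at h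
  exact left_eq_add.mp h

lemma f_mul_of_chi {σ τ : Gb} (h : chiMod p τ = 1) : Φ.f (σ * τ) = Φ.f σ + Φ.f τ := by
  rw [Φ.map_mul, h, one_mul]

/-- `θ` is transformed by `μ ^ f`. -/
def Eigen (μ θ : Qb) : Prop :=
  θ ≠ 0 ∧ ∀ h : Gb, chiMod p h = 1 → h θ = rootPow μ (Φ.f h) * θ

variable {Φ}

lemma mem_adjoin_of_fixed (hμ : IsPrimitiveRoot μ p) {z : Qb}
    (h : ∀ σ : Gb, chiMod p σ = 1 → σ z = z) : z ∈ adjoin ℚ {μ} := by
  have := isGalois_qb
  rw [← InfiniteGalois.fixedField_fixingSubgroup (adjoin ℚ {μ}), mem_fixedField_iff]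
  intro σ hσ
  exact h σ ((chiMod_eq_one_iff hμ σ).mpr
    ((mem_fixingSubgroup_iff _ _).mp hσ μ (mem_adjoin_simple_self ℚ μ)))

lemma Eigen.pow_mem (hμ : IsPrimitiveRoot μ p) {θ : Qb} (hθ : Φ.Eigen μ θ) :
    θ ^ p ∈ adjoin ℚ {μ} := by
  refine mem_adjoin_of_fixed hμ fun σ hσ => ?_
  rw [map_pow, hθ.2 σ hσ, mul_pow, rootPow_pow hμ, ZMod.natCast_self, zero_mul]
  simp [rootPow]

lemma Eigen.apply_apply (hμ : IsPrimitiveRoot μ p) {θ : Qb} (hθ : Φ.Eigen μ θ) (σ h : Gb)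
    (hh : chiMod p h = 1) :
    h (σ θ) = rootPow μ (chiMod p σ * (chiMod p σ * Φ.f h)) * σ θ := by
  obtain ⟨h', e⟩ : ∃ h', σ * h' = h * σ := ⟨σ⁻¹ * h * σ, by group⟩
  have hχ : chiMod p h' = 1 := by
    have := congrArg (chiMod p) e
    rw [chiMod_mul, chiMod_mul, hh, one_mul] at this
    exact (mul_eq_left₀ (chiMod_ne_zero p σ)).mp this
  have hf : Φ.f h' = chiMod p σ * Φ.f h := by
    have := congrArg Φ.f e
    rw [Φ.f_mul_of_chi hχ, Φ.map_mul h σ] at this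
    linear_combination this
  show (h * σ) θ = _
  rw [← e, AlgEquiv.mul_apply, hθ.2 h' hχ, _root_.map_mul, apply_rootPow hμ, hf]

lemma Eigen.div_mem (hμ : IsPrimitiveRoot μ p) {θ : Qb} (hθ : Φ.Eigen μ θ) (σ : Gb) {s : ℕ}
    (hs : (s : ZMod p) = chiMod p σ ^ 2) : σ θ / θ ^ s ∈ adjoin ℚ {μ} := by
  refine mem_adjoin_of_fixed hμ fun h hh => ?_
  rw [map_div₀, map_pow, hθ.apply_apply hμ σ h hh, hθ.2 h hh, mul_pow, rootPow_pow hμ, hs, sq,
    mul_assoc, mul_div_mul_left]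
  exact pow_ne_zero _ (hμ.ne_zero hp.out.ne_zero)

/-- Lagrange resolvent. -/
theorem exists_eigen (hμ : IsPrimitiveRoot μ p) (Φ : ExtCocycle p) :
    ∃ θ : Qb, Φ.Eigen μ θ := by
  classical
  have := isGalois_qb
  have : Normal ℚ Qb := isGalois_qb.to_normal
  obtain ⟨E, hE, hEfix⟩ := Φ.finite_level
  have : Algebra.IsIntegral ℚ Qb := (AlgebraicClosure.isAlgebraic ℚ).isIntegral
  have := adjoin.finiteDimensional (Algebra.IsIntegral.isIntegral (R := ℚ) μ)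
  have hnor : Normal ℚ (normalClosure ℚ ↥(E ⊔ adjoin ℚ {μ}) Qb) := normalClosure.normal _ _ _
  set L : IntermediateField ℚ Qb := normalClosure ℚ ↥(E ⊔ adjoin ℚ {μ}) Qb with hL
  have : Normal ℚ L := by rw [hL]; infer_instance
  have : FiniteDimensional ℚ L := by rw [hL]; infer_instance
  have hle : E ⊔ adjoin ℚ {μ} ≤ L := le_normalClosure _
  have hμL : μ ∈ L := hle (le_sup_right (a := E) (mem_adjoin_simple_self ℚ μ))
  -- `f` only depends on the restriction to `L`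
  have hdep : ∀ σ τ : Gb, (∀ x ∈ L, σ x = τ x) → Φ.f σ = Φ.f τ := by
    intro σ τ h
    have hfix : ∀ x ∈ L, (τ⁻¹ * σ) x = x := fun x hx => by
      rw [AlgEquiv.mul_apply, h x hx]
      exact τ.symm_apply_apply x
    have h0 : Φ.f (τ⁻¹ * σ) = 0 := hEfix _ ((mem_fixingSubgroup_iff _ _).mpr fun x hx =>
      hfix x (hle (le_sup_left (b := adjoin ℚ {μ}) hx)))
    have h1 := Φ.f_mul_of_chi (σ := τ) ((chiMod_eq_one_iff hμ _).mpr (hfix μ hμL))
    rw [mul_inv_cancel_left, h0, add_zero] at h1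
    exact h1
  let lift : (L ≃ₐ[ℚ] L) → Gb := fun g => g.liftNormal Qb
  have hlift : ∀ g : L ≃ₐ[ℚ] L, ∀ x : L, lift g (x : Qb) = ((g x : L) : Qb) := fun g x =>
    AlgEquiv.liftNormal_commutes g Qb x
  let μL : L := ⟨μ, hμL⟩
  let HL : Subgroup (L ≃ₐ[ℚ] L) := MulAction.stabilizer (L ≃ₐ[ℚ] L) μL
  have hHL : ∀ g : HL, chiMod p (lift g) = 1 := fun g => by
    rw [chiMod_eq_one_iff hμ, show μ = ((μL : L) : Qb) from rfl, hlift,
      show (g : L ≃ₐ[ℚ] L) μL = μL from g.2]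
  let φ : HL → ZMod p := fun g => Φ.f (lift g)
  have hφ : ∀ g g' : HL, φ (g * g') = φ g + φ g' := by
    intro g g'
    rw [show φ (g * g') = Φ.f (lift g * lift g') from hdep _ _ fun x hx => ?_]
    · exact Φ.f_mul_of_chi (hHL g')
    · rw [AlgEquiv.mul_apply]
      have e1 := hlift ((g : L ≃ₐ[ℚ] L) * g') ⟨x, hx⟩
      have e2 := hlift g' ⟨x, hx⟩
      have e3 := hlift g ((g' : L ≃ₐ[ℚ] L) ⟨x, hx⟩)
      rw [Subgroup.coe_mul, e1, e2, e3, AlgEquiv.mul_apply]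
  -- characters
  let ch : HL → (L →* Qb) := fun g => ((algebraMap L Qb).toMonoidHom).comp
    ((g : L ≃ₐ[ℚ] L).toAlgHom.toRingHom.toMonoidHom)
  have hch : Function.Injective ch := fun g g' h => Subtype.ext (AlgEquiv.ext fun x =>
    Subtype.ext (DFunLike.congr_fun h x))
  have hli := (linearIndependent_monoidHom L Qb).comp ch hch
  obtain ⟨y, hy⟩ : ∃ y : L, ∑ g : HL, rootPow μ (-φ g) * ch g y ≠ 0 := by
    by_contra hcon
    push Not at hcon
    have h := Fintype.linearIndependent_iff.mp hli (fun g => rootPow μ (-φ g))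
      (funext fun y => by simpa [Finset.sum_apply] using hcon y) 1
    exact pow_ne_zero _ (hμ.ne_zero hp.out.ne_zero) h
  refine ⟨_, hy, fun σ hσ => ?_⟩
  set r := AlgEquiv.restrictNormal σ L with hr
  have hrc : ∀ x : L, ((r x : L) : Qb) = σ (x : Qb) := fun x =>
    AlgEquiv.restrictNormal_commutes σ L x
  have hrH : r ∈ HL := Subtype.ext ((hrc μL).trans ((chiMod_eq_one_iff hμ σ).mp hσ))
  have hφr : φ ⟨r, hrH⟩ = Φ.f σ := hdep _ _ fun x hx => by
    rw [hlift r ⟨x, hx⟩]; exact hrc ⟨x, hx⟩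
  rw [map_sum, Finset.mul_sum]
  refine Fintype.sum_equiv (Equiv.mulLeft (⟨r, hrH⟩ : HL)) _ _ fun g => ?_
  rw [_root_.map_mul, apply_rootPow hμ, hσ, one_mul, Equiv.coe_mulLeft, ← mul_assoc, ← rootPow_add hμ,
    hφ, hφr]
  congr 1
  · congr 1; ring
  · exact (hrc _).symm

end ExtCocycle

end FLTAgent.Ext
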