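/-
S14 helper library: unramifiedness of a radical at a place of residue field `F_p` where the
Kummer extension has ramification index one.
-/
import Fermat.Agent.Ext.Kummer

set_option autoImplicit false
set_option linter.unusedSectionVars false

open IsDedekindDomain NumberField WithZero
open scoped NumberField

namespace FLTAgent.Ext

variable {K F : Type*} [Field K] [Field F] [NumberField K] [NumberField F] [Algebra K F]
  {p : ℕ} [hp : Fact p.Prime] {ζ : K} {hζ : IsPrimitiveRoot ζ p} {x : Kˣ}

/-- If `e = 1` above a place with residue field `F_p`, the radical is in `unrSub`. -/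
theorem KummerData.mem_unrSub_of_eIdx_eq_one (D : KummerData hζ x F) {w : Place F}
    (hN : Ideal.absNorm (below K w).asIdeal = p)
    (hval : (below K w).valuation K (ζ - 1) = exp (-1 : ℤ)) (he : eIdx K w = 1) :
    x ∈ unrSub hζ (below K w) := by
  classical
  set v := below K w
  obtain ⟨π, hπ⟩ := exists_ord_eq_one v
  set k := ord w D.root
  have hk : ord v (x : K) = (p : ℤ) * k := by
    have h := congrArg (ord w) D.root_pow
    rw [ord_pow, ord_algebraMap', he, Nat.cast_one, one_mul] at h
    exact h.symm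
  set u : Kˣ := x / (π ^ k) ^ p with hu
  have hu1 : v.valuation K (u : K) = 1 := by
    rw [valuation_eq_one_iff_ord v u.ne_zero, hu, Units.val_div_eq_div_val,
      ord_div v x.ne_zero (Units.ne_zero _), Units.val_pow_eq_pow_val, ord_pow,
      Units.val_zpow_eq_zpow_val, ord_zpow, hπ, hk]
    ring
  have hfer : v.valuation K (((u ^ (p - 1) : Kˣ) : K) - 1) ≤ exp (-1 : ℤ) := by
    have hcard : Nat.card ((𝓞 K) ⧸ v.asIdeal ^ 1)ˣ = p - 1 := by
      rw [natCard_units_residue, hN]
    have h := pow_card_eq_one' (x := resHom v 1 (⟨u, hu1⟩ : unitsAt v))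
    rw [hcard, ← map_pow, resHom_eq_one_iff] at h
    exact h
  set b : F := (D.root / algebraMap K F ((π ^ k : Kˣ) : K)) ^ (p - 1)
  have hb : b ^ p = algebraMap K F ((u ^ (p - 1) : Kˣ) : K) := by
    rw [← pow_mul, mul_comm, pow_mul, div_pow, D.root_pow, hu, Units.val_pow_eq_pow_val,
      Units.val_div_eq_div_val, map_pow, map_div₀, Units.val_pow_eq_pow_val, map_pow]
  have hdw : w.valuation F (algebraMap K F ζ - 1) = exp (-1 : ℤ) := by
    rw [← map_one (algebraMap K F), ← map_sub, valuation_algebraMap', he, pow_one]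
    exact hval
  obtain ⟨i, hi⟩ := D.exists_translate_small w b
  have hlt : w.valuation F (b ^ p - 1) < 1 := by
    rw [hb, ← map_one (algebraMap K F), ← map_sub, valuation_algebraMap', he, pow_one]
    exact hfer.trans_lt (by rw [← exp_zero, exp_lt_exp]; norm_num)
  have hi' : w.valuation F (b - algebraMap K F ζ ^ i) ≤ exp (-1 : ℤ) := by
    refine (valuation_lt_one_iff_le_exp w _).mp (not_le.mp fun h1 => ?_)
    exact absurd (hi.trans_lt hlt) (not_lt.mpr (one_le_pow_of_one_le' h1 p))
  have hall : ∀ j : ℕ, w.valuation F (b - algebraMap K F ζ ^ j) ≤ exp (-1 : ℤ) := by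
    intro j
    have hgeom : ∀ l : ℕ, w.valuation F (algebraMap K F ζ ^ l - 1) ≤ exp (-1 : ℤ) := fun l =>
      hdw ▸ valuation_geom_le D.zeta' w l
    rw [show b - algebraMap K F ζ ^ j = (b - algebraMap K F ζ ^ i) +
      ((algebraMap K F ζ ^ i - 1) - (algebraMap K F ζ ^ j - 1)) by ring]
    exact Valuation.map_add_le _ hi' (Valuation.map_sub_le _ (hgeom i) (hgeom j))
  have hprod : b ^ p - 1 = ∏ j ∈ Finset.range p, (b - algebraMap K F ζ ^ j) := by
    have := congrArg (Polynomial.eval b)
      (X_pow_sub_C_eq_prod D.zeta' hp.out.pos (one_pow p : (1 : F) ^ p = 1))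
    simpa [Polynomial.eval_prod] using this
  have hbound : w.valuation F (b ^ p - 1) ≤ exp (-1 : ℤ) ^ p := by
    rw [hprod, map_prod]
    calc ∏ j ∈ Finset.range p, w.valuation F (b - algebraMap K F ζ ^ j)
        ≤ ∏ _j ∈ Finset.range p, exp (-1 : ℤ) :=
          Finset.prod_le_prod (fun _ _ => zero_le) fun j _ => hall j
      _ = _ := by simp
  rw [hb, ← map_one (algebraMap K F), ← map_sub, valuation_algebraMap', he, pow_one] at hbound
  have hunr : u ^ (p - 1) ∈ nearLE hζ v := by
    refine ⟨?_, ?_⟩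
    · rw [Units.val_pow_eq_pow_val, map_pow, hu1, one_pow]
    · rw [thr, hval]; exact hbound
  have heq : x = (π ^ k * u) ^ p / u ^ (p - 1) := by
    rw [mul_pow, mul_div_assoc]
    rw [show u ^ p / u ^ (p - 1) = u by
      rw [div_eq_iff_eq_mul, ← pow_succ', Nat.sub_add_cancel hp.out.one_le]]
    rw [hu, mul_div_cancel]
  rw [heq]
  exact div_mem (powSub_le_unrSub hζ v (mem_powSub.mpr ⟨_, rfl⟩))
    ((le_sup_left : nearLE hζ v ≤ unrSub hζ v) hunr)

end FLTAgent.Ext
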