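/-
S14 helper library: an everywhere unramified radical of `ℚ(ζ_p)` on which Galois acts through
`χ ^ 2` is a `p`-th power, by the Stickelberger relation for one Jacobi sum.
-/
import Fermat.Agent.Ext.Cyclotomic

set_option autoImplicit false
set_option linter.unusedSectionVars false

open IsDedekindDomain NumberField Module Finset
open scoped NumberField Pointwise

namespace FLTAgent.Ext

variable {K : Type} [Field K] [NumberField K] {p : ℕ} [hp : Fact p.Prime] {ζ : K}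
  {hζ : IsPrimitiveRoot ζ p}

lemma absNorm_conjPlace [IsGalois ℚ K] (σ : K ≃ₐ[ℚ] K) (v : Place K) :
    Ideal.absNorm (conjPlace σ v).asIdeal = Ideal.absNorm v.asIdeal := by
  rw [Ideal.absNorm_apply, Ideal.absNorm_apply, Submodule.cardQuot_apply, Submodule.cardQuot_apply]
  refine (Nat.card_congr (Ideal.quotientEquiv v.asIdeal (conjPlace σ v).asIdeal
    (MulSemiringAction.toRingEquiv _ (𝓞 K) σ) ?_).toEquiv).symm
  rw [show (conjPlace σ v).asIdeal = σ • v.asIdeal from rfl]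
  rfl

/-- The residue symbol is equivariant on units. -/
lemma sym_conjPlace [IsGalois ℚ K] (σ : K ≃ₐ[ℚ] K) {c : ℕ} (hc : σ ζ = ζ ^ c) {v : Place K}
    (hv : v.valuation K (p : K) = 1) {y : Kˣ} (hy : v.valuation K (y : K) = 1) :
    sym hζ (conjPlace σ v) (Additive.ofMul (Units.map (σ : K →* K) y)) =
      (c : ZMod p) * sym hζ v (Additive.ofMul y) := by
  have : NeZero p := ⟨hp.out.ne_zero⟩
  set i := (sym hζ v (Additive.ofMul y)).val
  have hi : sym hζ v (Additive.ofMul y) = (i : ZMod p) := (ZMod.natCast_zmod_val _).symm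
  have h := (sym_eq_iff hζ hv hy i).mp hi
  have hv' : (conjPlace σ v).valuation K (p : K) = 1 := by
    rw [← map_natCast σ, valuation_conjPlace]; exact hv
  have hy' : (conjPlace σ v).valuation K ((Units.map (σ : K →* K) y : Kˣ) : K) = 1 := by
    show (conjPlace σ v).valuation K (σ (y : K)) = 1
    rw [valuation_conjPlace]; exact hy
  rw [hi, ← Nat.cast_mul, sym_eq_iff hζ hv' hy', expo, absNorm_conjPlace, ← expo]
  show (conjPlace σ v).valuation K (σ (y : K) ^ expo p v - ζ ^ (c * i)) < 1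
  rw [pow_mul, ← hc, ← map_pow σ, ← map_pow σ, ← map_sub σ, valuation_conjPlace]
  exact h

lemma exists_val_eq_one {v : Place K} {x : Kˣ} (hx : (p : ℤ) ∣ ord v (x : K)) :
    ∃ z : Kˣ, v.valuation K ((x / z ^ p : Kˣ) : K) = 1 := by
  obtain ⟨k, hk⟩ := hx
  obtain ⟨π, hπ⟩ := exists_ord_eq_one v
  refine ⟨π ^ k, ?_⟩
  rw [valuation_eq_one_iff_ord v (Units.ne_zero _), Units.val_div_eq_div_val,
    ord_div v x.ne_zero (Units.ne_zero _), Units.val_pow_eq_pow_val, ord_pow,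
    Units.val_zpow_eq_zpow_val, ord_zpow, hπ, hk]
  ring

lemma mul_sym_conjPlace [IsGalois ℚ K] {v : Place K} (hv : v.valuation K (p : K) = 1) {x : Kˣ}
    (hx : (p : ℤ) ∣ ord v (x : K)) (σ : K ≃ₐ[ℚ] K) {c : ℕ} (hc : σ ζ = ζ ^ c)
    (heig : Units.map (σ : K →* K) x / x ^ (c ^ 2) ∈ powSub K p) :
    (c : ZMod p) ^ 2 * sym hζ (conjPlace σ v) (Additive.ofMul x) =
      (c : ZMod p) * sym hζ v (Additive.ofMul x) := by
  obtain ⟨z, hz⟩ := exists_val_eq_one hx
  have h1 := sym_conjPlace (hζ := hζ) σ hc hv hz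
  rw [map_div (Units.map (σ : K →* K)), map_pow, ofMul_div, ofMul_div, map_sub, map_sub,
    sym_powSub hζ _ (mem_powSub.mpr ⟨_, rfl⟩), sym_powSub hζ _ (mem_powSub.mpr ⟨_, rfl⟩), sub_zero,
    sub_zero] at h1
  have h2 := sym_powSub hζ (conjPlace σ v) heig
  rw [ofMul_div, map_sub, sub_eq_zero, ofMul_pow, map_nsmul, nsmul_eq_mul] at h2
  rw [← h1, h2, Nat.cast_pow]

section jacobi

variable {ℓ : ℕ} [hℓ : Fact ℓ.Prime] {v : Place K} {m : ℕ}

lemma mem_iff_cast_eq_zero (hv : OverPrime ℓ v) (n : ℕ) :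
    (n : 𝓞 K) ∈ v.asIdeal ↔ (n : ZMod ℓ) = 0 := by
  rw [← v.valuation_lt_one_iff_mem (K := K)]
  change v.valuation K (algebraMap (𝓞 K) K (n : 𝓞 K)) < 1 ↔ _
  rw [map_natCast, ← Int.cast_natCast (R := K), valuation_intCast_lt_one_iff hv, Int.cast_natCast]

lemma ResidueChar.sub_pow_mem (C : ResidueChar hζ v ℓ m) (x : ZMod ℓ) (c : ℕ) :
    C.chi x ^ c - ((x.val ^ m : ℕ) : 𝓞 K) ^ c ∈ v.asIdeal := by
  have h : C.chi x - ((x.val ^ m : ℕ) : 𝓞 K) ∈ v.asIdeal := by
    rw [← v.valuation_lt_one_iff_mem (K := K)]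
    change v.valuation K (algebraMap (𝓞 K) K _) < 1
    rw [map_sub, map_natCast, Nat.cast_pow]
    exact C.congr x
  obtain ⟨d, hd⟩ := sub_dvd_pow_sub_pow (C.chi x) ((x.val ^ m : ℕ) : 𝓞 K) c
  rw [hd]
  exact v.asIdeal.mul_mem_right _ h

lemma ResidueChar.pow_ne_one (C : ResidueChar hζ v ℓ m) (hv : OverPrime ℓ v)
    (hm : ℓ - 1 = p * m) {c : ℕ} (hc : 0 < c) (hcp : c < p) : C.chi ^ c ≠ 1 := by
  intro h
  obtain ⟨g, hg⟩ := IsCyclic.exists_generator (α := (ZMod ℓ)ˣ)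
  have hord : orderOf g = ℓ - 1 := by
    rw [orderOf_eq_card_of_forall_mem_zpowers hg, Nat.card_units, Nat.card_zmod]
  have h1 : (C.chi ^ c) (g : ZMod ℓ) = 1 := by rw [h, MulChar.one_apply_coe]
  rw [MulChar.pow_apply' _ hc.ne'] at h1
  have h2 := C.sub_pow_mem (g : ZMod ℓ) c
  rw [h1, ← Ideal.Quotient.eq, map_one, ← Nat.cast_pow, map_natCast] at h2
  have h3 : ((((g : ZMod ℓ).val ^ m) ^ c : ℕ) : ZMod ℓ) = 1 := by
    have h4 : Ideal.Quotient.mk v.asIdeal
        ((((g : ZMod ℓ).val ^ m) ^ c : ℕ) - 1 : 𝓞 K) = 0 := by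
      rw [map_sub, map_natCast, map_one, ← h2, sub_self]
    rw [Ideal.Quotient.eq_zero_iff_mem] at h4
    by_contra hne
    have h5 : ((((g : ZMod ℓ).val ^ m) ^ c : ℕ) : ℤ) - 1 ≠ 0 := fun h0 => hne (by
      have := congrArg (Int.cast : ℤ → ZMod ℓ) (sub_eq_zero.mp h0)
      simpa using this)
    rw [← v.valuation_lt_one_iff_mem (K := K)] at h4
    change v.valuation K (algebraMap (𝓞 K) K _) < 1 at h4
    rw [map_sub, map_one, map_natCast, ← Int.cast_natCast (R := K), ← Int.cast_one (R := K),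
      ← Int.cast_sub, valuation_intCast_lt_one_iff hv, Int.cast_sub, Int.cast_one,
      Int.cast_natCast, sub_eq_zero] at h4
    exact hne h4
  rw [Nat.cast_pow, Nat.cast_pow, ZMod.natCast_zmod_val, ← pow_mul, ← Units.val_pow_eq_pow_val,
    Units.val_eq_one, ← orderOf_dvd_iff_pow_eq_one, hord, hm] at h3
  have hm0 : 0 < m := Nat.pos_of_ne_zero fun h0 => by
    rw [h0, mul_zero] at hm; have := hℓ.out.two_le; omega
  rw [mul_comm p, Nat.mul_dvd_mul_iff_left hm0] at h3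
  exact absurd (Nat.le_of_dvd hc h3) (by omega)

lemma ResidueChar.valuation_jacobi_lt_iff (C : ResidueChar hζ v ℓ m) (hv : OverPrime ℓ v)
    (hm : ℓ - 1 = p * m) {c : ℕ} (hc : 0 < c) (hcp : c < p) :
    v.valuation K ((jacobiSum (C.chi ^ c) (C.chi ^ c) : 𝓞 K) : K) < 1 ↔ 2 * c < p := by
  have hm0 : 0 < m := Nat.pos_of_ne_zero fun h0 => by
    rw [h0, mul_zero] at hm; have := hℓ.out.two_le; omega
  rw [C.jacobi_congr hv hc hc (fun _ => rfl) (fun _ => rfl)]
  constructor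
  · intro h
    by_contra hle
    refine sum_ne_zero_of_le (Nat.mul_pos hc hm0) ?_ ?_ ?_ h
    · rw [hm]; exact Nat.mul_lt_mul_of_pos_right hcp hm0
    · rw [hm]; exact Nat.mul_lt_mul_of_pos_right hcp hm0
    · rw [hm, ← two_mul, ← mul_assoc]; exact Nat.mul_le_mul_right _ (by omega)
  · intro h
    refine sum_eq_zero_of_lt (Nat.mul_pos hc hm0) ?_
    rw [hm, ← two_mul, ← mul_assoc]
    exact Nat.mul_lt_mul_of_pos_right h hm0

lemma ResidueChar.map_jacobi (C : ResidueChar hζ v ℓ m) (σ : K ≃ₐ[ℚ] K) {c : ℕ} (hc0 : 0 < c)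
    (hc : σ ζ = ζ ^ c) :
    σ ((jacobiSum C.chi C.chi : 𝓞 K) : K) = ((jacobiSum (C.chi ^ c) (C.chi ^ c) : 𝓞 K) : K) := by
  let f : 𝓞 K →+* K := algebraMap (𝓞 K) K
  let s : K →+* K := σ.toAlgHom.toRingHom
  have h : C.chi.ringHomComp (s.comp f) = (C.chi ^ c).ringHomComp f := by
    refine MulChar.ext fun x => ?_
    rw [MulChar.ringHomComp_apply, MulChar.ringHomComp_apply, MulChar.pow_apply' _ hc0.ne', map_pow]
    show σ ((C.chi x : 𝓞 K) : K) = ((C.chi x : 𝓞 K) : K) ^ c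
    rw [C.chi_eq _ x.ne_zero, map_pow, hc, ← pow_mul, ← pow_mul, mul_comm]
  show s (f (jacobiSum C.chi C.chi)) = f (jacobiSum (C.chi ^ c) (C.chi ^ c))
  rw [← RingHom.comp_apply s f, ← jacobiSum_ringHomComp, h, jacobiSum_ringHomComp]

lemma ResidueChar.exists_mul_eq (C : ResidueChar hζ v ℓ m) (hv : OverPrime ℓ v)
    (hm : ℓ - 1 = p * m) (h3 : 3 ≤ p) :
    ∃ J' : 𝓞 K, ((jacobiSum C.chi C.chi : 𝓞 K) : K) * (J' : K) = (ℓ : K) := by
  let f : 𝓞 K →+* K := algebraMap (𝓞 K) K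
  have hf : Function.Injective f := RingOfIntegers.coe_injective
  have hne : ∀ c, 0 < c → c < p → C.chi.ringHomComp f ^ c ≠ 1 := fun c h1 h2 h => by
    rw [MulChar.ringHomComp_pow, MulChar.ringHomComp_eq_one_iff hf] at h
    exact C.pow_ne_one hv hm h1 h2 h
  have h := jacobiSum_mul_jacobiSum_inv (F := ZMod ℓ) (F' := K) (χ := C.chi.ringHomComp f)
    (φ := C.chi.ringHomComp f)
    (by rw [ringChar.eq_zero, ZMod.ringChar_zmod_n]; exact hℓ.out.ne_zero.symm)
    (by simpa using hne 1 one_pos (by omega)) (by simpa using hne 1 one_pos (by omega))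
    (by simpa [sq] using hne 2 two_pos (by omega))
  rw [ZMod.card, jacobiSum_ringHomComp, MulChar.ringHomComp_inv, jacobiSum_ringHomComp] at h
  exact ⟨_, h⟩

end jacobi

lemma sum_half_ne_zero (h3 : 3 ≤ p) :
    ∑ u : (ZMod p)ˣ, (if 2 * (u : ZMod p).val < p then (u : ZMod p) else 0) ≠ 0 := by
  have : NeZero p := ⟨hp.out.ne_zero⟩
  obtain ⟨h, hh⟩ := hp.out.odd_of_ne_two (by omega)
  set F : ZMod p → ZMod p := fun x => if 2 * x.val < p then x else 0
  have h1 : ∑ u : (ZMod p)ˣ, F (u : ZMod p) = ∑ x : ZMod p, F x := by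
    refine Finset.sum_bij_ne_zero (fun u _ _ => (u : ZMod p)) (fun _ _ _ => Finset.mem_univ _)
      (fun _ _ _ _ _ _ he => Units.ext he) (fun x _ hx => ?_) (fun _ _ _ => rfl)
    have hx0 : x ≠ 0 := by rintro rfl; exact hx (by simp [F])
    exact ⟨Units.mk0 x hx0, Finset.mem_univ _, hx, rfl⟩
  have h2 : ∑ x : ZMod p, F x = ((∑ i ∈ range (h + 1), i : ℕ) : ZMod p) := by
    rw [Nat.cast_sum]
    refine Finset.sum_bij_ne_zero (fun x _ _ => x.val) (fun x _ hx => ?_)
      (fun _ _ _ _ _ _ he => ZMod.val_injective p he) (fun i hi hi0 => ?_) (fun x _ hx => ?_)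
    · rw [Finset.mem_range]
      by_contra hlt
      exact hx (if_neg (by omega))
    · rw [Finset.mem_range] at hi
      have hv : ((i : ZMod p)).val = i := ZMod.val_cast_of_lt (by omega)
      refine ⟨(i : ZMod p), Finset.mem_univ _, ?_, hv⟩
      simp only [F, hv, if_pos (show 2 * i < p by omega)]
      exact hi0
    · rw [ZMod.natCast_zmod_val]
      exact if_pos (by by_contra hlt; exact hx (if_neg hlt))
  show ∑ u : (ZMod p)ˣ, F (u : ZMod p) ≠ 0
  rw [h1, h2]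
  intro h0
  have h8 := Finset.sum_range_id_mul_two (h + 1)
  rw [Nat.add_sub_cancel] at h8
  have h9 : ((((∑ i ∈ range (h + 1), i) * 2 : ℕ)) : ZMod p) = 0 := by
    rw [Nat.cast_mul, h0, zero_mul]
  rw [h8, Nat.cast_mul, Nat.cast_succ, mul_eq_zero] at h9
  have hp2 : (2 : ZMod p) * h + 1 = 0 := by
    have h10 : ((2 * h + 1 : ℕ) : ZMod p) = 0 := by rw [← hh]; exact ZMod.natCast_self p
    push_cast at h10
    exact h10
  rcases h9 with h9 | h9
  · have : (1 : ZMod p) = 0 := by linear_combination 2 * h9 - hp2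
    exact one_ne_zero this
  · rw [h9, mul_zero, zero_add] at hp2
    exact one_ne_zero hp2

/-- No everywhere unramified nontrivial radical is an eigenvector for `χ ^ 2`. -/
theorem false_of_radical [IsCyclotomicExtension {p} ℚ K] (h3 : 3 ≤ p)
    (hζ : IsPrimitiveRoot ζ p) {x : Kˣ} (hx : x ∉ powSub K p)
    (hord : ∀ v : Place K, v.valuation K (p : K) = 1 → (p : ℤ) ∣ ord v (x : K))
    (hunr : ∀ v : Place K, v.valuation K (p : K) < 1 → x ∈ unrSub hζ v)
    (heig : ∀ (σ : K ≃ₐ[ℚ] K) (c : ℕ), σ ζ = ζ ^ c →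
      Units.map (σ : K →* K) x / x ^ (c ^ 2) ∈ powSub K p) : False := by
  classical
  have : NeZero p := ⟨hp.out.ne_zero⟩
  have := isGalois_cyclotomic p K
  have := isTotallyComplex_cyclotomic p h3 K
  set v₀ := lambdaPlace hζ with hv₀
  have hs := setting_of_radical hζ h3 hx hord hunr
  obtain ⟨v, hv0, hvp, hvsplit⟩ := exists_place_notMem_splitSub hζ hx {v₀}
  rw [Finset.mem_singleton] at hv0
  set g : Place K → ZMod p := fun w => sym hζ w (Additive.ofMul x) with hgdef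
  have hg : g v ≠ 0 := fun h => hvsplit ((mem_splitSub_iff hζ hvp x).mpr ⟨hord v hvp, h⟩)
  -- the Galois group
  set e := IsCyclotomicExtension.autEquivPow (n := p) K
    (Polynomial.cyclotomic.irreducible_rat hp.out.pos : Irreducible (Polynomial.cyclotomic p ℚ))
  have he : ∀ σ : K ≃ₐ[ℚ] K, σ ζ = ζ ^ ((e σ : ZMod p)).val := by
    intro σ
    have hz := IsCyclotomicExtension.zeta_spec p ℚ K
    obtain ⟨j, -, hj⟩ := hz.eq_pow_of_pow_eq_one hζ.pow_eq_one
    rw [← hj, map_pow, ← pow_mul, mul_comm, pow_mul]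
    exact congrArg (· ^ j) (hz.autToPow_spec ℚ σ).symm
  have hgal : ∀ σ : K ≃ₐ[ℚ] K, g (conjPlace σ v) * (e σ : ZMod p) = g v := by
    intro σ
    have h := mul_sym_conjPlace (hζ := hζ) hvp (hord v hvp) σ (he σ) (heig σ _ (he σ))
    rw [ZMod.natCast_zmod_val, sq, mul_assoc] at h
    rw [mul_comm]
    exact mul_left_cancel₀ (Units.ne_zero _) h
  have hfree : Function.Injective fun σ : K ≃ₐ[ℚ] K => conjPlace σ v := by
    intro σ τ h
    have h1 := hgal σ
    rw [show conjPlace σ v = conjPlace τ v from h, ← hgal τ] at h1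
    have hτ : g (conjPlace τ v) ≠ 0 := fun h0 => hg (by rw [← hgal τ, h0, zero_mul])
    exact e.injective (Units.ext (mul_left_cancel₀ hτ h1))
  -- the residue prime has degree one
  obtain ⟨ℓ, hℓ, hℓv, f, hf, hN⟩ := exists_prime_over v
  have : Fact ℓ.Prime := ⟨hℓ⟩
  have hover : ∀ σ : K ≃ₐ[ℚ] K, OverPrime ℓ (conjPlace σ v) := fun σ => by
    show (conjPlace σ v).valuation K (ℓ : K) < 1
    rw [← map_natCast σ, valuation_conjPlace]; exact hℓv
  set P : Ideal (𝓞 K) := ∏ σ : K ≃ₐ[ℚ] K, (conjPlace σ v).asIdeal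
  have hcard : Nat.card (K ≃ₐ[ℚ] K) = p - 1 := by
    rw [IsGalois.card_aut_eq_finrank, finrank_cyclotomic hζ]
  have hPdvd : P ∣ Ideal.span {(ℓ : 𝓞 K)} := by
    refine Finset.prod_dvd_of_coprime (fun σ _ τ _ hne => ?_) fun σ _ => ?_
    · rw [Function.onFun, Ideal.isCoprime_iff_sup_eq]
      exact (conjPlace σ v).isMaximal.coprime_of_ne (conjPlace τ v).isMaximal
        fun h => hne (hfree (HeightOneSpectrum.ext h))
    · rw [Ideal.dvd_span_singleton, mem_iff_cast_eq_zero (hover σ), ZMod.natCast_self]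
  have hnormℓ : Ideal.absNorm (Ideal.span {(ℓ : 𝓞 K)}) = ℓ ^ (p - 1) := by
    rw [Ideal.absNorm_span_singleton, ← map_natCast (algebraMap ℤ (𝓞 K)),
      Algebra.norm_algebraMap, Int.natAbs_pow, Int.natAbs_natCast, RingOfIntegers.rank,
      finrank_cyclotomic hζ]
  have hnormP : Ideal.absNorm P = ℓ ^ (f * (p - 1)) := by
    simp only [P, map_prod, absNorm_conjPlace, hN, Finset.prod_const, Finset.card_univ]
    rw [← Nat.card_eq_fintype_card, hcard, ← pow_mul]
  obtain ⟨R, hR⟩ := hPdvd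
  have hf1 : f = 1 := by
    have h := (hnormP ▸ hnormℓ ▸ map_dvd Ideal.absNorm (Dvd.intro R hR.symm) :
      ℓ ^ (f * (p - 1)) ∣ ℓ ^ (p - 1))
    rw [Nat.pow_dvd_pow_iff_le_right hℓ.one_lt] at h
    exact le_antisymm (Nat.le_of_mul_le_mul_right (by simpa using h) (by omega : 0 < p - 1)) hf
  subst hf1
  rw [one_mul] at hnormP
  rw [pow_one] at hN
  have hR1 : R = ⊤ := by
    rw [← Ideal.absNorm_eq_one_iff]
    have h := congrArg Ideal.absNorm hR
    rw [map_mul, hnormℓ, hnormP] at h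
    exact (mul_eq_left₀ (pow_ne_zero _ hℓ.ne_zero)).mp h.symm
  rw [hR1, Ideal.mul_top] at hR
  have hsupp : ∀ w : Place K, OverPrime ℓ w → ∃ σ : K ≃ₐ[ℚ] K, conjPlace σ v = w := by
    intro w hw
    have hle : P ≤ w.asIdeal := by
      rw [← hR, Ideal.span_singleton_le_iff_mem, mem_iff_cast_eq_zero hw, ZMod.natCast_self]
    obtain ⟨σ, -, hσ⟩ := (w.isPrime.prod_le).mp hle
    exact ⟨σ, HeightOneSpectrum.ext
      ((conjPlace σ v).isMaximal.eq_of_le w.isPrime.ne_top hσ)⟩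
  have hsq : (ℓ : 𝓞 K) ∉ v.asIdeal ^ 2 := by
    intro h
    rw [← Ideal.dvd_span_singleton, hR] at h
    simp only [P] at h
    rw [← Finset.mul_prod_erase _ _ (Finset.mem_univ (1 : K ≃ₐ[ℚ] K)), conjPlace_one, sq] at h
    rw [mul_dvd_mul_iff_left v.ne_bot] at h
    obtain ⟨σ, hσ, hd⟩ := v.prime.exists_mem_finset_dvd h
    refine Finset.ne_of_mem_erase hσ (hfree ?_)
    show conjPlace σ v = conjPlace 1 v
    rw [conjPlace_one]
    exact HeightOneSpectrum.ext ((conjPlace σ v).isMaximal.eq_of_le v.isPrime.ne_top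
      (Ideal.le_of_dvd hd))
  -- the Jacobi sum
  have hℓp : ℓ ≠ p := by
    rintro rfl
    exact hvp.not_lt hℓv
  obtain ⟨m, hm⟩ := hN ▸ dvd_absNorm_sub_one hζ hvp
  have hm0 : 0 < m := Nat.pos_of_ne_zero fun h0 => by
    rw [h0, mul_zero] at hm; have := hℓ.two_le; omega
  obtain ⟨C⟩ := exists_residueChar (hζ := hζ) hℓv hℓp hm0 ⟨1, by rw [hm]; ring⟩
  obtain ⟨J', hJJ⟩ := C.exists_mul_eq hℓv hm h3
  set J : 𝓞 K := jacobiSum C.chi C.chi
  have hℓK : (ℓ : K) ≠ 0 := Nat.cast_ne_zero.mpr hℓ.ne_zero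
  have hJ0 : (J : K) ≠ 0 := fun h => hℓK (by rw [← hJJ, h, zero_mul])
  have hJ'0 : (J' : K) ≠ 0 := fun h => hℓK (by rw [← hJJ, h, mul_zero])
  set y : Kˣ := Units.mk0 (J : K) hJ0
  have hordle : ∀ w : Place K, 0 ≤ ord w (y : K) ∧ ord w (y : K) ≤ ord w (ℓ : K) := by
    intro w
    refine ⟨ord_algebraMap_nonneg w J, ?_⟩
    rw [← hJJ, ord_mul w hJ0 hJ'0, show (y : K) = (J : K) from rfl]
    linarith [ord_algebraMap_nonneg w J']
  have hordzero : ∀ w : Place K, ¬ OverPrime ℓ w → ord w (y : K) = 0 := by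
    intro w hw
    have h1 : ord w (ℓ : K) = 0 := (valuation_eq_one_iff_ord w hℓK).mp
      (le_antisymm (valuation_natCast_le_one w ℓ) (not_lt.mp hw))
    have := hordle w
    omega
  have hordℓ : ord v (ℓ : K) ≤ 1 := by
    by_contra hlt
    refine hsq ?_
    rw [← valuation_le_exp_iff_mem]
    change v.valuation K (algebraMap (𝓞 K) K (ℓ : 𝓞 K)) ≤ _
    rw [map_natCast, valuation_eq_exp_ord v hℓK, WithZero.exp_le_exp]
    omega
  have hv₀y : (p : ℤ) ∣ ord v₀ (y : K) := by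
    rw [hordzero v₀ fun h => ?_]
    · exact dvd_zero _
    · have := valuation_p_eq_one_of_overPrime (p := p) h hℓp
      exact this.not_lt (valuation_lambdaPlace_lt hζ)
  have hpair := pairing_sym_eq_zero hs hv₀y
  rw [pairing_apply, finsum_eq_sum_of_support_subset _
    (s := (Finset.univ : Finset (K ≃ₐ[ℚ] K)).image fun σ => conjPlace σ v) ?_,
    Finset.sum_image fun σ _ τ _ h => hfree h] at hpair
  swap
  · intro w hw
    simp only [Finset.coe_image, Finset.coe_univ, Set.image_univ, Set.mem_range]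
    refine hsupp w ?_
    by_contra hno
    exact hw (by simp [hordzero w hno])
  set F : (ZMod p)ˣ → ZMod p := fun u => if 2 * (u : ZMod p).val < p then (u : ZMod p) else 0
    with hF
  have hterm : ∀ σ : K ≃ₐ[ℚ] K,
      g (conjPlace σ v) * (ord (conjPlace σ v) (y : K) : ZMod p) = g v * F (e σ⁻¹) := by
    intro σ
    set d := (e σ⁻¹ : ZMod p).val with hd
    have hd0 : 0 < d := Nat.pos_of_ne_zero fun h0 =>
      Units.ne_zero (e σ⁻¹) ((ZMod.val_eq_zero _).mp h0)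
    have hdp : d < p := ZMod.val_lt _
    have hval : (conjPlace σ v).valuation K (y : K) < 1 ↔ 2 * d < p := by
      rw [← C.valuation_jacobi_lt_iff hℓv hm hd0 hdp, ← C.map_jacobi σ⁻¹ hd0 (he σ⁻¹),
        valuation_apply_eq, inv_inv]
      rfl
    have hgσ : g (conjPlace σ v) = g v * (e σ⁻¹ : ZMod p) := by
      rw [← hgal σ, mul_assoc, ← Units.val_mul, ← map_mul, mul_inv_cancel, map_one, Units.val_one,
        mul_one]
    have hle1 : ord (conjPlace σ v) (ℓ : K) ≤ 1 := by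
      rw [← map_natCast σ, ord, valuation_conjPlace]; exact hordℓ
    by_cases h2 : 2 * d < p
    · have h1 := (valuation_lt_one_iff_ord _ y.ne_zero).mp (hval.mpr h2)
      have := (hordle (conjPlace σ v)).2
      rw [show ord (conjPlace σ v) (y : K) = 1 by omega, hgσ]
      simp only [F]
      rw [← hd, if_pos h2, Int.cast_one, mul_one]
    · have h1 : ord (conjPlace σ v) (y : K) = 0 := by
        refine le_antisymm ?_ (hordle _).1
        exact not_lt.mp fun h => h2 (hval.mp ((valuation_lt_one_iff_ord _ y.ne_zero).mpr h))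
      simp only [F]
      rw [h1, ← hd, if_neg h2, Int.cast_zero, mul_zero, mul_zero]
  rw [Finset.sum_congr rfl fun σ _ => hterm σ, ← Finset.mul_sum,
    Fintype.sum_equiv ((Equiv.inv (K ≃ₐ[ℚ] K)).trans e.toEquiv) (fun σ => F (e σ⁻¹)) F
      (fun σ => rfl), mul_eq_zero] at hpair
  exact hpair.elim hg (sum_half_ne_zero h3)

end FLTAgent.Ext
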