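/-
S14 helper library: the everywhere unramified radical attached to a nonsplit admissible extension.
-/
import Fermat.Agent.Ext.Eigenvector
import Fermat.Agent.Ext.LocalCriterion
import Fermat.Agent.Ext.Stickelberger
import Fermat.Agent.Frobenius.Places

set_option autoImplicit false
set_option linter.unusedSectionVars false

open IsDedekindDomain NumberField IntermediateField
open scoped NumberField

namespace FLTAgent.Ext

variable {p : ℕ} [hp : Fact p.Prime] {μ : Qb}

/-- A totally ramified place of the Kummer field produces an inertia element with nonzero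
cocycle. -/
lemma ExtCocycle.exists_inertia (Φ : ExtCocycle p) (hμ : IsPrimitiveRoot μ p)
    {K F : Type} [Field K] [NumberField K] [Field F] [NumberField F] [Algebra K F]
    {ζ : K} {hζ : IsPrimitiveRoot ζ p} [Algebra K Qb] (hK : algebraMap K Qb ζ = μ)
    {x : Kˣ} (D : KummerData hζ x F) (φ : F →ₐ[K] Qb) (hθ : Φ.Eigen μ (φ D.root))
    {w : Place F} (hw : D.Fixed w) (hdeg : w.asIdeal.inertiaDeg (𝓞 K) = 1)
    {ℓ : ℕ} (hℓ : OverPrime ℓ w) :
    ∃ A : ValuationSubring Qb, A.LiesOverPrime ℓ ∧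
      ∃ ι ∈ A.inertiaSubgroupIn ℚ, chiMod p ι = 1 ∧ Φ.f ι = 1 := by
  have hgalois := D.galois
  have : Normal ℚ Qb := isGalois_qb.to_normal
  -- the valuation subring above `w`
  let ψ : 𝓞 F →+* Qb := φ.toRingHom.comp (algebraMap (𝓞 F) F)
  have hψ : Function.Injective ψ := φ.toRingHom.injective.comp RingOfIntegers.coe_injective
  have hbij : Function.Bijective ψ.rangeRestrict :=
    ⟨fun a b h => hψ (congrArg Subtype.val h), ψ.rangeRestrict_surjective⟩
  have hne : w.asIdeal.map ψ.rangeRestrict ≠ ⊤ := fun h => w.isPrime.ne_top (by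
    rw [← Ideal.comap_map_of_bijective ψ.rangeRestrict hbij (I := w.asIdeal), h, Ideal.comap_top])
  obtain ⟨A, -, hA⟩ := Ideal.image_subset_nonunits_valuationSubring _ hne
  have hAw : ∀ r : 𝓞 F, r ∈ w.asIdeal → ψ r ∈ A.nonunits := fun r hr =>
    hA ⟨ψ.rangeRestrict r, Ideal.mem_map_of_mem _ hr, rfl⟩
  refine ⟨A, ?_, ?_⟩
  · show (ℓ : Qb) ∈ A.nonunits
    rw [← map_natCast ψ]
    refine hAw _ ?_
    rw [← w.valuation_lt_one_iff_mem (K := F)]
    change w.valuation F (algebraMap (𝓞 F) F (ℓ : 𝓞 F)) < 1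
    rw [map_natCast]
    exact hℓ
  -- the normal field containing `μ` and the root
  set L : IntermediateField ℚ Qb := adjoin ℚ {μ, φ D.root} with hL
  have hμL : μ ∈ L := subset_adjoin ℚ _ (Set.mem_insert _ _)
  have hθL : φ D.root ∈ L := subset_adjoin ℚ _ (Set.mem_insert_of_mem _ rfl)
  have hKL : adjoin ℚ {μ} ≤ L := adjoin.mono ℚ _ _ (by simp)
  have : Normal ℚ L := by
    refine normal_iff_forall_map_le'.mpr fun σ => ?_
    rw [hL, adjoin_map, adjoin_le_iff, Set.image_pair, ← hL]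
    refine Set.insert_subset ?_ (Set.singleton_subset_iff.mpr ?_)
    · show σ μ ∈ L
      rw [apply_root hμ]
      exact pow_mem hμL _
    · show σ (φ D.root) ∈ L
      have : NeZero p := ⟨hp.out.ne_zero⟩
      have h := hKL (hθ.div_mem hμ σ (s := (chiMod p σ ^ 2).val) (ZMod.natCast_zmod_val _))
      have h2 := mul_mem h (pow_mem hθL (chiMod p σ ^ 2).val)
      rwa [div_mul_cancel₀ _ (pow_ne_zero _ hθ.1)] at h2
  -- the lift of the generator
  let : Algebra F Qb := φ.toRingHom.toAlgebra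
  have htower : IsScalarTower K F Qb := IsScalarTower.of_algebraMap_eq fun a => (φ.commutes a).symm
  have : Algebra.IsAlgebraic ℚ Qb := AlgebraicClosure.isAlgebraic ℚ
  have : IsScalarTower ℚ K Qb := IsScalarTower.of_algebraMap_eq' (Subsingleton.elim _ _)
  have : Normal K Qb := Normal.tower_top_of_normal ℚ K Qb
  set g₀ : Qb ≃ₐ[K] Qb := D.gen.liftNormal Qb
  set g : Gb := g₀.restrictScalars ℚ
  have hgφ : ∀ z : F, g (φ z) = φ (D.gen z) := fun z => AlgEquiv.liftNormal_commutes D.gen Qb z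
  have hgμ : g μ = μ := by rw [← hK]; exact g₀.commutes ζ
  have hgθ : g (φ D.root) = μ * φ D.root := by
    rw [hgφ, D.gen_root, _root_.map_mul, φ.commutes, hK]
  have hcong : ∀ z : Frobenius.Zbar, (z : Qb) ∈ L → g • z - z ∈ Frobenius.centre A := by
    intro z hz
    let φQ : F →ₐ[ℚ] Qb := φ.toRingHom.toRatAlgHom
    have hle : L ≤ φQ.fieldRange := by
      rw [hL, adjoin_le_iff]
      refine Set.insert_subset ⟨algebraMap K F ζ, ?_⟩ (Set.singleton_subset_iff.mpr ⟨D.root, rfl⟩)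
      exact (φ.commutes ζ).trans hK
    obtain ⟨y, hy⟩ := hle hz
    have hy' : φ y = (z : Qb) := hy
    have hyint : IsIntegral ℤ y := by
      have h : IsIntegral ℤ (φ y) := hy' ▸ z.2
      exact (isIntegral_algHom_iff (φ.restrictScalars ℤ) φ.toRingHom.injective).mp h
    have hy1 : w.valuation F y ≤ 1 := valuation_coe_le_one w ⟨y, hyint⟩
    obtain ⟨c, -, hc⟩ := exists_sub_lt_one_of_inertiaDeg_eq_one w hdeg hy1
    have hc' : w.valuation F (D.gen y - algebraMap K F c) < 1 := by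
      rw [← AlgEquiv.commutes D.gen c, ← map_sub, D.valuation_gen hw]
      exact hc
    have hdiff : w.valuation F (D.gen y - y) < 1 := by
      rw [show D.gen y - y = (D.gen y - algebraMap K F c) - (y - algebraMap K F c) by ring]
      exact (Valuation.map_sub _ _ _).trans_lt (max_lt hc' hc)
    have hgint : IsIntegral ℤ (D.gen y - y) :=
      (hyint.map (D.gen.toAlgHom.restrictScalars ℤ)).sub hyint
    obtain ⟨r, hr⟩ : ∃ r : 𝓞 F, (r : F) = D.gen y - y := ⟨⟨_, hgint⟩, rfl⟩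
    have hmem : r ∈ w.asIdeal := by
      rw [← w.valuation_lt_one_iff_mem (K := F)]
      change w.valuation F (r : F) < 1
      rw [hr]
      exact hdiff
    rw [Frobenius.mem_centre]
    show g (z : Qb) - (z : Qb) ∈ A.nonunits
    rw [← hy', hgφ, ← map_sub, ← hr]
    exact hAw _ hmem
  obtain ⟨ι, hιA, hιL⟩ := Frobenius.exists_mem_inertiaSubgroupIn_eqOn L g hcong
  have hχ : chiMod p ι = 1 := (chiMod_eq_one_iff hμ ι).mpr ((hιL μ hμL).trans hgμ)
  refine ⟨ι, hιA, hχ, ?_⟩
  have h := hθ.2 ι hχ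
  rw [hιL _ hθL, hgθ] at h
  have h1 := mul_right_cancel₀ hθ.1 h
  conv_lhs at h1 => rw [← rootPow_one (p := p) hμ]
  exact ((rootPow_eq_iff hμ).mp h1).symm

/-- **No nonsplit cocycle exists.** -/
theorem ExtCocycle.elim (Φ : ExtCocycle p) (h3 : 3 ≤ p) : False := by
  classical
  have : NeZero p := ⟨hp.out.ne_zero⟩
  have : Normal ℚ Qb := isGalois_qb.to_normal
  have : Algebra.IsAlgebraic ℚ Qb := AlgebraicClosure.isAlgebraic ℚ
  have : Algebra.IsIntegral ℚ Qb := Algebra.IsAlgebraic.isIntegral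
  obtain ⟨μ, hμ⟩ := HasEnoughRootsOfUnity.exists_primitiveRoot Qb p
  obtain ⟨θ₀, hθ₀⟩ := ExtCocycle.exists_eigen hμ Φ
  -- the cyclotomic field
  let K : IntermediateField ℚ Qb := adjoin ℚ {μ}
  have : IsCyclotomicExtension {p} ℚ K := hμ.intermediateField_adjoin_isCyclotomicExtension ℚ
  have : FiniteDimensional ℚ K :=
    adjoin.finiteDimensional (Algebra.IsIntegral.isIntegral (R := ℚ) μ)
  have : NumberField K := NumberField.of_module_finite ℚ K
  let ζ : K := ⟨μ, mem_adjoin_simple_self ℚ μ⟩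
  have hζ : IsPrimitiveRoot ζ p :=
    IsPrimitiveRoot.of_map_of_injective (f := algebraMap K Qb) hμ (algebraMap K Qb).injective
  let a : K := ⟨θ₀ ^ p, hθ₀.pow_mem hμ⟩
  have ha0 : a ≠ 0 := fun h => pow_ne_zero p hθ₀.1 (congrArg Subtype.val h)
  set x : Kˣ := Units.mk0 a ha0
  have hfixK : ∀ (σ : Gb), chiMod p σ = 1 → ∀ z : K, σ (z : Qb) = (z : Qb) := by
    intro σ hσ z
    have hle : adjoin ℚ {μ} ≤ IntermediateField.fixedField (Subgroup.zpowers σ) := by
      rw [adjoin_simple_le_iff, mem_fixedField_iff]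
      intro τ hτ
      refine (chiMod_eq_one_iff hμ τ).mp ?_
      obtain ⟨n, rfl⟩ := hτ
      let χ : Gb →* ZMod p :=
        { toFun := chiMod p, map_one' := chiMod_one p, map_mul' := chiMod_mul p }
      show χ (σ ^ n) = 1
      cases n with
      | ofNat n =>
        rw [Int.ofNat_eq_natCast, zpow_natCast, map_pow, show χ σ = 1 from hσ, one_pow]
      | negSucc n =>
        rw [zpow_negSucc]
        have h := _root_.map_mul χ (σ ^ (n + 1)) (σ ^ (n + 1))⁻¹
        rw [mul_inv_cancel, map_one, map_pow, show χ σ = 1 from hσ, one_pow, one_mul] at h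
        exact h.symm
    exact (mem_fixedField_iff _ _).mp (hle z.2) σ (Subgroup.mem_zpowers σ)
  -- `x` is not a `p`-th power
  have hnot : x ∉ powSub K p := by
    intro h
    obtain ⟨y, hy⟩ := mem_powSub.mp h
    have hy' : ((y : K) : Qb) ^ p = θ₀ ^ p := congrArg (fun z : Kˣ => ((z : K) : Qb)) hy
    have hy0 : ((y : K) : Qb) ≠ 0 := fun h0 => y.ne_zero (Subtype.ext h0)
    obtain ⟨i, -, hi⟩ := hμ.eq_pow_of_pow_eq_one
      (show (θ₀ / ((y : K) : Qb)) ^ p = 1 by
        rw [div_pow, hy', div_self (pow_ne_zero _ hθ₀.1)])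
    obtain ⟨h, hχ, hf⟩ := Φ.nontrivial
    have hfix : h θ₀ = θ₀ := by
      rw [eq_div_iff hy0] at hi
      rw [← hi, _root_.map_mul, map_pow, (chiMod_eq_one_iff hμ h).mp hχ, hfixK h hχ]
    have h1 := hθ₀.2 h hχ
    rw [hfix] at h1
    have h2 : rootPow μ (Φ.f h) = rootPow μ (0 : ZMod p) := by
      rw [show rootPow μ (0 : ZMod p) = 1 by simp [rootPow]]
      exact (mul_eq_right₀ hθ₀.1).mp h1.symm
    exact hf ((rootPow_eq_iff hμ).mp h2)
  -- the Kummer field
  obtain ⟨F, _, _, _, ⟨D⟩⟩ := exists_kummerData hζ hnot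
  have := D.finiteDimensional
  let φ : F →ₐ[K] Qb := IsAlgClosed.lift
  have hroot : φ D.root ^ p = θ₀ ^ p := by
    rw [← map_pow, D.root_pow, φ.commutes]; rfl
  have hθ : Φ.Eigen μ (φ D.root) := by
    refine ⟨fun h => pow_ne_zero p hθ₀.1 (by rw [← hroot, h, zero_pow hp.out.ne_zero]), fun σ hσ => ?_⟩
    obtain ⟨i, -, hi⟩ := hμ.eq_pow_of_pow_eq_one
      (show (φ D.root / θ₀) ^ p = 1 by rw [div_pow, hroot, div_self (pow_ne_zero _ hθ₀.1)])
    rw [eq_div_iff hθ₀.1] at hi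
    rw [← hi, _root_.map_mul, map_pow, (chiMod_eq_one_iff hμ σ).mp hσ, hθ₀.2 σ hσ]
    ring
  have hover : ∀ w : Place F, ∀ ℓ : ℕ, OverPrime ℓ (below K w) → OverPrime ℓ w := fun w ℓ h => by
    show w.valuation F (ℓ : F) < 1
    rw [← map_natCast (algebraMap K F), valuation_algebraMap_lt_one_iff]
    exact h
  -- conditions
  have hord : ∀ v : Place K, v.valuation K (p : K) = 1 → (p : ℤ) ∣ ord v (x : K) := by
    intro v hv
    by_contra hnd
    obtain ⟨w, rfl⟩ := exists_place_over (F := F) v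
    obtain ⟨hfix, he⟩ := D.spec_of_not_mem_unrSub hv
      fun hu => hnd (dvd_ord_of_mem_unrSub hζ hu)
    obtain ⟨ℓ, hℓ, hℓv, -⟩ := exists_prime_over (below K w)
    have hℓp : ℓ ≠ p := by
      rintro rfl
      exact hv.not_lt hℓv
    obtain ⟨A, hA, ι, hι, -, hf⟩ := Φ.exists_inertia hμ (hζ := hζ) rfl D φ hθ hfix
      (D.inertiaDeg_of_eIdx_eq hfix he) (hover w ℓ hℓv)
    exact one_ne_zero (hf.symm.trans (Φ.unramified ℓ hℓ hℓp A hA ι hι))
  have hunr : ∀ v : Place K, v.valuation K (p : K) < 1 → x ∈ unrSub hζ v := by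
    intro v hv
    obtain ⟨w, rfl⟩ := exists_place_over (F := F) v
    have hlam := eq_lambdaPlace_of_lt hζ hv
    rcases D.eIdx_eq_one_or w with he | ⟨hfix, he⟩
    · exact D.mem_unrSub_of_eIdx_eq_one (by rw [hlam]; exact absNorm_lambdaPlace hζ)
        (by rw [hlam]; exact valuation_lambdaPlace hζ) he
    · exfalso
      obtain ⟨A, hA, ι, hι, hχ, hf⟩ := Φ.exists_inertia hμ (hζ := hζ) rfl D φ hθ hfix
        (D.inertiaDeg_of_eIdx_eq hfix he) (hover w p hv)
      obtain ⟨d, -, rfl⟩ := Subgroup.mem_map.mp hι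
      exact one_ne_zero (hf.symm.trans (Φ.split A hA _ d.2 hχ))
  have heig : ∀ (σ : K ≃ₐ[ℚ] K) (c : ℕ), σ ζ = ζ ^ c →
      Units.map (σ : K →* K) x / x ^ (c ^ 2) ∈ powSub K p := by
    intro σ c hc
    set s : Gb := σ.liftNormal Qb
    have hs : ∀ z : K, s (z : Qb) = ((σ z : K) : Qb) := fun z =>
      AlgEquiv.liftNormal_commutes σ Qb z
    have hχ : chiMod p s = (c : ZMod p) := by
      rw [← rootPow_eq_iff hμ, ← pow_eq_rootPow hμ, rootPow, ← apply_root hμ,
        show μ = ((ζ : K) : Qb) from rfl, hs, hc]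
      rfl
    have hmem := hθ₀.div_mem hμ s (s := c ^ 2) (by rw [hχ, Nat.cast_pow])
    set b : K := ⟨_, hmem⟩
    have hb0 : b ≠ 0 := fun h => div_ne_zero
      ((map_ne_zero s).mpr hθ₀.1) (pow_ne_zero _ hθ₀.1) (congrArg Subtype.val h)
    refine mem_powSub.mpr ⟨Units.mk0 b hb0, Units.ext (Subtype.ext ?_)⟩
    have e1 : ((σ a : K) : Qb) = s θ₀ ^ p := by rw [← hs, ← map_pow]
    show (s θ₀ / θ₀ ^ (c ^ 2)) ^ p = _
    rw [Units.val_div_eq_div_val, Units.val_pow_eq_pow_val]
    show _ = ((σ a / a ^ (c ^ 2) : K) : Qb)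
    push_cast
    rw [e1, div_pow, ← pow_mul, ← pow_mul, mul_comm p]
  exact false_of_radical h3 hζ hnot hord hunr heig

end FLTAgent.Ext
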